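import Fermat.Agent.Local.Integral
import Fermat.Prelude.Def_FLTPrelim_Ramification
import Mathlib.FieldTheory.Minpoly.Field

/-!
# Places of `ℚ̄`: valuations of integers, decomposition and inertia groups
-/

set_option autoImplicit false

open scoped Pointwise

namespace FermatAgent.Local

section General

variable {K L : Type*} [Field K] [Field L] [Algebra K L] {A : ValuationSubring L}

lemma decomposition_mem_iff {σ : L ≃ₐ[K] L} (hσ : σ ∈ A.decompositionSubgroup K) (z : L) :
    σ z ∈ A ↔ z ∈ A := by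
  conv_lhs => rw [← (MulAction.mem_stabilizer_iff.1 hσ : σ • A = A)]
  exact ValuationSubring.smul_mem_pointwise_smul_iff (g := σ) (S := A) (x := z)

lemma mem_decomposition_of_inertia {σ : L ≃ₐ[K] L} (hσ : σ ∈ A.inertiaSubgroupIn K) :
    σ ∈ A.decompositionSubgroup K := by
  obtain ⟨τ, -, rfl⟩ := Subgroup.mem_map.1 hσ
  exact τ.2

/-- inertia acts trivially on the residue field -/
lemma inertia_val_sub_lt_one {σ : L ≃ₐ[K] L} (hσ : σ ∈ A.inertiaSubgroupIn K) {z : L}
    (hz : z ∈ A) : A.valuation (σ z - z) < 1 := by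
  obtain ⟨τ, hτ, rfl⟩ := Subgroup.mem_map.1 hσ
  have h := RingEquiv.congr_fun (MonoidHom.mem_ker.1 hτ) (IsLocalRing.residue A ⟨z, hz⟩)
  change τ • IsLocalRing.residue A ⟨z, hz⟩ = IsLocalRing.residue A ⟨z, hz⟩ at h
  rw [← IsLocalRing.ResidueField.residue_smul, ← sub_eq_zero, ← map_sub,
    IsLocalRing.residue_eq_zero_iff] at h
  exact (A.valuation_lt_one_iff _).1 h

lemma decomposition_val_lt_iff {σ : L ≃ₐ[K] L} (hσ : σ ∈ A.decompositionSubgroup K) (a b : L) :
    A.valuation (σ a) < A.valuation (σ b) ↔ A.valuation a < A.valuation b := by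
  rcases eq_or_ne a 0 with rfl | ha
  · simp [zero_lt_iff, map_eq_zero]
  simp only [← not_le]
  rw [not_iff_not]
  have key : ∀ u v : L, v ≠ 0 → (A.valuation u ≤ A.valuation v ↔ u / v ∈ A) := fun u v hv => by
    rw [← A.valuation_le_one_iff, map_div₀, div_le_one₀ (zero_lt_iff.2 ((map_ne_zero _).2 hv))]
  rw [key _ _ ha, key _ _ (by simpa using ha), ← map_div₀, decomposition_mem_iff hσ]

/-- the decomposition group of an algebraic extension preserves the valuation -/
theorem decomposition_val_eq [Algebra.IsAlgebraic K L] {σ : L ≃ₐ[K] L}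
    (hσ : σ ∈ A.decompositionSubgroup K) (z : L) : A.valuation (σ z) = A.valuation z := by
  rcases eq_or_ne z 0 with rfl | hz
  · rw [map_zero]
  classical
  -- the orbit of `z` is finite
  have hfin : (Set.range fun k : ℕ => (σ ^ k) z).Finite := by
    refine ((minpoly K z).rootSet_finite L).subset ?_
    rintro _ ⟨k, rfl⟩
    rw [Polynomial.mem_rootSet_of_ne (minpoly.ne_zero (Algebra.IsAlgebraic.isAlgebraic z).isIntegral),
      Polynomial.aeval_algHom_apply, minpoly.aeval, map_zero]
  have key : ∀ τ : L ≃ₐ[K] L, τ ∈ A.decompositionSubgroup K →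
      (Set.range fun k : ℕ => (τ ^ k) z).Finite → ¬ A.valuation (τ z) < A.valuation z := by
    intro τ hτ hf hlt
    have hmono : StrictAnti fun k : ℕ => A.valuation ((τ ^ k) z) := by
      refine strictAnti_nat_of_succ_lt fun k => ?_
      induction k with
      | zero => simpa using hlt
      | succ k ih =>
        rw [pow_succ' τ (k + 1), AlgEquiv.mul_apply]
        nth_rw 2 [pow_succ' τ k]
        rw [AlgEquiv.mul_apply, decomposition_val_lt_iff hτ]
        exact ih
    exact Set.infinite_range_of_injective hmono.injective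
      ((hf.image A.valuation).subset (by rintro _ ⟨k, rfl⟩; exact ⟨_, ⟨k, rfl⟩, rfl⟩))
  refine le_antisymm (not_lt.1 fun hlt => ?_) (not_lt.1 (key σ hσ hfin))
  have hfin' : (Set.range fun k : ℕ => ((σ⁻¹ : L ≃ₐ[K] L) ^ k) z).Finite := by
    refine ((minpoly K z).rootSet_finite L).subset ?_
    rintro _ ⟨k, rfl⟩
    rw [Polynomial.mem_rootSet_of_ne (minpoly.ne_zero (Algebra.IsAlgebraic.isAlgebraic z).isIntegral),
      Polynomial.aeval_algHom_apply, minpoly.aeval, map_zero]
  refine key σ⁻¹ (inv_mem hσ) hfin' ?_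
  rw [← decomposition_val_lt_iff hσ]
  rwa [← AlgEquiv.mul_apply, mul_inv_cancel, AlgEquiv.one_apply]

end General

section Rat

variable {A : ValuationSubring (AlgebraicClosure ℚ)} {q : ℕ}

lemma val_natCast_lt_one (hA : A.LiesOverPrime q) :
    A.valuation (q : AlgebraicClosure ℚ) < 1 := hA

lemma val_intCast_lt_one_iff (hq : q.Prime) (hA : A.LiesOverPrime q) (m : ℤ) :
    A.valuation (m : AlgebraicClosure ℚ) < 1 ↔ (q : ℤ) ∣ m := by
  constructor
  · intro hm
    by_contra hnd
    obtain ⟨u, w, huw⟩ := (Prime.coprime_iff_not_dvd (Nat.prime_iff_prime_int.1 hq)).2 hnd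
    have h1 : ((u : AlgebraicClosure ℚ) * q + w * m) = 1 := by exact_mod_cast huw
    have : A.valuation ((u : AlgebraicClosure ℚ) * q + w * m) < 1 := by
      refine A.valuation.map_add_lt ?_ ?_ <;> rw [map_mul]
      · exact val_mul_lt_one_of_le_of_lt (val_le_one_of_mem (intCast_mem A u)) hA
      · exact val_mul_lt_one_of_le_of_lt (val_le_one_of_mem (intCast_mem A w)) hm
    rw [h1, map_one] at this
    exact lt_irrefl _ this
  · rintro ⟨k, rfl⟩
    rw [Int.cast_mul, map_mul, Int.cast_natCast]
    exact val_mul_lt_one_of_lt_of_le hA (val_le_one_of_mem (intCast_mem A k))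

lemma val_intCast_eq_one (hq : q.Prime) (hA : A.LiesOverPrime q) {m : ℤ} (hm : ¬ (q : ℤ) ∣ m) :
    A.valuation (m : AlgebraicClosure ℚ) = 1 :=
  le_antisymm (val_le_one_of_mem (intCast_mem A m))
    (not_lt.1 (mt (val_intCast_lt_one_iff hq hA m).1 hm))

lemma val_natCast_eq_one (hq : q.Prime) (hA : A.LiesOverPrime q) {n : ℕ} (hn : ¬ q ∣ n) :
    A.valuation (n : AlgebraicClosure ℚ) = 1 := by
  rw [← Int.cast_natCast]; exact val_intCast_eq_one hq hA (by rwa [Int.natCast_dvd_natCast])

/-- decomposition groups preserve the valuation -/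
theorem val_galois_eq {σ : AlgebraicClosure ℚ ≃ₐ[ℚ] AlgebraicClosure ℚ}
    (hσ : σ ∈ A.decompositionSubgroup ℚ) (z : AlgebraicClosure ℚ) :
    A.valuation (σ z) = A.valuation z :=
  @decomposition_val_eq _ _ _ _ _ _ (AlgebraicClosure.isAlgebraic ℚ) _ hσ z

/-- an element with exactly one conjugate root in a residue class is fixed by inertia: quadratic
case -/
theorem inertia_fix_quadratic {σ : AlgebraicClosure ℚ ≃ₐ[ℚ] AlgebraicClosure ℚ}
    (hσ : σ ∈ A.inertiaSubgroupIn ℚ) {a b e r : AlgebraicClosure ℚ}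
    (ha : σ a = a) (hb : σ b = b) (he : σ e = e) (haA : a ∈ A) (hr : r ∈ A)
    (hroot : a * r ^ 2 + b * r + e = 0) (hsimple : A.valuation (2 * a * r + b) = 1) :
    σ r = r := by
  have h1 : (σ r - r) * (a * (σ r + r) + b) = 0 := by
    have := congrArg σ hroot
    simp only [map_add, map_mul, map_pow, map_zero, ha, hb, he] at this
    linear_combination this - hroot
  rcases mul_eq_zero.1 h1 with h | h
  · exact sub_eq_zero.1 h
  · exfalso
    have hd := inertia_val_sub_lt_one hσ hr
    have hlt : A.valuation (2 * a * r + b) < 1 := by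
      rw [show 2 * a * r + b = (a * (σ r + r) + b) - a * (σ r - r) by ring, h, zero_sub,
        Valuation.map_neg, map_mul]
      exact val_mul_lt_one_of_le_of_lt (val_le_one_of_mem haA) hd
    exact hlt.ne hsimple

end Rat

end FermatAgent.Local
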