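import Fermat.Agent.Local.Integral
import Mathlib.AlgebraicGeometry.EllipticCurve.VariableChange

/-!
# Conjugating points by field endomorphisms, and by changes of variables
-/

set_option autoImplicit false

namespace FermatAgent.Local

open WeierstrassCurve WeierstrassCurve.Affine

variable {K : Type*} [Field K] (W : WeierstrassCurve.Affine K)

section Conj

variable (σ : K →+* K) (hσ : W.map σ = W)

include hσ in
lemma conj_nonsingular {x y : K} (h : W.Nonsingular x y) : W.Nonsingular (σ x) (σ y) := by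
  have := (W.map_nonsingular σ.injective x y).2 h
  rwa [hσ] at this

variable [DecidableEq K]

/-- the action of a field endomorphism fixing the coefficients on the points -/
noncomputable def conjPoint : W.Point →+ W.Point where
  toFun P := match P with
    | .zero => 0
    | .some x y h => .some (σ x) (σ y) (conj_nonsingular W σ hσ h)
  map_zero' := rfl
  map_add' := by
    rintro (_ | ⟨x₁, y₁, h₁⟩) (_ | ⟨x₂, y₂, h₂⟩)
    any_goals rfl
    have eN : ∀ x y, W.negY (σ x) (σ y) = σ (W.negY x y) := fun x y => by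
      conv_lhs => rw [← hσ]
      exact map_negY σ x y
    by_cases hxy : x₁ = x₂ ∧ y₁ = W.negY x₂ y₂
    · simp only [Point.add_of_Y_eq hxy.1 hxy.2]
      rw [Point.add_of_Y_eq (congrArg σ hxy.1) (by rw [hxy.2, eN])]
    · have eS : W.slope (σ x₁) (σ x₂) (σ y₁) (σ y₂) = σ (W.slope x₁ x₂ y₁ y₂) := by
        conv_lhs => rw [← hσ]
        exact map_slope σ x₁ x₂ y₁ y₂
      have eX : ∀ l, W.addX (σ x₁) (σ x₂) (σ l) = σ (W.addX x₁ x₂ l) := fun l => by
        conv_lhs => rw [← hσ]
        exact map_addX σ x₁ x₂ l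
      have eY : ∀ l, W.addY (σ x₁) (σ x₂) (σ y₁) (σ l) = σ (W.addY x₁ x₂ y₁ l) := fun l => by
        conv_lhs => rw [← hσ]
        exact map_addY σ x₁ y₁ x₂ l
      simp only [Point.add_some hxy]
      rw [Point.add_some fun h => hxy ⟨σ.injective h.1, σ.injective (h.2.trans (eN _ _))⟩]
      simp only [eS, eX, eY]


@[simp] lemma conjPoint_some {x y : K} (h : W.Nonsingular x y) :
    conjPoint W σ hσ (.some x y h) = .some (σ x) (σ y) (conj_nonsingular W σ hσ h) := rfl

end Conj

section VC

variable (C : VariableChange K)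

/-- the abscissa on `W` of a point of `C • W` -/
def vcX (x : K) : K := (C.u : K) ^ 2 * x + C.r

/-- the ordinate on `W` of a point of `C • W` -/
def vcY (x y : K) : K := (C.u : K) ^ 3 * y + C.s * (C.u : K) ^ 2 * x + C.t

lemma vc_equation (x y : K) :
    (C • W).toAffine.Equation x y ↔ W.Equation (vcX C x) (vcY C x y) := by
  have hu : (C.u : K) ≠ 0 := C.u.ne_zero
  simp only [equation_iff_zero, WeierstrassCurve.toAffine, WeierstrassCurve.variableChange_def,
    vcX, vcY, Units.val_inv_eq_inv_val]
  field_simp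
  constructor <;> intro h <;> linear_combination h

lemma vc_dY (x y : K) :
    dY (C • W).toAffine x y * (C.u : K) ^ 3 = dY W (vcX C x) (vcY C x y) := by
  have hu : (C.u : K) ≠ 0 := C.u.ne_zero
  simp only [dY, WeierstrassCurve.toAffine, WeierstrassCurve.variableChange_def, vcX, vcY,
    Units.val_inv_eq_inv_val]
  field_simp; ring

lemma vc_dX (x y : K) :
    dX (C • W).toAffine x y * (C.u : K) ^ 4
      = dX W (vcX C x) (vcY C x y) - C.s * dY W (vcX C x) (vcY C x y) := by
  have hu : (C.u : K) ≠ 0 := C.u.ne_zero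
  simp only [dX, dY, WeierstrassCurve.toAffine, WeierstrassCurve.variableChange_def, vcX, vcY,
    Units.val_inv_eq_inv_val]
  field_simp; ring

lemma nonsingular_iff_dX_dY (W : WeierstrassCurve.Affine K) (x y : K) :
    W.Nonsingular x y ↔ W.Equation x y ∧ (dX W x y ≠ 0 ∨ dY W x y ≠ 0) := by
  rw [nonsingular_iff']
  simp only [dX, dY, ne_eq]
  rw [← neg_sub, neg_eq_zero]

lemma vc_nonsingular (x y : K) :
    (C • W).toAffine.Nonsingular x y ↔ W.Nonsingular (vcX C x) (vcY C x y) := by
  have hu : (C.u : K) ≠ 0 := C.u.ne_zero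
  rw [nonsingular_iff_dX_dY, nonsingular_iff_dX_dY, vc_equation]
  refine and_congr_right fun _ => ?_
  rw [← not_iff_not]
  simp only [not_or, not_not, ne_eq]
  rw [← vc_dY]
  have h := vc_dX W C x y
  rw [← vc_dY] at h
  constructor
  · rintro ⟨h1, h2⟩
    simp only [h1, h2, zero_mul, mul_zero, sub_zero] at h ⊢
    exact ⟨h.symm, trivial⟩
  · rintro ⟨h1, h2⟩
    have h2' : dY (C • W).toAffine x y = 0 := (mul_eq_zero.1 h2).resolve_right (pow_ne_zero 3 hu)
    simp only [h1, h2', zero_mul, mul_zero, sub_zero] at h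
    exact ⟨(mul_eq_zero.1 h).resolve_right (pow_ne_zero 4 hu), h2'⟩

variable [DecidableEq K]

omit [DecidableEq K] in
lemma vcX_injective : Function.Injective (vcX C) := fun _ _ h =>
  mul_left_cancel₀ (pow_ne_zero 2 C.u.ne_zero) (add_right_cancel h)

omit [DecidableEq K] in
lemma vcY_injective (x : K) : Function.Injective (vcY C x) := fun a b h => by
  simp only [vcY, add_left_inj] at h
  exact mul_left_cancel₀ (pow_ne_zero 3 C.u.ne_zero) h

/-- the isomorphism on points attached to a change of variables -/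
noncomputable def vcHom : (C • W).toAffine.Point →+ W.Point where
  toFun P := match P with
    | .zero => 0
    | .some x y h => .some (vcX C x) (vcY C x y) ((vc_nonsingular W C x y).1 h)
  map_zero' := rfl
  map_add' := by
    rintro (_ | ⟨x₁, y₁, h₁⟩) (_ | ⟨x₂, y₂, h₂⟩)
    any_goals rfl
    have hu : (C.u : K) ≠ 0 := C.u.ne_zero
    have eN : ∀ x y, vcY C x ((C • W).toAffine.negY x y) = W.negY (vcX C x) (vcY C x y) := by
      intro x y
      simp only [vcX, vcY, negY, WeierstrassCurve.toAffine, WeierstrassCurve.variableChange_def,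
        Units.val_inv_eq_inv_val]
      field_simp; ring
    by_cases hxy : x₁ = x₂ ∧ y₁ = (C • W).toAffine.negY x₂ y₂
    · simp only [Point.add_of_Y_eq hxy.1 hxy.2]
      rw [Point.add_of_Y_eq (congrArg (vcX C) hxy.1) (by rw [hxy.1, hxy.2, eN])]
    · simp only [Point.add_some hxy]
      have hxy' : ¬ (vcX C x₁ = vcX C x₂ ∧ vcY C x₁ y₁ = W.negY (vcX C x₂) (vcY C x₂ y₂)) := by
        rintro ⟨ha, hb⟩
        obtain rfl := vcX_injective C ha
        exact hxy ⟨rfl, vcY_injective C _ (hb.trans (eN _ _).symm)⟩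
      rw [Point.add_some hxy']
      have eS : W.slope (vcX C x₁) (vcX C x₂) (vcY C x₁ y₁) (vcY C x₂ y₂)
          = (C.u : K) * (C • W).toAffine.slope x₁ x₂ y₁ y₂ + C.s := by
        by_cases hx : x₁ = x₂
        · have hy : y₁ = y₂ := (Y_eq_of_X_eq h₁.1 h₂.1 hx).resolve_right fun h => hxy ⟨hx, h⟩
          subst hx hy
          have hne : y₁ ≠ (C • W).toAffine.negY x₁ y₁ := fun h => hxy ⟨rfl, h⟩
          rw [slope_of_Y_ne rfl hne, slope_of_Y_ne rfl (fun h => hxy' ⟨rfl, h⟩)]
          have hd : y₁ - (C • W).toAffine.negY x₁ y₁ = dY (C • W).toAffine x₁ y₁ := by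
            simp only [negY, dY]; ring
          have hd' : vcY C x₁ y₁ - W.negY (vcX C x₁) (vcY C x₁ y₁)
              = dY W (vcX C x₁) (vcY C x₁ y₁) := by simp only [negY, dY]; ring
          have hdne : dY (C • W).toAffine x₁ y₁ ≠ 0 := hd ▸ sub_ne_zero.2 hne
          have hn := vc_dX W C x₁ y₁
          rw [← vc_dY] at hn
          rw [hd, hd', ← vc_dY]
          simp only [dX] at hn
          field_simp
          linear_combination -hn
        · have hne : x₁ - x₂ ≠ 0 := sub_ne_zero.2 hx
          rw [slope_of_X_ne hx, slope_of_X_ne fun h => hx (vcX_injective C h)]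
          simp only [vcX, vcY]
          rw [show (C.u : K) ^ 2 * x₁ + C.r - ((C.u : K) ^ 2 * x₂ + C.r)
            = (C.u : K) ^ 2 * (x₁ - x₂) by ring]
          field_simp
          ring
      simp only [eS]
      simp only [Point.some.injEq]
      generalize (C • W).toAffine.slope x₁ x₂ y₁ y₂ = l
      constructor <;>
        simp only [addX, addY, negAddY, negY, vcX, vcY, WeierstrassCurve.toAffine,
          WeierstrassCurve.variableChange_def, Units.val_inv_eq_inv_val] <;>
        field_simp <;> ring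

@[simp] lemma vcHom_some {x y : K} (h : (C • W).toAffine.Nonsingular x y) :
    vcHom W C (.some x y h) =
      .some (vcX C x) (vcY C x y) ((vc_nonsingular W C x y).1 h) := rfl

lemma vcHom_bijective : Function.Bijective (vcHom W C) := by
  have hu : (C.u : K) ≠ 0 := C.u.ne_zero
  constructor
  · rintro (_ | ⟨x₁, y₁, h₁⟩) (_ | ⟨x₂, y₂, h₂⟩) h
    · rfl
    · exact absurd h.symm (Point.some_ne_zero _)
    · exact absurd h (Point.some_ne_zero _)
    · simp only [vcHom_some, Point.some.injEq] at h
      obtain rfl := vcX_injective C h.1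
      obtain rfl := vcY_injective C _ h.2
      rfl
  · rintro (_ | ⟨x, y, h⟩)
    · exact ⟨0, rfl⟩
    · obtain ⟨x', hx⟩ : ∃ x', vcX C x' = x := ⟨(x - C.r) / (C.u : K) ^ 2, by
        simp only [vcX]; field_simp; ring⟩
      obtain ⟨y', hy⟩ : ∃ y', vcY C x' y' = y :=
        ⟨(y - C.s * (C.u : K) ^ 2 * x' - C.t) / (C.u : K) ^ 3, by
          simp only [vcY]; field_simp; ring⟩
      subst hx hy
      exact ⟨.some x' y' ((vc_nonsingular W C x' y').2 h), rfl⟩

end VC

end FermatAgent.Local
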