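import Fermat.Agent.Local.Place
import Fermat.Agent.Local.PointMaps

/-!
# Good reduction: inertia fixes torsion of order prime to the residue characteristic
-/

set_option autoImplicit false

open scoped WeierstrassCurve.Affine

namespace FermatAgent.Local

open WeierstrassCurve WeierstrassCurve.Affine

local notation "Qb" => AlgebraicClosure ℚ

/-- a curve over `ℤ`, as a curve over `ℚ̄` -/
noncomputable abbrev qbarCurve (W : WeierstrassCurve ℤ) : WeierstrassCurve.Affine Qb :=
  (W.map (Int.castRingHom ℚ))⁄Qb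

lemma qbarCurve_eq (W : WeierstrassCurve ℤ) : qbarCurve W = W.map (Int.castRingHom Qb) := by
  show (W.map (Int.castRingHom ℚ)).map (algebraMap ℚ Qb) = W.map (Int.castRingHom Qb)
  rw [WeierstrassCurve.map_map]
  congr 1

lemma qbarCurve_intCoeffs (W : WeierstrassCurve ℤ) (A : ValuationSubring Qb) :
    IntCoeffs A (qbarCurve W) := by
  rw [qbarCurve_eq]
  constructor <;> exact intCast_mem A _

lemma qbarCurve_Δ (W : WeierstrassCurve ℤ) : (qbarCurve W).Δ = (W.Δ : Qb) := by
  rw [qbarCurve_eq]; exact W.map_Δ _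

lemma qbarCurve_conj (W : WeierstrassCurve ℤ) (σ : Qb →+* Qb) :
    (qbarCurve W).map σ = qbarCurve W := by
  rw [qbarCurve_eq]
  show (W.map (Int.castRingHom Qb)).map σ = W.map (Int.castRingHom Qb)
  rw [WeierstrassCurve.map_map]
  congr 1
  exact RingHom.ext_int _ _

/-- An integral smooth torsion point is fixed by inertia. -/
theorem inertia_fix_smooth {A : ValuationSubring Qb} {W : WeierstrassCurve.Affine Qb}
    (hW : IntCoeffs A W) {σ : Qb ≃ₐ[ℚ] Qb} (hσ : σ ∈ A.inertiaSubgroupIn ℚ)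
    (hfix : W.map (σ : Qb →+* Qb) = W) {n : ℕ} (hn : A.valuation (n : Qb) = 1) {P : W.Point}
    (hP : n • P = 0) (hE : InE0 A W P) : conjPoint W (σ : Qb →+* Qb) hfix P = P := by
  rcases P with _ | ⟨x, y, h⟩
  · rfl
  have hxA : x ∈ A := x_mem_of_nsmul_eq_zero hW hn h hP
  have hs : SmoothRed A W x y := hE.resolve_left (not_not.2 hxA)
  have hyA := y_mem_of_x_mem hW h.1 hxA
  have hQ : n • conjPoint W (σ : Qb →+* Qb) hfix (.some x y h) = 0 := by
    rw [← map_nsmul, hP, map_zero]
  rw [conjPoint_some] at hQ ⊢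
  refine (eq_of_congr hW hn h _ hs ?_ ?_ hP hQ).symm
  · rw [Valuation.map_sub_swap]; exact inertia_val_sub_lt_one hσ hxA
  · rw [Valuation.map_sub_swap]; exact inertia_val_sub_lt_one hσ hyA

lemma galois_smul_eq_conjPoint (W : WeierstrassCurve ℤ) (σ : Qb ≃ₐ[ℚ] Qb)
    (P : (qbarCurve W).Point) :
    σ • P = conjPoint (qbarCurve W) (σ : Qb →+* Qb) (qbarCurve_conj W _) P := by
  rcases P with _ | ⟨x, y, h⟩
  · rfl
  · rw [WeierstrassCurve.Affine.Point.algEquiv_smul_def]
    rfl

/-- Néron–Ogg–Shafarevich, good reduction direction. -/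
theorem galoisRepUnramifiedAt_of_good (W : WeierstrassCurve ℤ) {q : ℕ} (hq : q.Prime)
    (hgood : ¬ (q : ℤ) ∣ W.Δ) {n : ℕ} (hn : ¬ q ∣ n) :
    WeierstrassCurve.Affine.Point.GaloisRepUnramifiedAt (K := Qb) ℚ
      (W.map (Int.castRingHom ℚ)) n q := by
  intro A hA σ hσ x
  obtain ⟨P, hP⟩ := x
  refine Subtype.ext ?_
  show σ • P = P
  rw [Submodule.mem_torsionBy_iff, natCast_zsmul] at hP
  rw [galois_smul_eq_conjPoint]
  have hW := qbarCurve_intCoeffs W A
  have hv := val_natCast_eq_one hq hA hn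
  refine inertia_fix_smooth hW hσ _ hv hP ?_
  rcases P with _ | ⟨a, b, h⟩
  · trivial
  · refine (em (a ∈ A)).symm.imp id fun ha => ?_
    exact smoothRed_of_goodReduction hW (by rw [qbarCurve_Δ]; exact val_intCast_eq_one hq hA hgood)
      h.1 ha

end FermatAgent.Local
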