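import Fermat.Agent.Local.Mult
import Fermat.Prelude.Def_EllipticCurve_FrobeniusTrace
import Fermat.Prelude.Def_GaloisRep_Residual
import Mathlib.FieldTheory.IsAlgClosed.Basic

/-!
# The `n`-torsion of an elliptic curve has `n²` points
-/

set_option autoImplicit false

open Polynomial

namespace FermatAgent.Local

open WeierstrassCurve WeierstrassCurve.Affine

variable {K : Type*} [Field K] [DecidableEq K] [IsAlgClosed K] (W : WeierstrassCurve.Affine K)

omit [DecidableEq K] in
lemma exists_point_over (hΔ : W.Δ ≠ 0) (r : K) : ∃ y : K, W.Nonsingular r y := by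
  obtain ⟨y, hy⟩ := IsAlgClosed.exists_root
    (Polynomial.X ^ 2 + C (W.a₁ * r + W.a₃) * Polynomial.X
      - C (r ^ 3 + W.a₂ * r ^ 2 + W.a₄ * r + W.a₆)) (by
        have : (Polynomial.X ^ 2 + C (W.a₁ * r + W.a₃) * Polynomial.X
          - C (r ^ 3 + W.a₂ * r ^ 2 + W.a₄ * r + W.a₆)).degree = 2 := by compute_degree!
        rw [this]; exact two_ne_zero)
  refine ⟨y, (equation_iff_nonsingular_of_Δ_ne_zero hΔ).1 ((equation_iff_zero W r y).2 ?_)⟩
  simp only [IsRoot, eval_sub, eval_add, eval_mul, eval_pow, eval_X, eval_C] at hy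
  linear_combination hy

lemma Φ_ΨSq_no_common_root (hΔ : W.Δ ≠ 0) {n : ℕ} (hn : n ≠ 0) (r : K)
    (hΨ : (W.ΨSq n).eval r = 0) : (W.Φ n).eval r ≠ 0 := by
  intro hΦ
  obtain ⟨y, h⟩ := exists_point_over W hΔ r
  obtain ⟨m, rfl⟩ : ∃ m, n = m + 1 := ⟨n - 1, by omega⟩
  have hz := (nsmul_eq_zero_iff h (m + 1)).2 hΨ
  rw [← psiVal_mul_eq W h.1, psiVal_sq W h.1, hΨ, mul_zero, zero_sub, neg_eq_zero,
    mul_eq_zero] at hΦ
  rcases hΦ with h0 | h0
  · have := (mulFormula h (m + 2)).1 (by push_cast at h0 ⊢; rwa [add_assoc] at h0)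
    rw [succ_nsmul, hz, zero_add] at this
    exact Point.some_ne_zero h this
  · have := (mulFormula h m).1 (by simpa using h0)
    rw [succ_nsmul, this, zero_add] at hz
    exact Point.some_ne_zero h hz

omit [DecidableEq K] [IsAlgClosed K] in
lemma natDegree_wronskian_ne_zero {n : ℕ} (hn : (n : K) ≠ 0) :
    derivative (W.Φ n) * W.ΨSq n - W.Φ n * derivative (W.ΨSq n) ≠ 0 := by
  have hn0 : n ≠ 0 := fun h => hn (by simp [h])
  obtain ⟨m, hm⟩ : ∃ m, n ^ 2 = m + 1 := ⟨n ^ 2 - 1, by
    have : 0 < n ^ 2 := by positivity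
    omega⟩
  have hF : (W.Φ n).natDegree ≤ m + 1 := by
    have := W.natDegree_Φ_le n; simp only [Int.natAbs_natCast] at this; omega
  have hG : (W.ΨSq n).natDegree ≤ m := by
    have := W.natDegree_ΨSq_le n; simp only [Int.natAbs_natCast] at this; omega
  have cF : (W.Φ n).coeff (m + 1) = 1 := by
    have := W.coeff_Φ n; simp only [Int.natAbs_natCast, hm] at this; exact this
  have cG : (W.ΨSq n).coeff m = (n : K) ^ 2 := by
    have := W.coeff_ΨSq n
    simp only [Int.natAbs_natCast, hm, add_tsub_cancel_right] at this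
    simpa using this
  have hm' : ((m : K) + 1) = (n : K) ^ 2 := by exact_mod_cast congrArg (Nat.cast (R := K)) hm.symm
  intro h0
  have e1 : (derivative (W.Φ n) * W.ΨSq n).coeff (m + m) = ((m : K) + 1) * (n : K) ^ 2 := by
    rw [coeff_mul_add_eq_of_natDegree_le (natDegree_derivative_le _ |>.trans (by omega)) hG,
      coeff_derivative, cF, cG]
    ring
  have e2 : (W.Φ n * derivative (W.ΨSq n)).coeff (m + m) = (m : K) * (n : K) ^ 2 := by
    rcases Nat.eq_zero_or_pos m with rfl | hpos
    · rw [eq_C_of_natDegree_le_zero hG]; simp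
    · obtain ⟨m', rfl⟩ : ∃ m', m = m' + 1 := ⟨m - 1, by omega⟩
      rw [show m' + 1 + (m' + 1) = (m' + 1 + 1) + m' by omega,
        coeff_mul_add_eq_of_natDegree_le hF (natDegree_derivative_le _ |>.trans (by omega)),
        coeff_derivative, cF, cG]
      push_cast; ring
  have := congrArg (coeff · (m + m)) h0
  simp only [coeff_sub, e1, e2, coeff_zero] at this
  exact pow_ne_zero 2 hn (by linear_combination this)

theorem card_nsmul_ker (hΔ : W.Δ ≠ 0) {n : ℕ} (hn : (n : K) ≠ 0) :
    Nat.card {P : W.Point // n • P = 0} = n ^ 2 := by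
  classical
  have hn0 : n ≠ 0 := fun h => hn (by simp [h])
  set F := W.Φ n with hF
  set G := W.ΨSq n with hG
  have hW : derivative F * G - F * derivative G ≠ 0 := natDegree_wronskian_ne_zero W hn
  -- choose a generic target abscissa
  have hΨ₂ : W.Ψ₂Sq ≠ 0 := by
    intro h0
    have hb6 : W.b₆ = 0 := by
      simpa [WeierstrassCurve.Ψ₂Sq, coeff_C] using congrArg (coeff · 0) h0
    have hb4 : (2 : K) * W.b₄ = 0 := by
      simpa [WeierstrassCurve.Ψ₂Sq, coeff_C, coeff_X] using congrArg (coeff · 1) h0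
    have hb2 : W.b₂ = 0 := by
      simpa [WeierstrassCurve.Ψ₂Sq, coeff_C, coeff_X] using congrArg (coeff · 2) h0
    have h4 : (4 : K) = 0 := by
      simpa [WeierstrassCurve.Ψ₂Sq, coeff_C, coeff_X] using congrArg (coeff · 3) h0
    have h2 : (2 : K) = 0 := by
      have : (2 : K) * 2 = 0 := by linear_combination h4
      simpa using this
    apply hΔ
    rw [WeierstrassCurve.Δ, hb2, hb6]
    linear_combination (-4 * W.b₄ ^ 3) * h2
  let bad : Finset K := ((derivative F * G - F * derivative G).roots.toFinset.image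
    fun r => F.eval r / G.eval r) ∪ W.Ψ₂Sq.roots.toFinset
  obtain ⟨t, ht⟩ := Infinite.exists_notMem_finset bad
  simp only [bad, Finset.mem_union, Finset.mem_image, Multiset.mem_toFinset, Polynomial.mem_roots', ne_eq, hW, hΨ₂, not_false_eq_true, true_and, IsRoot, not_or, not_exists, not_and] at ht
  obtain ⟨ht1, ht2⟩ := ht
  set H := F - C t * G with hH
  have hFd : F.natDegree = n ^ 2 := by rw [hF, W.natDegree_Φ]; simp
  have hGd : G.natDegree < F.natDegree := by
    rw [hFd]
    calc G.natDegree ≤ n ^ 2 - 1 := by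
          have := W.natDegree_ΨSq_le n; rwa [Int.natAbs_natCast] at this
      _ < n ^ 2 := by have : 0 < n ^ 2 := by positivity
                      omega
  have hHd : H.natDegree = n ^ 2 := by
    rw [hH, natDegree_sub_eq_left_of_natDegree_lt ((natDegree_C_mul_le _ _).trans_lt hGd), hFd]
  have hH0 : H ≠ 0 := ne_zero_of_natDegree_gt (n := 0) (by rw [hHd]; positivity)
  have hGr : ∀ r, H.eval r = 0 → G.eval r ≠ 0 := by
    intro r hr hg
    apply Φ_ΨSq_no_common_root W hΔ hn0 r hg
    simpa [hH, hg] using hr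
  have hnd : H.roots.Nodup := by
    rw [Multiset.nodup_iff_count_le_one]
    intro r
    rw [count_roots]
    by_contra hlt
    rw [not_le, one_lt_rootMultiplicity_iff_isRoot hH0] at hlt
    obtain ⟨hr, hr'⟩ := hlt
    have hg := hGr r hr
    simp only [IsRoot, hH, eval_sub, eval_mul, eval_C, derivative_sub, derivative_C_mul] at hr hr'
    refine ht1 r ?_ ?_
    · simp only [eval_sub, eval_mul]; linear_combination G.eval r * hr' - (derivative G).eval r * hr
    · field_simp; linear_combination hr
  set T := H.roots.toFinset with hT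
  have hTc : T.card = n ^ 2 := by
    rw [hT, Multiset.toFinset_card_of_nodup hnd,
      IsAlgClosed.card_roots_eq_natDegree, hHd]
  choose yy hyy using exists_point_over W hΔ
  obtain ⟨Q, hQdef⟩ : ∃ Q, Q = Point.some t (yy t) (hyy t) := ⟨_, rfl⟩
  have hQne : Q ≠ -Q := by
    intro h
    rw [hQdef, Point.neg_some, Point.some.injEq] at h
    apply ht2
    rw [← psi2Val_sq W (hyy t).1]
    have h2 := h.2; rw [negY] at h2
    linear_combination (2 * yy t + W.a₁ * t + W.a₃) * h2
  let S := {P : W.Point // n • P = Q ∨ n • P = -Q}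
  -- the abscissae of the fibre
  have hmemT : ∀ (x y : K) (h : W.Nonsingular x y),
      (n • Point.some x y h = Q ∨ n • Point.some x y h = -Q) ↔ x ∈ T := by
    intro x y h
    rw [hT, Multiset.mem_toFinset, mem_roots hH0, IsRoot]
    constructor
    · intro hP
      have hne : (W.ΨSq n).eval x ≠ 0 := fun h0 => by
        rw [(nsmul_eq_zero_iff h n).2 h0] at hP
        rcases hP with hP | hP
        · exact Point.some_ne_zero (hyy t) (hQdef ▸ hP.symm)
        · rw [eq_neg_iff_add_eq_zero, zero_add] at hP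
          exact Point.some_ne_zero (hyy t) (hQdef ▸ hP)
      obtain ⟨x', y', h', e, hx'⟩ := nsmul_eq_some h n hne
      have : x' = t := by
        rw [e, hQdef, Point.neg_some] at hP
        rcases hP with hP | hP <;> simp at hP <;> exact hP.1
      subst this
      simp only [hH, hF, hG, eval_sub, eval_mul, eval_C]
      linear_combination -hx'
    · intro hr
      obtain ⟨x', y', h', e, hx'⟩ := nsmul_eq_some h n (hGr x hr)
      have : x' = t := by
        simp only [hH, hF, hG, eval_sub, eval_mul, eval_C] at hr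
        exact mul_right_cancel₀ (hGr x (by
          simp only [hH, hF, hG, eval_sub, eval_mul, eval_C]; exact hr))
          (by linear_combination hx' + hr)
      subst this
      rw [e, hQdef]
      exact (Point.X_eq_iff (h₁ := h') (h₂ := hyy x')).1 rfl
  -- first count of `S`
  let f : ↥T × Bool → S := fun rb =>
    ⟨if rb.2 then Point.some _ _ (hyy rb.1) else -Point.some _ _ (hyy rb.1), by
      split_ifs
      · exact (hmemT _ _ _).2 rb.1.2
      · rw [Point.neg_some]; exact (hmemT _ _ _).2 rb.1.2⟩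
  have hne2 : ∀ r ∈ T, Point.some _ _ (hyy r) ≠ -Point.some _ _ (hyy r) := by
    intro r hr h
    have := congrArg (n • ·) h
    simp only [neg_nsmul] at this
    rcases (hmemT _ _ (hyy r)).2 hr with e | e <;> rw [e] at this
    · exact hQne this
    · exact hQne (by rw [neg_neg] at this; exact this.symm)
  have hf : Function.Bijective f := by
    constructor
    · rintro ⟨⟨r, hr⟩, b⟩ ⟨⟨r', hr'⟩, b'⟩ h
      have h := congrArg Subtype.val h
      simp only [f] at h
      have hrr : r = r' := by
        cases b <;> cases b' <;> simp [Point.neg_some] at h <;> exact h.1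
      subst hrr
      cases b <;> cases b' <;> simp only [if_true, if_false, Bool.false_eq_true] at h ⊢
      · exact absurd h.symm (hne2 r hr)
      · exact absurd h (hne2 r hr)
    · rintro ⟨P, hP⟩
      match P, hP with
      | .zero, hP =>
        rw [← Point.zero_def, nsmul_zero] at hP
        rcases hP with hP | hP
        · exact absurd hP.symm (hQdef ▸ Point.some_ne_zero (hyy t))
        · rw [eq_comm, neg_eq_zero] at hP
          exact absurd hP (hQdef ▸ Point.some_ne_zero (hyy t))
      | .some x y h, hP =>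
        have hx := (hmemT x y h).1 hP
        rcases (Point.X_eq_iff (h₁ := h) (h₂ := hyy x)).1 rfl with e | e
        · exact ⟨(⟨x, hx⟩, true), Subtype.ext (by simp [f, e])⟩
        · exact ⟨(⟨x, hx⟩, false), Subtype.ext (by simp [f, e])⟩
  -- second count of `S`
  obtain ⟨r₀, hr₀⟩ : T.Nonempty := Finset.card_pos.1 (by rw [hTc]; positivity)
  obtain ⟨P₀, hP₀⟩ : ∃ P₀ : W.Point, n • P₀ = Q := by
    rcases (hmemT _ _ (hyy r₀)).2 hr₀ with e | e
    · exact ⟨_, e⟩
    · exact ⟨-Point.some _ _ (hyy r₀), by rw [neg_nsmul, e, neg_neg]⟩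
  let g : {P : W.Point // n • P = 0} × Bool → S := fun kb =>
    ⟨if kb.2 then P₀ + kb.1 else -(P₀ + kb.1), by
      split_ifs
      · exact Or.inl (by rw [nsmul_add, hP₀, kb.1.2, add_zero])
      · exact Or.inr (by rw [neg_nsmul, nsmul_add, hP₀, kb.1.2, add_zero])⟩
  have hg : Function.Bijective g := by
    constructor
    · rintro ⟨k, b⟩ ⟨k', b'⟩ h
      have h := congrArg Subtype.val h
      simp only [g] at h
      have h' := congrArg (n • ·) h
      cases b <;> cases b' <;>
        simp only [if_true, if_false, Bool.false_eq_true, neg_nsmul, nsmul_add, hP₀, k.2, k'.2,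
          add_zero] at h h'
      · simp [Subtype.ext (add_left_cancel (neg_inj.1 h))]
      · exact absurd h'.symm hQne
      · exact absurd h' hQne
      · simp [Subtype.ext (add_left_cancel h)]
    · rintro ⟨P, hP | hP⟩
      · exact ⟨(⟨P - P₀, by rw [nsmul_sub, hP, hP₀, sub_self]⟩, true),
          Subtype.ext (by simp [g])⟩
      · exact ⟨(⟨-P - P₀, by rw [nsmul_sub, neg_nsmul, hP, hP₀, neg_neg, sub_self]⟩, false),
          Subtype.ext (by simp [g])⟩
  have h1 := Nat.card_congr ((Equiv.ofBijective g hg).trans (Equiv.ofBijective f hf).symm)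
  rw [Nat.card_prod, Nat.card_prod, Nat.card_eq_finsetCard, hTc,
    show Nat.card Bool = 2 by simp] at h1
  omega

theorem card_torsionBy {n : ℕ} (hΔ : W.Δ ≠ 0) (hn : (n : K) ≠ 0) :
    Nat.card (Submodule.torsionBy ℤ W.Point (n : ℤ)) = n ^ 2 := by
  rw [← card_nsmul_ker W hΔ hn]
  exact Nat.card_congr (Equiv.subtypeEquivRight fun P => by
    rw [Submodule.mem_torsionBy_iff, natCast_zsmul])

section Rat

open scoped WeierstrassCurve.Affine

variable (E : WeierstrassCurve ℚ)

theorem card_torsion_qbar (hΔ : E.Δ ≠ 0) {n : ℕ} (hn : n ≠ 0) :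
    Nat.card (Submodule.torsionBy ℤ (E⁄(AlgebraicClosure ℚ)).Point n) = n ^ 2 :=
  card_torsionBy (E⁄(AlgebraicClosure ℚ))
    (by
      show (E.map (algebraMap ℚ (AlgebraicClosure ℚ))).Δ ≠ 0
      rw [WeierstrassCurve.map_Δ]; exact (_root_.map_ne_zero _).2 hΔ) (by exact_mod_cast hn)

theorem finite_torsion_qbar (hΔ : E.Δ ≠ 0) {n : ℕ} (hn : n ≠ 0) :
    Finite (Submodule.torsionBy ℤ (E⁄(AlgebraicClosure ℚ)).Point n) :=
  Nat.finite_of_card_ne_zero (by rw [card_torsion_qbar E hΔ hn]; positivity)

theorem galoisRep_factorsThroughFiniteLevel (hΔ : E.Δ ≠ 0) {n : ℕ} (hn : n ≠ 0) :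
    GaloisFactorsThroughFiniteLevel
      (WeierstrassCurve.Affine.Point.galoisRepModuleEnd (K := AlgebraicClosure ℚ) ℚ E n) := by
  classical
  have : Finite (Submodule.torsionBy ℤ (E⁄(AlgebraicClosure ℚ)).Point n) :=
    finite_torsion_qbar E hΔ hn
  let coords : (E⁄(AlgebraicClosure ℚ)).Point → Set (AlgebraicClosure ℚ) := fun P =>
    match P with
    | .zero => ∅
    | .some x y _ => {x, y}
  let s : Set (AlgebraicClosure ℚ) :=
    ⋃ P : Submodule.torsionBy ℤ (E⁄(AlgebraicClosure ℚ)).Point n, coords P.1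
  have hs : s.Finite := Set.finite_iUnion fun P => by
    rcases hP : P.1 with _ | ⟨x, y, h⟩ <;> simp [coords]
  refine ⟨IntermediateField.adjoin ℚ s,
    haveI := hs.to_subtype
    IntermediateField.finiteDimensional_adjoin fun x _ =>
      ((AlgebraicClosure.isAlgebraic ℚ).isAlgebraic x).isIntegral, fun σ hσ => ?_⟩
  refine LinearMap.ext fun P => Subtype.ext ?_
  have hsub : coords P.1 ⊆ s := Set.subset_iUnion (fun P : Submodule.torsionBy ℤ _ _ => coords P.1) P
  show σ • P.1 = P.1
  rcases hP : P.1 with _ | ⟨x, y, h⟩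
  · rfl
  · rw [hP] at hsub
    rw [WeierstrassCurve.Affine.Point.algEquiv_smul_def, Point.map_some]
    simp [hσ x (IntermediateField.subset_adjoin ℚ s (hsub (Or.inl rfl))),
      hσ y (IntermediateField.subset_adjoin ℚ s (hsub (Or.inr rfl)))]

end Rat

end FermatAgent.Local
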