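import Fermat.Agent.Local.TorsionCount
import Mathlib.RingTheory.Valuation.ValuationSubring
import Mathlib.RingTheory.LocalRing.ResidueField.Basic

/-!
# Integral Weierstrass equations over a valuation subring

`E₁` (points with non-integral abscissa, and `0`) and `E₀` (points with smooth reduction) are
subgroups; two points with the same smooth reduction differ by an element of `E₁`; torsion of
order prime to the residue characteristic has integral coordinates.
-/

set_option autoImplicit false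

open Polynomial

namespace FermatAgent.Local

open WeierstrassCurve WeierstrassCurve.Affine

variable {K : Type*} [Field K] (A : ValuationSubring K) (W : WeierstrassCurve.Affine K)

/-- all the coefficients lie in `A` -/
structure IntCoeffs : Prop where
  a₁ : W.a₁ ∈ A
  a₂ : W.a₂ ∈ A
  a₃ : W.a₃ ∈ A
  a₄ : W.a₄ ∈ A
  a₆ : W.a₆ ∈ A

/-- `∂/∂y` of the Weierstrass equation -/
def dY (x y : K) : K := 2 * y + W.a₁ * x + W.a₃

/-- minus `∂/∂x` of the Weierstrass equation -/
def dX (x y : K) : K := 3 * x ^ 2 + 2 * W.a₂ * x + W.a₄ - W.a₁ * y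

/-- integral point with smooth reduction -/
def SmoothRed (x y : K) : Prop :=
  x ∈ A ∧ (A.valuation (dY W x y) = 1 ∨ A.valuation (dX W x y) = 1)

/-- the point lies in `E₁` -/
def InE1 (P : W.Point) : Prop :=
  match P with
  | .zero => True
  | .some x _ _ => x ∉ A

/-- the point lies in `E₀` -/
def InE0 (P : W.Point) : Prop :=
  match P with
  | .zero => True
  | .some x y _ => x ∉ A ∨ SmoothRed A W x y

variable {A W}

lemma InE1.inE0 {P : W.Point} (h : InE1 A W P) : InE0 A W P := by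
  rcases P with _ | ⟨x, y, hP⟩
  exacts [trivial, Or.inl h]

lemma val_lt_one_of_mem_of_ne {a : K} (ha : a ∈ A) (h : A.valuation a ≠ 1) :
    A.valuation a < 1 := lt_of_le_of_ne ((A.valuation_le_one_iff a).2 ha) h

lemma mem_of_val_le_one {a : K} (h : A.valuation a ≤ 1) : a ∈ A := (A.valuation_le_one_iff a).1 h

lemma val_le_one_of_mem {a : K} (h : a ∈ A) : A.valuation a ≤ 1 := (A.valuation_le_one_iff a).2 h

lemma one_lt_val_of_not_mem {a : K} (h : a ∉ A) : 1 < A.valuation a :=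
  lt_of_not_ge fun hle => h (mem_of_val_le_one hle)

lemma val_mul_lt_one_of_le_of_lt {u w : A.ValueGroup} (hu : u ≤ 1) (hw : w < 1) : u * w < 1 :=
  (mul_le_of_le_one_left' hu).trans_lt hw

lemma val_mul_lt_one_of_lt_of_le {u w : A.ValueGroup} (hu : u < 1) (hw : w ≤ 1) : u * w < 1 :=
  (mul_le_of_le_one_right' hw).trans_lt hu

lemma one_lt_mul_of_lt {u w : A.ValueGroup} (hu : 1 < u) (hw : 1 < w) : 1 < u * w :=
  hw.trans_le (le_mul_of_one_le_left' hu.le)

lemma y_mem_of_x_mem (hW : IntCoeffs A W) {x y : K} (h : W.Equation x y) (hx : x ∈ A) :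
    y ∈ A := by
  refine mem_of_val_le_one (le_of_not_gt fun hy => ?_)
  have hlin : W.a₁ * x + W.a₃ ∈ A := add_mem (mul_mem hW.a₁ hx) hW.a₃
  have h1 : A.valuation (y + (W.a₁ * x + W.a₃)) = A.valuation y :=
    A.valuation.map_add_eq_of_lt_left ((val_le_one_of_mem hlin).trans_lt hy)
  have h2 : A.valuation (y * (y + (W.a₁ * x + W.a₃))) ≤ 1 := by
    rw [show y * (y + (W.a₁ * x + W.a₃)) = x ^ 3 + W.a₂ * x ^ 2 + W.a₄ * x + W.a₆ by
      linear_combination (equation_iff_zero W x y).1 h]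
    exact val_le_one_of_mem (add_mem (add_mem (add_mem (pow_mem hx 3)
      (mul_mem hW.a₂ (pow_mem hx 2))) (mul_mem hW.a₄ hx)) hW.a₆)
  rw [map_mul, h1] at h2
  exact absurd h2 (not_le.2 (one_lt_mul_of_lt hy hy))

lemma dY_mem (hW : IntCoeffs A W) {x y : K} (hx : x ∈ A) (hy : y ∈ A) : dY W x y ∈ A :=
  add_mem (add_mem (mul_mem (natCast_mem A 2) hy) (mul_mem hW.a₁ hx)) hW.a₃

lemma dX_mem (hW : IntCoeffs A W) {x y : K} (hx : x ∈ A) (hy : y ∈ A) : dX W x y ∈ A :=
  sub_mem (add_mem (add_mem (mul_mem (natCast_mem A 3) (pow_mem hx 2))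
    (mul_mem (mul_mem (natCast_mem A 2) hW.a₂) hx)) hW.a₄) (mul_mem hW.a₁ hy)

lemma dY_negY (x y : K) : dY W x (W.negY x y) = -dY W x y := by
  simp only [dY, negY]; ring

lemma dX_negY (x y : K) : dX W x (W.negY x y) = dX W x y + W.a₁ * dY W x y := by
  simp only [dX, dY, negY]; ring

lemma SmoothRed.neg (hW : IntCoeffs A W) {x y : K} (hy : y ∈ A) (h : SmoothRed A W x y) :
    SmoothRed A W x (W.negY x y) := by
  obtain ⟨hx, h⟩ := h
  refine ⟨hx, ?_⟩
  rw [dY_negY, Valuation.map_neg, dX_negY]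
  by_cases hb : A.valuation (dY W x y) = 1
  · exact Or.inl hb
  · refine Or.inr ?_
    rw [A.valuation.map_add_eq_of_lt_left]
    · exact h.resolve_left hb
    · rw [h.resolve_left hb, map_mul]
      exact val_mul_lt_one_of_le_of_lt (val_le_one_of_mem hW.a₁)
        (val_lt_one_of_mem_of_ne (dY_mem hW hx hy) hb)

lemma not_smoothRed_neg (hW : IntCoeffs A W) {x y : K} (he : W.Equation x y) (hx : x ∈ A)
    (h : ¬ SmoothRed A W x y) : ¬ SmoothRed A W x (W.negY x y) := fun h' => by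
  have := h'.neg hW (y_mem_of_x_mem hW ((equation_neg x y).2 he) hx)
  rw [negY_negY] at this
  exact h this

variable [DecidableEq K]

omit [DecidableEq K] in
lemma InE1.neg' {P : W.Point} (h : InE1 A W P) : InE1 A W (-P) := by
  rcases P with _ | ⟨x, y, hP⟩
  exacts [h, h]

omit [DecidableEq K] in
lemma InE0.neg' (hW : IntCoeffs A W) {P : W.Point} (h : InE0 A W P) : InE0 A W (-P) := by
  rcases P with _ | ⟨x, y, hP⟩
  · exact h
  · rw [Point.neg_some]
    rcases h with h | h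
    exacts [Or.inl h, Or.inr (h.neg hW (y_mem_of_x_mem hW hP.1 h.1))]

/-- Data attached to the line through two points with non-zero sum. -/
lemma add_line {x₁ y₁ x₂ y₂ : K} (h₁ : W.Nonsingular x₁ y₁) (h₂ : W.Nonsingular x₂ y₂) :
    (Point.some x₁ y₁ h₁ + Point.some x₂ y₂ h₂ = 0 ∧ x₁ = x₂ ∧ y₁ = W.negY x₂ y₂) ∨
    ∃ (l ν x₃ : K) (_ : W.Nonsingular x₃ (l * x₃ + ν))
      (h₃' : W.Nonsingular x₃ (W.negY x₃ (l * x₃ + ν))),
      Point.some x₁ y₁ h₁ + Point.some x₂ y₂ h₂ = Point.some x₃ _ h₃' ∧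
      y₁ = l * x₁ + ν ∧ y₂ = l * x₂ + ν ∧
      x₁ + x₂ + x₃ = l ^ 2 + W.a₁ * l - W.a₂ ∧
      x₁ * x₂ + x₁ * x₃ + x₂ * x₃ = W.a₄ - 2 * l * ν - W.a₁ * ν - W.a₃ * l ∧
      x₁ * x₂ * x₃ = ν ^ 2 + W.a₃ * ν - W.a₆ ∧
      (x₁ = x₂ → y₁ = y₂) ∧
      l * (y₁ + y₂ + W.a₁ * x₂ + W.a₃) =
        x₁ ^ 2 + x₁ * x₂ + x₂ ^ 2 + W.a₂ * (x₁ + x₂) + W.a₄ - W.a₁ * y₁ := by
  by_cases hxy : x₁ = x₂ ∧ y₁ = W.negY x₂ y₂
  · exact Or.inl ⟨Point.add_of_Y_eq hxy.1 hxy.2, hxy⟩
  refine Or.inr ?_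
  have h₃' := nonsingular_add h₁ h₂ hxy
  have h₃ := nonsingular_negAdd h₁ h₂ hxy
  have hsum : Point.some x₁ y₁ h₁ + Point.some x₂ y₂ h₂ = Point.some _ _ h₃' := Point.add_some hxy
  have hpol := addPolynomial_slope h₁.1 h₂.1 hxy
  set l := W.slope x₁ x₂ y₁ y₂ with hl
  have he : W.negAddY x₁ x₂ y₁ l = l * W.addX x₁ x₂ l + (y₁ - l * x₁) := by rw [negAddY]; ring
  simp only [addY, he] at h₃'
  simp only [addY] at hsum
  rw [he] at h₃
  have hxe : x₁ = x₂ → y₁ = y₂ := fun hx =>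
    (Y_eq_of_X_eq h₁.1 h₂.1 hx).resolve_right fun hy => hxy ⟨hx, hy⟩
  have hy₂ : y₂ = l * x₂ + (y₁ - l * x₁) := by
    by_cases hx : x₁ = x₂
    · rw [← hxe hx, hx]; ring
    · have hne : x₁ - x₂ ≠ 0 := sub_ne_zero.2 hx
      rw [hl, slope_of_X_ne hx]; field_simp; ring
  have hl4 : l * (y₁ + y₂ + W.a₁ * x₂ + W.a₃) =
      x₁ ^ 2 + x₁ * x₂ + x₂ ^ 2 + W.a₂ * (x₁ + x₂) + W.a₄ - W.a₁ * y₁ := by
    by_cases hx : x₁ = x₂
    · obtain rfl := hxe hx
      subst hx
      have hy : y₁ ≠ W.negY x₁ y₁ := fun h => hxy ⟨rfl, h⟩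
      have hne : y₁ - W.negY x₁ y₁ ≠ 0 := sub_ne_zero.2 hy
      rw [hl, slope_of_Y_ne rfl hy]; field_simp; rw [negY]; ring
    · have hne : x₁ - x₂ ≠ 0 := sub_ne_zero.2 hx
      rw [hl, slope_of_X_ne hx]; field_simp
      linear_combination (equation_iff_zero W x₁ y₁).1 h₁.1 - (equation_iff_zero W x₂ y₂).1 h₂.1
  have e3 : x₁ * x₂ * W.addX x₁ x₂ l =
      (y₁ - l * x₁) ^ 2 + W.a₃ * (y₁ - l * x₁) - W.a₆ := by
    have := congrArg (eval 0) hpol
    simp only [addPolynomial, linePolynomial, Affine.polynomial, eval_neg, eval_mul, eval_sub,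
      eval_X, eval_C, eval_add, eval_pow] at this
    linear_combination -this
  have e2 : x₁ * x₂ + x₁ * W.addX x₁ x₂ l + x₂ * W.addX x₁ x₂ l =
      W.a₄ - 2 * l * (y₁ - l * x₁) - W.a₁ * (y₁ - l * x₁) - W.a₃ * l := by
    have := congrArg (eval 1) hpol
    simp only [addPolynomial, linePolynomial, Affine.polynomial, eval_neg, eval_mul, eval_sub,
      eval_X, eval_C, eval_add, eval_pow] at this
    have e1 : x₁ + x₂ + W.addX x₁ x₂ l = l ^ 2 + W.a₁ * l - W.a₂ := by rw [addX]; ring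
    linear_combination this + e3 + e1
  exact ⟨l, _, _, h₃, h₃', by simpa only [← hl, he] using hsum, by ring, hy₂, by rw [addX]; ring, e2, e3, hxe, hl4⟩

omit [DecidableEq K] in
/-- The key inequality: a line cannot meet an integral point with `b, N` small, and two
points that are far from it. -/
lemma line_absurd (hW : IntCoeffs A W) {xa xb x l b N : K} (hx : x ∈ A)
    (e1 : xa + xb + x = l ^ 2 + W.a₁ * l - W.a₂)
    (e2 : (xa - x) * (xb - x) = N - b * l)
    (hb : b ∈ A) (hN : N ∈ A)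
    (hcase : (1 < A.valuation (xa - x) ∧ 1 < A.valuation (xb - x)) ∨
      (1 ≤ A.valuation (xa - x) ∧ 1 ≤ A.valuation (xb - x) ∧
        A.valuation b < 1 ∧ A.valuation N < 1)) : False := by
  set va := A.valuation (xa - x)
  set vb := A.valuation (xb - x)
  have hprod : A.valuation (N - b * l) = va * vb := by rw [← e2, map_mul]
  have hab : 1 ≤ va ∧ 1 ≤ vb := hcase.elim (fun h => ⟨h.1.le, h.2.le⟩) (fun h => ⟨h.1, h.2.1⟩)
  by_cases hl : A.valuation l ≤ 1
  · rcases hcase with ⟨h1, h2⟩ | ⟨h1, h2, h3, h4⟩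
    · have : A.valuation (N - b * l) ≤ 1 :=
        A.valuation.map_sub_le (val_le_one_of_mem hN)
          (by rw [map_mul]; exact mul_le_one' (val_le_one_of_mem hb) hl)
      rw [hprod] at this
      exact absurd this (not_le.2 (one_lt_mul_of_lt h1 h2))
    · have : A.valuation (N - b * l) < 1 := by
        refine (A.valuation.map_sub _ _).trans_lt (max_lt h4 ?_)
        rw [map_mul]; exact val_mul_lt_one_of_lt_of_le h3 hl
      rw [hprod] at this
      exact absurd this (not_lt.2 (one_le_mul h1 h2))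
  · rw [not_le] at hl
    have hle : va * vb ≤ A.valuation l := by
      rw [← hprod]
      refine A.valuation.map_sub_le ((val_le_one_of_mem hN).trans hl.le) ?_
      rw [map_mul]; exact mul_le_of_le_one_left' (val_le_one_of_mem hb)
    have hll : A.valuation l < A.valuation (l ^ 2) := by
      rw [map_pow, sq]; exact lt_mul_of_one_lt_left (zero_lt_one.trans hl) hl
    have hrest : A.valuation (W.a₁ * l - W.a₂ - 3 * x) ≤ A.valuation l := by
      refine A.valuation.map_sub_le (A.valuation.map_sub_le ?_ ?_) ?_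
      · rw [map_mul]; exact mul_le_of_le_one_left' (val_le_one_of_mem hW.a₁)
      · exact (val_le_one_of_mem hW.a₂).trans hl.le
      · exact (val_le_one_of_mem (mul_mem (natCast_mem A 3) hx)).trans hl.le
    have hsum : A.valuation ((xa - x) + (xb - x)) = A.valuation (l ^ 2) := by
      rw [show (xa - x) + (xb - x) = l ^ 2 + (W.a₁ * l - W.a₂ - 3 * x) by linear_combination e1]
      exact A.valuation.map_add_eq_of_lt_left (hrest.trans_lt hll)
    have hmax : A.valuation ((xa - x) + (xb - x)) ≤ va * vb :=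
      A.valuation.map_add_le (le_mul_of_one_le_right' hab.2) (le_mul_of_one_le_left' hab.1)
    exact absurd ((hsum ▸ hmax).trans hle) (not_le.2 hll)

/-- `E₁` is closed under addition. -/
lemma InE1.add (hW : IntCoeffs A W) {P Q : W.Point} (hP : InE1 A W P) (hQ : InE1 A W Q) :
    InE1 A W (P + Q) := by
  rcases P with _ | ⟨x₁, y₁, h₁⟩
  · rwa [← Point.zero_def, zero_add]
  rcases Q with _ | ⟨x₂, y₂, h₂⟩
  · rwa [← Point.zero_def, add_zero]
  rcases add_line h₁ h₂ with ⟨h, -⟩ | ⟨l, ν, x₃, h₃, h₃', h, -, -, e1, e2, -, -, -⟩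
  · rw [h]; trivial
  rw [h]
  intro hx
  have hy := y_mem_of_x_mem hW h₃.1 hx
  refine line_absurd hW hx e1 (b := dY W x₃ (l * x₃ + ν)) (N := dX W x₃ (l * x₃ + ν)) ?_
    (dY_mem hW hx hy) (dX_mem hW hx hy) (Or.inl ⟨?_, ?_⟩)
  · simp only [dX, dY]; linear_combination e2 - 2 * x₃ * e1
  · rw [A.valuation.map_sub_eq_of_lt_left ((val_le_one_of_mem hx).trans_lt
      (one_lt_val_of_not_mem hP))]
    exact one_lt_val_of_not_mem hP
  · rw [A.valuation.map_sub_eq_of_lt_left ((val_le_one_of_mem hx).trans_lt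
      (one_lt_val_of_not_mem hQ))]
    exact one_lt_val_of_not_mem hQ

omit [DecidableEq K] in
/-- An `E₀` point is far from every point with singular reduction. -/
lemma one_le_val_sub (hW : IntCoeffs A W) {x y a c : K} (he : W.Equation a c)
    (he₀ : W.Equation x y) (hP : a ∉ A ∨ SmoothRed A W a c) (hx : x ∈ A)
    (hs : ¬ SmoothRed A W x y) : 1 ≤ A.valuation (a - x) := by
  by_contra hlt
  rw [not_le] at hlt
  have ha : a ∈ A := by simpa using add_mem (mem_of_val_le_one hlt.le) hx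
  have hy := y_mem_of_x_mem hW he₀ hx
  have hc := y_mem_of_x_mem hW he ha
  have hsP := hP.resolve_left (not_not.2 ha)
  simp only [SmoothRed, hx, true_and, not_or] at hs
  have hdy := val_lt_one_of_mem_of_ne (dY_mem hW hx hy) hs.1
  have hdx := val_lt_one_of_mem_of_ne (dX_mem hW hx hy) hs.2
  have hd : A.valuation (c - y) < 1 := by
    by_contra hge
    rw [not_lt] at hge
    have h1 : A.valuation ((c - y) ^ 2) ≥ 1 := by rw [map_pow]; exact one_le_pow₀ hge
    have h2 : A.valuation ((c - y) ^ 2) < 1 := by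
      rw [show (c - y) ^ 2 = (a - x) * ((a - x) ^ 2 + (3 * x + W.a₂) * (a - x) + dX W x y
          - W.a₁ * (c - y)) - dY W x y * (c - y) by
        simp only [dX, dY]
        linear_combination (equation_iff_zero W a c).1 he - (equation_iff_zero W x y).1 he₀]
      refine (A.valuation.map_sub _ _).trans_lt (max_lt ?_ ?_)
      · rw [map_mul]
        exact val_mul_lt_one_of_lt_of_le hlt (val_le_one_of_mem (sub_mem (add_mem (add_mem
          (pow_mem (sub_mem ha hx) 2) (mul_mem (add_mem (mul_mem (natCast_mem A 3) hx) hW.a₂)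
            (sub_mem ha hx))) (dX_mem hW hx hy)) (mul_mem hW.a₁ (sub_mem hc hy))))
      · rw [map_mul]
        exact val_mul_lt_one_of_lt_of_le hdy (val_le_one_of_mem (sub_mem hc hy))
    exact absurd h1 (not_le.2 h2)
  rcases hsP.2 with hb | hN
  · refine hb.not_lt ?_
    rw [show dY W a c = dY W x y + (2 * (c - y) + W.a₁ * (a - x)) by simp only [dY]; ring]
    refine A.valuation.map_add_lt hdy (A.valuation.map_add_lt ?_ ?_) <;> rw [map_mul]
    · exact val_mul_lt_one_of_le_of_lt (val_le_one_of_mem (natCast_mem A 2)) hd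
    · exact val_mul_lt_one_of_le_of_lt (val_le_one_of_mem hW.a₁) hlt
  · refine hN.not_lt ?_
    rw [show dX W a c = dX W x y + ((3 * (a + x) + 2 * W.a₂) * (a - x) - W.a₁ * (c - y)) by
      simp only [dX]; ring]
    refine A.valuation.map_add_lt hdx
      ((A.valuation.map_sub _ _).trans_lt (max_lt ?_ ?_)) <;> rw [map_mul]
    · exact val_mul_lt_one_of_le_of_lt (val_le_one_of_mem (add_mem (mul_mem (natCast_mem A 3)
        (add_mem ha hx)) (mul_mem (natCast_mem A 2) hW.a₂))) hlt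
    · exact val_mul_lt_one_of_le_of_lt (val_le_one_of_mem hW.a₁) hd

lemma InE0.add (hW : IntCoeffs A W) {P Q : W.Point} (hP : InE0 A W P) (hQ : InE0 A W Q) :
    InE0 A W (P + Q) := by
  rcases P with _ | ⟨x₁, y₁, h₁⟩
  · rwa [← Point.zero_def, zero_add]
  rcases Q with _ | ⟨x₂, y₂, h₂⟩
  · rwa [← Point.zero_def, add_zero]
  rcases add_line h₁ h₂ with ⟨h, -⟩ | ⟨l, ν, x₃, h₃, h₃', h, -, -, e1, e2, -, -, -⟩
  · rw [h]; trivial
  rw [h]
  by_cases hx : x₃ ∈ A
  swap; · exact Or.inl hx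
  refine Or.inr ?_
  by_contra hs'
  have hs : ¬ SmoothRed A W x₃ (l * x₃ + ν) := by
    have := not_smoothRed_neg hW h₃'.1 hx hs'
    rwa [negY_negY] at this
  have hy := y_mem_of_x_mem hW h₃.1 hx
  have hs2 := hs
  simp only [SmoothRed, hx, true_and, not_or] at hs2
  refine line_absurd hW hx e1 (b := dY W x₃ (l * x₃ + ν)) (N := dX W x₃ (l * x₃ + ν)) ?_
    (dY_mem hW hx hy) (dX_mem hW hx hy)
    (Or.inr ⟨one_le_val_sub hW h₁.1 h₃.1 hP hx hs, one_le_val_sub hW h₂.1 h₃.1 hQ hx hs,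
      val_lt_one_of_mem_of_ne (dY_mem hW hx hy) hs2.1,
      val_lt_one_of_mem_of_ne (dX_mem hW hx hy) hs2.2⟩)
  simp only [dX, dY]; linear_combination e2 - 2 * x₃ * e1

variable (A W) in
/-- `E₁` as an additive subgroup -/
def e1Subgroup (hW : IntCoeffs A W) : AddSubgroup W.Point where
  carrier := {P | InE1 A W P}
  add_mem' := InE1.add hW
  zero_mem' := trivial
  neg_mem' := InE1.neg'

variable (A W) in
/-- `E₀` as an additive subgroup -/
def e0Subgroup (hW : IntCoeffs A W) : AddSubgroup W.Point where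
  carrier := {P | InE0 A W P}
  add_mem' := InE0.add hW
  zero_mem' := trivial
  neg_mem' := InE0.neg' hW

lemma mem_e0Subgroup {hW : IntCoeffs A W} {P : W.Point} :
    P ∈ e0Subgroup A W hW ↔ InE0 A W P := Iff.rfl

/-- Two integral points with the same smooth reduction differ by an element of `E₁`. -/
theorem inE1_sub_of_congr (hW : IntCoeffs A W) {x₁ y₁ x₂ y₂ : K} (h₁ : W.Nonsingular x₁ y₁)
    (h₂ : W.Nonsingular x₂ y₂) (hs : SmoothRed A W x₁ y₁)
    (hx : A.valuation (x₁ - x₂) < 1) (hy : A.valuation (y₁ - y₂) < 1) :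
    InE1 A W (Point.some x₁ y₁ h₁ - Point.some x₂ y₂ h₂) := by
  rw [sub_eq_add_neg, Point.neg_some]
  obtain ⟨hx₁, hsm⟩ := hs
  have hy₁ := y_mem_of_x_mem hW h₁.1 hx₁
  have hx₂ : x₂ ∈ A := by simpa using sub_mem hx₁ (mem_of_val_le_one hx.le)
  rcases add_line h₁ ((nonsingular_neg x₂ y₂).2 h₂) with
    ⟨h, -⟩ | ⟨l, ν, x₃, h₃, h₃', h, hl₁, hl₂, e1, -, -, hxe, e4⟩
  · rw [h]; trivial
  rw [h]
  have hl : 1 < A.valuation l := by
    by_contra hle
    rw [not_lt] at hle
    rcases hsm with hb | hN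
    · refine hb.not_lt ?_
      rw [show dY W x₁ y₁ = l * (x₁ - x₂) + ((y₁ - y₂) + W.a₁ * (x₁ - x₂)) by
        simp only [dY, negY] at hl₂ ⊢; linear_combination hl₁ - hl₂]
      refine A.valuation.map_add_lt ?_ (A.valuation.map_add_lt hy ?_) <;> rw [map_mul]
      · exact val_mul_lt_one_of_le_of_lt hle hx
      · exact val_mul_lt_one_of_le_of_lt (val_le_one_of_mem hW.a₁) hx
    · refine hN.not_lt ?_
      rw [show dX W x₁ y₁ = l * (y₁ - y₂) + (2 * x₁ + x₂ + W.a₂) * (x₁ - x₂) by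
        simp only [dX, negY] at e4 ⊢; linear_combination -e4]
      refine A.valuation.map_add_lt ?_ ?_ <;> rw [map_mul]
      · exact val_mul_lt_one_of_le_of_lt hle hy
      · exact val_mul_lt_one_of_le_of_lt (val_le_one_of_mem (add_mem (add_mem
          (mul_mem (natCast_mem A 2) hx₁) hx₂) hW.a₂)) hx
  intro hx₃
  have h1 : A.valuation (l ^ 2) ≤ A.valuation l := by
    rw [show l ^ 2 = (x₁ + x₂ + x₃ + W.a₂) - W.a₁ * l by linear_combination -e1]
    refine A.valuation.map_sub_le ((val_le_one_of_mem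
      (add_mem (add_mem (add_mem hx₁ hx₂) hx₃) hW.a₂)).trans hl.le) ?_
    rw [map_mul]; exact mul_le_of_le_one_left' (val_le_one_of_mem hW.a₁)
  rw [map_pow, sq] at h1
  exact absurd h1 (not_le.2 (lt_mul_of_one_lt_left (zero_lt_one.trans hl) hl))

/-- The integral model over `A`. -/
def intModel (hW : IntCoeffs A W) : WeierstrassCurve A :=
  ⟨⟨W.a₁, hW.a₁⟩, ⟨W.a₂, hW.a₂⟩, ⟨W.a₃, hW.a₃⟩, ⟨W.a₄, hW.a₄⟩, ⟨W.a₆, hW.a₆⟩⟩

omit [DecidableEq K] in
lemma intModel_map (hW : IntCoeffs A W) : (intModel hW).map A.subtype = W := rfl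

/-- torsion of order prime to the residue characteristic is integral -/
theorem x_mem_of_nsmul_eq_zero (hW : IntCoeffs A W) {n : ℕ} (hn : A.valuation (n : K) = 1)
    {x y : K} (h : W.Nonsingular x y) (hP : n • Point.some x y h = 0) : x ∈ A := by
  by_contra hx
  have hv := one_lt_val_of_not_mem hx
  have h0 := (nsmul_eq_zero_iff h n).1 hP
  have hcoeff : ∀ i, A.valuation ((W.ΨSq n).coeff i) ≤ 1 := fun i => by
    have hmap : W.ΨSq n = ((intModel hW).ΨSq n).map A.subtype := (intModel hW).map_ΨSq A.subtype n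
    rw [hmap, coeff_map]
    exact A.valuation_le_one _
  set d := n ^ 2 - 1 with hd
  have hdeg : (W.ΨSq n).natDegree ≤ d := by
    have := W.natDegree_ΨSq_le n; rwa [Int.natAbs_natCast] at this
  have hlead : A.valuation ((W.ΨSq n).coeff d) = 1 := by
    have := W.coeff_ΨSq n
    rw [Int.natAbs_natCast, Int.cast_natCast] at this
    rw [this, map_pow, hn, one_pow]
  rw [eval_eq_sum_range' (Nat.lt_succ_iff.2 hdeg), Finset.sum_range_succ] at h0
  have hlt : A.valuation (∑ i ∈ Finset.range d, (W.ΨSq n).coeff i * x ^ i) <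
      A.valuation ((W.ΨSq n).coeff d * x ^ d) := by
    rw [map_mul, hlead, one_mul, map_pow]
    refine A.valuation.map_sum_lt (pow_ne_zero d (ne_of_gt (zero_lt_one.trans hv))) fun i hi => ?_
    rw [map_mul, map_pow]
    exact (mul_le_of_le_one_left' (hcoeff i)).trans_lt
      (pow_lt_pow_right₀ hv (Finset.mem_range.1 hi))
  have := A.valuation.map_add_eq_of_lt_right hlt
  rw [h0, map_zero, map_mul, hlead, one_mul, map_pow] at this
  exact pow_ne_zero d (ne_of_gt (zero_lt_one.trans hv)) this.symm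

/-- two `n`-torsion points with the same smooth reduction coincide -/
theorem eq_of_congr (hW : IntCoeffs A W) {n : ℕ} (hn : A.valuation (n : K) = 1)
    {x₁ y₁ x₂ y₂ : K} (h₁ : W.Nonsingular x₁ y₁) (h₂ : W.Nonsingular x₂ y₂)
    (hs : SmoothRed A W x₁ y₁)
    (hx : A.valuation (x₁ - x₂) < 1) (hy : A.valuation (y₁ - y₂) < 1)
    (hP : n • Point.some x₁ y₁ h₁ = 0) (hQ : n • Point.some x₂ y₂ h₂ = 0) :
    Point.some x₁ y₁ h₁ = Point.some x₂ y₂ h₂ := by
  have h1 := inE1_sub_of_congr hW h₁ h₂ hs hx hy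
  have h0 : n • (Point.some x₁ y₁ h₁ - Point.some x₂ y₂ h₂) = 0 := by
    rw [nsmul_sub, hP, hQ, sub_self]
  rw [← sub_eq_zero]
  rcases hc : Point.some x₁ y₁ h₁ - Point.some x₂ y₂ h₂ with _ | ⟨x, y, h⟩
  · rfl
  · rw [hc] at h0 h1
    exact absurd (x_mem_of_nsmul_eq_zero hW hn h h0) h1

omit [DecidableEq K] in
lemma residue_eq_zero_iff_val {z : K} (hz : z ∈ A) :
    IsLocalRing.residue A ⟨z, hz⟩ = 0 ↔ A.valuation z ≠ 1 := by
  rw [IsLocalRing.residue_eq_zero_iff, IsLocalRing.mem_maximalIdeal, mem_nonunits_iff]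
  exact not_congr (A.valuation_eq_one_iff ⟨z, hz⟩)

omit [DecidableEq K] in
/-- smooth reduction in the language of the reduced curve -/
theorem smoothRed_iff_nonsingular (hW : IntCoeffs A W) {x y : K} (h : W.Equation x y)
    (hx : x ∈ A) (hy : y ∈ A) :
    SmoothRed A W x y ↔ ((intModel hW).map (IsLocalRing.residue A)).toAffine.Nonsingular
      (IsLocalRing.residue A ⟨x, hx⟩) (IsLocalRing.residue A ⟨y, hy⟩) := by
  have he : (intModel hW).toAffine.Equation ⟨x, hx⟩ ⟨y, hy⟩ :=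
    ((intModel hW).toAffine.map_equation (f := A.subtype) Subtype.coe_injective _ _).1 h
  rw [nonsingular_iff', ne_eq, ne_eq]
  simp only [he.map (IsLocalRing.residue A), true_and, SmoothRed, hx]
  have hb := residue_eq_zero_iff_val (dY_mem hW hx hy)
  have hN := residue_eq_zero_iff_val (dX_mem hW hx hy)
  have eb : (⟨dY W x y, dY_mem hW hx hy⟩ : A) =
      2 * ⟨y, hy⟩ + (intModel hW).a₁ * ⟨x, hx⟩ + (intModel hW).a₃ := Subtype.ext rfl
  have eN : (⟨dX W x y, dX_mem hW hx hy⟩ : A) = 3 * ⟨x, hx⟩ ^ 2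
      + 2 * (intModel hW).a₂ * ⟨x, hx⟩ + (intModel hW).a₄ - (intModel hW).a₁ * ⟨y, hy⟩ :=
    Subtype.ext rfl
  rw [eb] at hb; rw [eN] at hN
  simp only [map_add, map_mul, map_sub, map_pow, map_ofNat] at hb hN
  simp only [WeierstrassCurve.toAffine, WeierstrassCurve.map_a₁, WeierstrassCurve.map_a₂,
    WeierstrassCurve.map_a₃, WeierstrassCurve.map_a₄]
  rw [← neg_sub, neg_eq_zero, hN, hb]
  tauto

omit [DecidableEq K] in
/-- at good reduction every integral point has smooth reduction -/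
theorem smoothRed_of_goodReduction (hW : IntCoeffs A W) (hΔ : A.valuation W.Δ = 1) {x y : K}
    (h : W.Equation x y) (hx : x ∈ A) : SmoothRed A W x y := by
  have hy := y_mem_of_x_mem hW h hx
  rw [smoothRed_iff_nonsingular hW h hx hy]
  refine (equation_iff_nonsingular_of_Δ_ne_zero ?_).1
    (((intModel hW).toAffine.map_equation (f := A.subtype) Subtype.coe_injective ⟨x, hx⟩ ⟨y, hy⟩).1 h
      |>.map _)
  show ((intModel hW).map (IsLocalRing.residue A)).Δ ≠ 0
  have hD : ((intModel hW).Δ : K) = W.Δ := ((intModel hW).map_Δ A.subtype).symm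
  rw [WeierstrassCurve.map_Δ, ne_eq]
  refine fun h0 => (residue_eq_zero_iff_val (intModel hW).Δ.2).1 h0 ?_
  rw [hD]; exact hΔ

end FermatAgent.Local
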