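import Fermat.Agent.Local.Normalize

/-!
# Inertia on the torsion of a curve with multiplicative reduction
-/

set_option autoImplicit false

open scoped WeierstrassCurve.Affine

namespace FermatAgent.Local

open WeierstrassCurve WeierstrassCurve.Affine

local notation "Qb" => AlgebraicClosure ℚ

section General

variable {K : Type*} [Field K] [DecidableEq K] {A : ValuationSubring K}
  {W : WeierstrassCurve.Affine K} {C : VariableChange K}

omit [DecidableEq K] in
lemma vcX_mem_iff (hu : A.valuation (C.u : K) = 1) (hr : C.r ∈ A) (x : K) :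
    vcX C x ∈ A ↔ x ∈ A := by
  refine ⟨fun h => mem_of_val_le_one ?_,
    fun h => add_mem (mul_mem (pow_mem (mem_of_val_le_one hu.le) 2) h) hr⟩
  have := val_le_one_of_mem (sub_mem h hr)
  rwa [vcX, add_sub_cancel_right, map_mul, map_pow, hu, one_pow, one_mul] at this

omit [DecidableEq K] in
lemma smoothRed_vc_iff (hW : IntCoeffs A W) (hu : A.valuation (C.u : K) = 1) (hr : C.r ∈ A)
    (hs : C.s ∈ A) (ht : C.t ∈ A) {x y : K} (hy : y ∈ A) :
    SmoothRed A (C • W).toAffine x y ↔ SmoothRed A W (vcX C x) (vcY C x y) := by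
  simp only [SmoothRed, vcX_mem_iff hu hr]
  refine and_congr_right fun hx => ?_
  have huA := mem_of_val_le_one hu.le
  have hX : vcX C x ∈ A := (vcX_mem_iff hu hr x).2 hx
  have hY : vcY C x y ∈ A :=
    add_mem (add_mem (mul_mem (pow_mem huA 3) hy) (mul_mem (mul_mem hs (pow_mem huA 2)) hx)) ht
  have eY : A.valuation (dY (C • W).toAffine x y) = A.valuation (dY W (vcX C x) (vcY C x y)) := by
    rw [← vc_dY W C x y, map_mul, map_pow, hu, one_pow, mul_one]
  have eX : A.valuation (dX (C • W).toAffine x y) =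
      A.valuation (dX W (vcX C x) (vcY C x y) - C.s * dY W (vcX C x) (vcY C x y)) := by
    rw [← vc_dX W C x y, map_mul, map_pow, hu, one_pow, mul_one]
  rw [eY, eX]
  by_cases hb : A.valuation (dY W (vcX C x) (vcY C x y)) = 1
  · simp [hb]
  · simp only [hb, false_or]
    have hlt : A.valuation (C.s * dY W (vcX C x) (vcY C x y)) < 1 := by
      rw [map_mul]
      exact val_mul_lt_one_of_le_of_lt (val_le_one_of_mem hs)
        (val_lt_one_of_mem_of_ne (dY_mem hW hX hY) hb)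
    constructor <;> intro h
    · rw [show dX W (vcX C x) (vcY C x y) =
          (dX W (vcX C x) (vcY C x y) - C.s * dY W (vcX C x) (vcY C x y))
            + C.s * dY W (vcX C x) (vcY C x y) by ring,
        A.valuation.map_add_eq_of_lt_left (h.symm ▸ hlt), h]
    · rw [A.valuation.map_sub_eq_of_lt_left (h.symm ▸ hlt), h]

/-- `E₀` does not depend on the integral model in its isomorphism class -/
lemma inE0_vcHom_iff (hW : IntCoeffs A W) (hC : IntCoeffs A (C • W).toAffine)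
    (hu : A.valuation (C.u : K) = 1) (hr : C.r ∈ A) (hs : C.s ∈ A) (ht : C.t ∈ A)
    (Q : (C • W).toAffine.Point) : InE0 A W (vcHom W C Q) ↔ InE0 A (C • W).toAffine Q := by
  rcases Q with _ | ⟨x, y, h⟩
  · exact Iff.rfl
  show (vcX C x ∉ A ∨ _) ↔ (x ∉ A ∨ _)
  by_cases hx : x ∈ A
  · rw [smoothRed_vc_iff hW hu hr hs ht (y_mem_of_x_mem hC h.1 hx), vcX_mem_iff hu hr]
  · simp [vcX_mem_iff hu hr, hx]

end General

variable {W : WeierstrassCurve.Affine Qb} {C : VariableChange Qb} {σ : Qb ≃ₐ[ℚ] Qb}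

lemma vc_map_eq (hfix : W.map (σ : Qb →+* Qb) = W) (hC : C.map (σ : Qb →+* Qb) = C) :
    (C • W).toAffine.map (σ : Qb →+* Qb) = (C • W).toAffine := by
  have key : ∀ V : WeierstrassCurve Qb, V.map (σ : Qb →+* Qb) = V →
      (C • V).map (σ : Qb →+* Qb) = C • V := fun V hV => by
    rw [← WeierstrassCurve.map_variableChange, hC, hV]
  exact key W hfix

lemma vcHom_conjPoint (hfix : W.map (σ : Qb →+* Qb) = W) (hC : C.map (σ : Qb →+* Qb) = C)
    (Q : (C • W).toAffine.Point) :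
    vcHom W C (conjPoint _ (σ : Qb →+* Qb) (vc_map_eq hfix hC) Q) =
      conjPoint W (σ : Qb →+* Qb) hfix (vcHom W C Q) := by
  rcases Q with _ | ⟨x, y, h⟩
  · rfl
  · have hu : σ (C.u : Qb) = (C.u : Qb) := congrArg (fun D : VariableChange Qb => (D.u : Qb)) hC
    have hr : σ C.r = C.r := congrArg VariableChange.r hC
    have hs : σ C.s = C.s := congrArg VariableChange.s hC
    have ht : σ C.t = C.t := congrArg VariableChange.t hC
    simp only [conjPoint_some, vcHom_some, RingHom.coe_coe, vcX, vcY, map_add, map_mul, map_pow,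
      hu, hr, hs, ht]

variable {A : ValuationSubring Qb}

/-- multiplicative reduction: inertia moves points within their component -/
theorem mult_conj_sub_inE0 (hW : IntCoeffs A W) (hΔ : A.valuation W.Δ < 1) (hΔ0 : W.Δ ≠ 0)
    (hc₄ : A.valuation W.c₄ = 1) (hσ : σ ∈ A.inertiaSubgroupIn ℚ)
    (hfix : W.map (σ : Qb →+* Qb) = W) (P : W.Point) :
    InE0 A W (conjPoint W (σ : Qb →+* Qb) hfix P - P) := by
  obtain ⟨C, hT, -, hu, hr, hs, ht, hC⟩ := exists_tate_form hW hΔ hΔ0 hc₄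
  obtain ⟨Q, rfl⟩ := (vcHom_bijective W C).2 P
  rw [← vcHom_conjPoint hfix (hC σ hσ hfix), ← map_sub,
    inE0_vcHom_iff hW hT.intCoeffs hu hr hs ht]
  exact hT.conj_sub_inE0 _ (mem_decomposition_of_inertia hσ) Q

/-- multiplicative reduction: inertia is unipotent on torsion prime to the residue characteristic -/
theorem mult_conj_conj_sub (hW : IntCoeffs A W) (hΔ : A.valuation W.Δ < 1) (hΔ0 : W.Δ ≠ 0)
    (hc₄ : A.valuation W.c₄ = 1) (hσ : σ ∈ A.inertiaSubgroupIn ℚ)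
    (hfix : W.map (σ : Qb →+* Qb) = W) {n : ℕ} (hn : A.valuation (n : Qb) = 1) {P : W.Point}
    (hP : n • P = 0) :
    conjPoint W (σ : Qb →+* Qb) hfix (conjPoint W (σ : Qb →+* Qb) hfix P - P) =
      conjPoint W (σ : Qb →+* Qb) hfix P - P :=
  inertia_fix_smooth hW hσ hfix hn (by rw [nsmul_sub, ← map_nsmul, hP, map_zero, sub_zero])
    (mult_conj_sub_inE0 hW hΔ hΔ0 hc₄ hσ hfix P)

/-- multiplicative reduction with `v Δ` an `n`-th power: inertia fixes the `n`-torsion -/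
theorem mult_torsion_fixed (hW : IntCoeffs A W) (hΔ : A.valuation W.Δ < 1) (hΔ0 : W.Δ ≠ 0)
    (hc₄ : A.valuation W.c₄ = 1) (hσ : σ ∈ A.inertiaSubgroupIn ℚ)
    (hfix : W.map (σ : Qb →+* Qb) = W) {n : ℕ} (hodd : Odd n) (hn : A.valuation (n : Qb) = 1)
    {d : Qb} (hd : σ d = d) (hdv : A.valuation d ^ n = A.valuation W.Δ) {P : W.Point}
    (hP : n • P = 0) : conjPoint W (σ : Qb →+* Qb) hfix P = P := by
  obtain ⟨C, hT, hcv, -, -, -, -, hC⟩ := exists_tate_form hW hΔ hΔ0 hc₄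
  obtain ⟨Q, rfl⟩ := (vcHom_bijective W C).2 P
  have hΔ' : (C • W).toAffine.Δ ≠ 0 := by
    show (C • W).Δ ≠ 0
    rw [WeierstrassCurve.variableChange_Δ]
    exact mul_ne_zero (pow_ne_zero _ (Units.ne_zero _)) hΔ0
  rw [← vcHom_conjPoint hfix (hC σ hσ hfix), hT.torsion_fixed _ hσ hΔ' hodd hn hd
    (hdv.trans hcv.symm)]
  exact (vcHom_bijective W C).1 (by rw [map_nsmul, hP, map_zero])

section Int

variable (E : WeierstrassCurve ℤ) {q : ℕ}

lemma qbarCurve_c₄ : (qbarCurve E).c₄ = (E.c₄ : Qb) := by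
  rw [qbarCurve_eq]; exact E.map_c₄ _

/-- `(σ - 1)² = 0` on `E[n]` for inertia at a prime of multiplicative reduction not dividing `n`. -/
theorem galois_sub_sub_of_mult (hq : q.Prime) (hΔ0 : E.Δ ≠ 0) (hbad : (q : ℤ) ∣ E.Δ)
    (hc₄ : ¬ (q : ℤ) ∣ E.c₄) {n : ℕ} (hn : ¬ q ∣ n) (hA : A.LiesOverPrime q)
    (hσ : σ ∈ A.inertiaSubgroupIn ℚ) {P : (qbarCurve E).Point} (hP : n • P = 0) :
    σ • (σ • P - P) = σ • P - P := by
  simp only [galois_smul_eq_conjPoint]
  exact mult_conj_conj_sub (qbarCurve_intCoeffs E A)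
    (by rw [qbarCurve_Δ]; exact (val_intCast_lt_one_iff hq hA _).2 hbad)
    (by rw [qbarCurve_Δ]; exact_mod_cast hΔ0)
    (by rw [qbarCurve_c₄]; exact val_intCast_eq_one hq hA hc₄) hσ _ (val_natCast_eq_one hq hA hn) hP

/-- semistable at `q ∤ n`: inertia at `q` is unipotent -/
theorem galois_sub_sub_of_semistable (hq : q.Prime) (hΔ0 : E.Δ ≠ 0)
    (hss : (q : ℤ) ∣ E.Δ → ¬ (q : ℤ) ∣ E.c₄) {n : ℕ} (hn : ¬ q ∣ n) (hA : A.LiesOverPrime q)
    (hσ : σ ∈ A.inertiaSubgroupIn ℚ) {P : (qbarCurve E).Point} (hP : n • P = 0) :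
    σ • (σ • P - P) = σ • P - P := by
  by_cases hbad : (q : ℤ) ∣ E.Δ
  · exact galois_sub_sub_of_mult E hq hΔ0 hbad (hss hbad) hn hA hσ hP
  · have key : ∀ {R : (qbarCurve E).Point}, n • R = 0 → σ • R = R := fun {R} hR =>
      congrArg Subtype.val (galoisRepUnramifiedAt_of_good E hq hbad hn A hA σ hσ
        ⟨R, by rw [Submodule.mem_torsionBy_iff, natCast_zsmul]; exact hR⟩)
    exact key (by rw [nsmul_sub, hP, sub_zero, key hP, hP])

/-- Inertia at a semistable prime fixes `E[n]` (`n` odd, prime to `q`) if `n ∣ v_q(Δ)`. -/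
theorem galoisRepUnramifiedAt_of_mult (hq : q.Prime) (hbad : (q : ℤ) ∣ E.Δ)
    (hc₄ : ¬ (q : ℤ) ∣ E.c₄) {n : ℕ} (hodd : Odd n) (hn : ¬ q ∣ n) {m : ℕ} {k : ℤ}
    (hm : E.Δ = (q : ℤ) ^ (n * m) * k) (hk : ¬ (q : ℤ) ∣ k) :
    WeierstrassCurve.Affine.Point.GaloisRepUnramifiedAt (K := Qb) ℚ
      (E.map (Int.castRingHom ℚ)) n q := by
  intro A hA σ hσ ⟨P, hP⟩
  refine Subtype.ext ?_
  show σ • P = P
  rw [Submodule.mem_torsionBy_iff, natCast_zsmul] at hP
  rw [galois_smul_eq_conjPoint]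
  have hΔ0 : E.Δ ≠ 0 := by
    rw [hm]
    exact mul_ne_zero (pow_ne_zero _ (by exact_mod_cast hq.ne_zero))
      fun h => hk (h ▸ dvd_zero _)
  refine mult_torsion_fixed (qbarCurve_intCoeffs E A)
    (by rw [qbarCurve_Δ]; exact (val_intCast_lt_one_iff hq hA _).2 hbad)
    (by rw [qbarCurve_Δ]; exact_mod_cast hΔ0)
    (by rw [qbarCurve_c₄]; exact val_intCast_eq_one hq hA hc₄) hσ _ hodd
    (val_natCast_eq_one hq hA hn) (d := ((q : ℕ) : Qb) ^ m) (by rw [map_pow, map_natCast]) ?_ hP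
  rw [qbarCurve_Δ, hm, Int.cast_mul, map_mul, val_intCast_eq_one hq hA hk, mul_one, ← map_pow,
    ← pow_mul, mul_comm m n, Int.cast_pow, Int.cast_natCast]

end Int

end FermatAgent.Local
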