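import Mathlib.NumberTheory.EllipticDivisibilitySequence
import Mathlib.Algebra.MvPolynomial.CommRing
import Mathlib.Algebra.MvPolynomial.Eval
import Mathlib.RingTheory.MvPolynomial.Basic
import Mathlib.Algebra.MvPolynomial.NoZeroDivisors
import Mathlib.Tactic.LinearCombination
import Mathlib.Tactic.IntervalCases
import Mathlib.Tactic.Ring
import Mathlib.Tactic.NormNum

/-!
# Two identities for normalised elliptic divisibility sequences

For `W = normEDS b c d`:
* `normEDS_rel_two`: `W (n+2) W (n-2) = b² W (n+1) W (n-1) - c W n²`;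
* `normEDS_invariant`: if `d = s c - b⁴` then
  `W (n+2) W (n-1)² + W (n-2) W (n+1)² = -b² W n³ + s W (n+1) W n W (n-1)`.
-/

set_option autoImplicit false

namespace FermatAgent.Local

variable {R : Type*} [CommRing R]

/-- the relation with step two at the index `n` -/
def RelTwo (b c d : R) (n : ℤ) : Prop :=
  normEDS b c d (n + 2) * normEDS b c d (n - 2) =
    b ^ 2 * normEDS b c d (n + 1) * normEDS b c d (n - 1) - c * normEDS b c d n ^ 2

lemma relTwo_neg (b c d : R) (n : ℤ) (h : RelTwo b c d n) : RelTwo b c d (-n) := by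
  unfold RelTwo at *
  rw [show -n + 2 = -(n - 2) by ring, show -n - 2 = -(n + 2) by ring,
    show -n + 1 = -(n - 1) by ring, show -n - 1 = -(n + 1) by ring]
  simp only [normEDS_neg]
  linear_combination h

lemma relTwo_zero (b c d : R) : RelTwo b c d 0 := by
  unfold RelTwo
  norm_num [normEDS_neg]
  ring

lemma relTwo_one (b c d : R) : RelTwo b c d 1 := by
  unfold RelTwo
  norm_num [normEDS_neg]

lemma relTwo_two (b c d : R) : RelTwo b c d 2 := by
  unfold RelTwo
  norm_num [normEDS_neg]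
  ring

section domain

variable [IsDomain R] {b c d : R} (hne : ∀ n : ℤ, n ≠ 0 → normEDS b c d n ≠ 0)

include hne in
lemma relTwo_even {k : ℤ} (h1 : RelTwo b c d (k - 1)) (h2 : RelTwo b c d k)
    (h3 : RelTwo b c d (k + 1)) : RelTwo b c d (2 * k) := by
  have hb : b ≠ 0 := by simpa using hne 2 (by norm_num)
  unfold RelTwo at *
  have e0 := normEDS_even b c d k
  have ep := normEDS_even b c d (k + 1)
  have em := normEDS_even b c d (k - 1)
  have op := normEDS_odd b c d k
  have om := normEDS_odd b c d (k - 1)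
  simp only [show k + 1 - 1 = k by ring, show k + 1 + 2 = k + 3 by ring,
    show k + 1 - 2 = k - 1 by ring, show k + 1 + 1 = k + 2 by ring,
    show k - 1 - 1 = k - 2 by ring, show k - 1 + 2 = k + 1 by ring,
    show k - 1 - 2 = k - 3 by ring, show k - 1 + 1 = k by ring,
    show 2 * (k + 1) = 2 * k + 2 by ring, show 2 * (k - 1) = 2 * k - 2 by ring,
    show 2 * k - 2 + 1 = 2 * k - 1 by ring] at e0 ep em op om h1 h2 h3
  apply mul_left_cancel₀ (pow_ne_zero 2 hb)
  generalize normEDS b c d k = z at *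
  generalize normEDS b c d (k + 1) = pp at *
  generalize normEDS b c d (k + 2) = u at *
  generalize normEDS b c d (k + 3) = w at *
  generalize normEDS b c d (k - 1) = m at *
  generalize normEDS b c d (k - 2) = v at *
  generalize normEDS b c d (k - 3) = r at *
  generalize normEDS b c d (2 * k) = E0 at *
  generalize normEDS b c d (2 * k + 2) = Ep at *
  generalize normEDS b c d (2 * k - 2) = Em at *
  generalize normEDS b c d (2 * k + 1) = Op at *
  generalize normEDS b c d (2 * k - 1) = Om at *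
  rw [op, om]
  have key : (Ep * b) * (Em * b) + c * (E0 * b) ^ 2
      = b ^ 4 * (u * z ^ 3 - m * pp ^ 3) * (pp * m ^ 3 - v * z ^ 3) := by
    rw [ep, em, e0]
    linear_combination (z ^ 2 * (pp ^ 2 * v ^ 2 - pp * r * z ^ 2)) * h3
      - (z ^ 2 * (b ^ 2 * u * z ^ 3 - c * pp ^ 2 * z ^ 2 - m ^ 2 * u ^ 2)) * h1
      + (b ^ 2 * z ^ 3 * (v * pp ^ 2 + u * m ^ 2)
        - pp ^ 2 * m ^ 2 * (u * v + c * z ^ 2 + b ^ 2 * pp * m)) * h2
  linear_combination key

include hne in
lemma relTwo_odd {k : ℤ} (hk : 2 ≤ k) (h2 : RelTwo b c d k)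
    (h3 : RelTwo b c d (k + 1)) : RelTwo b c d (2 * k + 1) := by
  have hm : normEDS b c d (k - 1) ≠ 0 := hne _ (by omega)
  have hu : normEDS b c d (k + 2) ≠ 0 := hne _ (by omega)
  unfold RelTwo at *
  have e0 := normEDS_even b c d k
  have ep := normEDS_even b c d (k + 1)
  have op := normEDS_odd b c d k
  have opp := normEDS_odd b c d (k + 1)
  have om := normEDS_odd b c d (k - 1)
  simp only [show k + 1 - 1 = k by ring, show k + 1 + 2 = k + 3 by ring,
    show k + 1 - 2 = k - 1 by ring, show k + 1 + 1 = k + 2 by ring,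
    show k - 1 - 1 = k - 2 by ring, show k - 1 + 2 = k + 1 by ring,
    show k - 1 + 1 = k by ring,
    show 2 * k + 1 + 2 = 2 * (k + 1) + 1 by ring, show 2 * k + 1 - 2 = 2 * (k - 1) + 1 by ring,
    show 2 * k + 1 + 1 = 2 * (k + 1) by ring,
    show 2 * k + 1 - 1 = 2 * k by ring] at e0 ep op opp om h2 h3 ⊢
  apply mul_left_cancel₀ (mul_ne_zero hm hu)
  generalize normEDS b c d (2 * k) = E0 at *
  generalize normEDS b c d (2 * (k + 1)) = Ep at *
  generalize normEDS b c d (2 * (k + 1) + 1) = Opp at *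
  generalize normEDS b c d (2 * (k - 1) + 1) = Om at *
  generalize normEDS b c d (2 * k + 1) = Op at *
  generalize normEDS b c d k = z at *
  generalize normEDS b c d (k + 1) = pp at *
  generalize normEDS b c d (k + 2) = u at *
  generalize normEDS b c d (k + 3) = w at *
  generalize normEDS b c d (k - 1) = m at *
  generalize normEDS b c d (k - 2) = v at *
  rw [opp, om, op]
  have key : m * u * ((w * pp ^ 3 - z * u ^ 3) * (pp * m ^ 3 - v * z ^ 3)
      + c * (u * z ^ 3 - m * pp ^ 3) ^ 2) = m * u * ((Ep * b) * (E0 * b)) := by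
    rw [ep, e0]
    linear_combination (pp ^ 3 * (u * pp * m ^ 3 - z ^ 3 * u * v)
        - z ^ 3 * pp * (u ^ 2 * m ^ 2 - pp ^ 2 * u * v)) * h3
      + (-z ^ 3 * (pp ^ 3 * (b ^ 2 * u * z - c * pp ^ 2) - z * m * u ^ 3)
        + pp ^ 3 * z * (z ^ 2 * (b ^ 2 * u * z - c * pp ^ 2) - m ^ 2 * u ^ 2)) * h2
  linear_combination key

include hne in
theorem relTwo_of_ne_zero (n : ℤ) : RelTwo b c d n := by
  suffices h : ∀ n : ℕ, RelTwo b c d n by
    obtain ⟨m, rfl | rfl⟩ := n.eq_nat_or_neg
    exacts [h m, relTwo_neg _ _ _ _ (h m)]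
  intro n
  induction n using Nat.strong_induction_on with
  | _ n ih =>
    rcases lt_or_ge n 4 with h | h
    · interval_cases n
      · exact relTwo_zero b c d
      · exact relTwo_one b c d
      · exact relTwo_two b c d
      · unfold RelTwo
        have h5 := normEDS_odd b c d 2
        norm_num [normEDS_neg] at h5 ⊢
        rw [h5]
        ring
    · obtain ⟨k, rfl | rfl⟩ := Nat.even_or_odd' n
      · have e : ((2 * k : ℕ) : ℤ) = 2 * (k : ℤ) := by push_cast; ring
        rw [e]
        refine relTwo_even hne ?_ (ih k (by omega)) ?_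
        · convert ih (k - 1) (by omega) using 1; omega
        · exact_mod_cast ih (k + 1) (by omega)
      · have e : ((2 * k + 1 : ℕ) : ℤ) = 2 * (k : ℤ) + 1 := by push_cast; ring
        rw [e]
        exact relTwo_odd hne (by omega) (ih k (by omega)) (by exact_mod_cast ih (k + 1) (by omega))

end domain

lemma normEDS_two_three_two (n : ℤ) : normEDS (2 : ℤ) 3 2 n = n := by
  suffices h : ∀ n : ℕ, normEDS (2 : ℤ) 3 2 n = n by
    obtain ⟨m, rfl | rfl⟩ := n.eq_nat_or_neg
    · exact h m
    · rw [normEDS_neg, h]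
  intro n
  induction n using normEDSRec' with
  | zero => simp
  | one => simp
  | two => simp
  | three => simp
  | four => simp
  | even m ih =>
    have h := normEDS_even (2 : ℤ) 3 2 (m + 3)
    rw [show ((m : ℤ) + 3 - 1) = ((m + 2 : ℕ) : ℤ) by push_cast; ring,
      show ((m : ℤ) + 3 + 2) = ((m + 5 : ℕ) : ℤ) by push_cast; ring,
      show ((m : ℤ) + 3 - 2) = ((m + 1 : ℕ) : ℤ) by push_cast; ring,
      show ((m : ℤ) + 3 + 1) = ((m + 4 : ℕ) : ℤ) by push_cast; ring,
      show ((m : ℤ) + 3) = ((m + 3 : ℕ) : ℤ) by push_cast; ring] at h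
    rw [ih (m + 2) (by omega), ih (m + 5) (by omega), ih (m + 1) (by omega),
      ih (m + 4) (by omega), ih (m + 3) (by omega)] at h
    push_cast at h ⊢
    apply mul_right_cancel₀ (two_ne_zero : (2 : ℤ) ≠ 0)
    linear_combination h
  | odd m ih =>
    have h := normEDS_odd (2 : ℤ) 3 2 (m + 2)
    rw [show ((m : ℤ) + 2 + 2) = ((m + 4 : ℕ) : ℤ) by push_cast; ring,
      show ((m : ℤ) + 2 - 1) = ((m + 1 : ℕ) : ℤ) by push_cast; ring,
      show ((m : ℤ) + 2 + 1) = ((m + 3 : ℕ) : ℤ) by push_cast; ring,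
      show ((m : ℤ) + 2) = ((m + 2 : ℕ) : ℤ) by push_cast; ring] at h
    rw [ih (m + 4) (by omega), ih (m + 1) (by omega), ih (m + 3) (by omega),
      ih (m + 2) (by omega)] at h
    push_cast at h ⊢
    linear_combination h

theorem normEDS_rel_two (b c d : R) (n : ℤ) :
    normEDS b c d (n + 2) * normEDS b c d (n - 2) =
      b ^ 2 * normEDS b c d (n + 1) * normEDS b c d (n - 1) - c * normEDS b c d n ^ 2 := by
  let B : MvPolynomial (Fin 3) ℤ := MvPolynomial.X 0
  let C' : MvPolynomial (Fin 3) ℤ := MvPolynomial.X 1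
  let D : MvPolynomial (Fin 3) ℤ := MvPolynomial.X 2
  have hne : ∀ n : ℤ, n ≠ 0 → normEDS B C' D n ≠ 0 := fun n hn h => hn <| by
    have := congrArg (MvPolynomial.eval ![(2 : ℤ), 3, 2]) h
    rw [map_normEDS] at this
    simpa [B, C', D, normEDS_two_three_two] using this
  have := congrArg (MvPolynomial.eval₂Hom (Int.castRingHom R) ![b, c, d])
    (relTwo_of_ne_zero hne n)
  simpa only [B, C', D, map_normEDS, map_mul, map_sub, map_pow, MvPolynomial.eval₂Hom_X',
    Matrix.cons_val_zero, Matrix.cons_val_one, Matrix.cons_val, Fin.isValue] using this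

theorem normEDS_invariant (b c s : R) (n : ℤ) :
    normEDS b c (s * c - b ^ 4) (n + 2) * normEDS b c (s * c - b ^ 4) (n - 1) ^ 2 +
      normEDS b c (s * c - b ^ 4) (n - 2) * normEDS b c (s * c - b ^ 4) (n + 1) ^ 2 =
    -b ^ 2 * normEDS b c (s * c - b ^ 4) n ^ 3 +
      s * normEDS b c (s * c - b ^ 4) (n + 1) * normEDS b c (s * c - b ^ 4) n *
        normEDS b c (s * c - b ^ 4) (n - 1) := by
  let B : MvPolynomial (Fin 3) ℤ := MvPolynomial.X 0
  let C' : MvPolynomial (Fin 3) ℤ := MvPolynomial.X 1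
  let S : MvPolynomial (Fin 3) ℤ := MvPolynomial.X 2
  let D := S * C' - B ^ 4
  let f := normEDS B C' D
  have hne : ∀ n : ℤ, n ≠ 0 → f n ≠ 0 := fun n hn h => hn <| by
    have := congrArg (MvPolynomial.eval ![(2 : ℤ), 3, 6]) h
    simp only [f, map_normEDS] at this
    simp [B, C', S, D] at this
    norm_num [normEDS_two_three_two] at this
    exact this
  suffices key : ∀ n : ℤ, f (n + 2) * f (n - 1) ^ 2 + f (n - 2) * f (n + 1) ^ 2 =
      -B ^ 2 * f n ^ 3 + S * f (n + 1) * f n * f (n - 1) by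
    have := congrArg (MvPolynomial.eval₂Hom (Int.castRingHom R) ![b, c, s]) (key n)
    simpa only [f, B, C', S, D, map_normEDS, map_mul, map_add, map_sub, map_neg, map_pow,
      MvPolynomial.eval₂Hom_X', Matrix.cons_val_zero, Matrix.cons_val_one, Matrix.cons_val,
      Fin.isValue] using this
  suffices h : ∀ n : ℕ, f ((n : ℤ) + 2) * f ((n : ℤ) - 1) ^ 2 + f ((n : ℤ) - 2) * f ((n : ℤ) + 1) ^ 2 =
      -B ^ 2 * f n ^ 3 + S * f ((n : ℤ) + 1) * f n * f ((n : ℤ) - 1) by
    intro n
    obtain ⟨m, rfl | rfl⟩ := n.eq_nat_or_neg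
    · exact h m
    · have hm := h m
      rw [show -(m : ℤ) + 2 = -((m : ℤ) - 2) by ring, show -(m : ℤ) - 1 = -((m : ℤ) + 1) by ring,
        show -(m : ℤ) - 2 = -((m : ℤ) + 2) by ring, show -(m : ℤ) + 1 = -((m : ℤ) - 1) by ring]
      simp only [f, normEDS_neg] at hm ⊢
      linear_combination -hm
  intro n
  induction n with
  | zero => norm_num [f, normEDS_neg]
  | succ n ih =>
    rcases lt_or_ge n 2 with h | h
    · interval_cases n
      · norm_num [f, normEDS_neg]
      · norm_num [f, normEDS_neg, D]; ring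
    · have hm : f ((n : ℤ) - 1) ≠ 0 := hne _ (by omega)
      have r0 := relTwo_of_ne_zero (b := B) (c := C') (d := D) hne n
      have r1 := relTwo_of_ne_zero (b := B) (c := C') (d := D) hne (n + 1)
      unfold RelTwo at r0 r1
      push_cast
      ring_nf at r0 r1 ih hm ⊢
      apply mul_left_cancel₀ hm
      simp only [f] at *
      linear_combination normEDS B C' D (2 + (n : ℤ)) * ih + normEDS B C' D n ^ 2 * r1
        - normEDS B C' D (1 + (n : ℤ)) ^ 2 * r0

end FermatAgent.Local
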