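import Mathlib.AlgebraicGeometry.EllipticCurve.DivisionPolynomial.Degree
import Fermat.Agent.Local.EDS
import Mathlib.Tactic

/-!
# Multiplication by `n` on a Weierstrass curve via division polynomials

For a nonsingular affine point `P = (x, y)`: `n • P = 0` iff `ΨSq_n(x) = 0`, and otherwise
`x(n • P) = Φ_n(x) / ΨSq_n(x)`.
-/

set_option autoImplicit false

open Polynomial
open scoped Polynomial.Bivariate

namespace FermatAgent.Local

open WeierstrassCurve WeierstrassCurve.Affine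

variable {K : Type*} [Field K] (W : WeierstrassCurve.Affine K) {x y : K}

/-- value of the division polynomial `ψ n` at `(x, y)` -/
noncomputable def psiVal (x y : K) (n : ℤ) : K :=
  normEDS (2 * y + W.a₁ * x + W.a₃) (W.Ψ₃.eval x)
    ((6 * x ^ 2 + W.b₂ * x + W.b₄) * W.Ψ₃.eval x - (2 * y + W.a₁ * x + W.a₃) ^ 4) n

lemma equation_iff_zero (x y : K) : W.Equation x y ↔
    y ^ 2 + W.a₁ * x * y + W.a₃ * y - (x ^ 3 + W.a₂ * x ^ 2 + W.a₄ * x + W.a₆) = 0 := by
  rw [equation_iff]; exact sub_eq_zero.symm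

lemma psi2Val_sq (h : W.Equation x y) :
    (2 * y + W.a₁ * x + W.a₃) ^ 2 = W.Ψ₂Sq.eval x := by
  simp only [WeierstrassCurve.Ψ₂Sq, WeierstrassCurve.b₂, WeierstrassCurve.b₄, WeierstrassCurve.b₆,
    eval_add, eval_mul, eval_C, eval_pow, eval_X]
  linear_combination (4 : K) * (equation_iff_zero W x y).1 h

lemma eval_Ψ₃_eq (h : W.Equation x y) :
    W.Ψ₃.eval x = -(3 * x ^ 2 + 2 * W.a₂ * x + W.a₄ - W.a₁ * y) ^ 2
      - W.a₁ * (3 * x ^ 2 + 2 * W.a₂ * x + W.a₄ - W.a₁ * y) * (2 * y + W.a₁ * x + W.a₃)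
      + (3 * x + W.a₂) * (2 * y + W.a₁ * x + W.a₃) ^ 2 := by
  simp only [WeierstrassCurve.Ψ₃, WeierstrassCurve.b₂, WeierstrassCurve.b₄, WeierstrassCurve.b₆,
    WeierstrassCurve.b₈, eval_add, eval_mul, eval_C, eval_pow, eval_X, eval_ofNat]
  linear_combination -(12 * x + W.a₁ ^ 2 + 4 * W.a₂) * (equation_iff_zero W x y).1 h

lemma eval_preΨ₄_eq (h : W.Equation x y) : W.preΨ₄.eval x =
    (6 * x ^ 2 + W.b₂ * x + W.b₄) * W.Ψ₃.eval x - (2 * y + W.a₁ * x + W.a₃) ^ 4 := by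
  rw [show (2 * y + W.a₁ * x + W.a₃) ^ 4 = ((2 * y + W.a₁ * x + W.a₃) ^ 2) ^ 2 by ring,
    psi2Val_sq W h]
  simp only [WeierstrassCurve.preΨ₄, WeierstrassCurve.Ψ₂Sq, WeierstrassCurve.Ψ₃,
    WeierstrassCurve.b₂, WeierstrassCurve.b₄, WeierstrassCurve.b₆, WeierstrassCurve.b₈,
    eval_add, eval_mul, eval_C, eval_pow, eval_X, eval_ofNat]
  ring

lemma psiVal_sq (h : W.Equation x y) (n : ℤ) : psiVal W x y n ^ 2 = (W.ΨSq n).eval x := by
  rw [psiVal, ← eval_preΨ₄_eq W h, normEDS, WeierstrassCurve.ΨSq, eval_mul, eval_pow]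
  have h4 : (2 * y + W.a₁ * x + W.a₃) ^ 4 = W.Ψ₂Sq.eval x ^ 2 := by rw [← psi2Val_sq W h]; ring
  rw [h4, WeierstrassCurve.preΨ]
  rw [← Polynomial.coe_evalRingHom, map_preNormEDS, map_pow]
  rw [mul_pow]
  congr 1
  split_ifs
  · simp [psi2Val_sq W h]
  · simp

lemma psiVal_mul_eq (h : W.Equation x y) (n : ℤ) :
    x * psiVal W x y n ^ 2 - psiVal W x y (n + 1) * psiVal W x y (n - 1) = (W.Φ n).eval x := by
  rw [psiVal_sq W h, WeierstrassCurve.Φ, eval_sub, eval_mul, eval_X, eval_mul, eval_mul]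
  congr 1
  simp only [psiVal, ← eval_preΨ₄_eq W h, normEDS, WeierstrassCurve.preΨ]
  have h4 : (2 * y + W.a₁ * x + W.a₃) ^ 4 = W.Ψ₂Sq.eval x ^ 2 := by rw [← psi2Val_sq W h]; ring
  rw [h4]
  simp only [← Polynomial.coe_evalRingHom, map_preNormEDS, map_pow]
  rcases Int.even_or_odd n with hn | hn
  · have h1 : ¬ Even (n + 1) := by simpa [Int.even_add_one] using hn
    have h2 : ¬ Even (n - 1) := by simpa [Int.even_sub_one] using hn
    simp [hn, h1, h2]
  · rw [← Int.not_even_iff_odd] at hn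
    have h1 : Even (n + 1) := Int.even_add_one.2 hn
    have h2 : Even (n - 1) := Int.even_sub_one.2 hn
    rw [if_pos h1, if_pos h2, if_neg hn, Polynomial.coe_evalRingHom, ← psi2Val_sq W h]
    ring

variable [DecidableEq K]

/-- Sum and product formulas for `x(Q + P) - x(P)` and `x(Q - P) - x(P)`. -/
lemma addX_add_sub {x₁ y₁ x₂ y₂ : K} (h₁ : W.Equation x₁ y₁) (h₂ : W.Equation x₂ y₂)
    (hx : x₂ ≠ x₁) :
    (x₂ - x₁) ^ 2 * ((W.addX x₂ x₁ (W.slope x₂ x₁ y₂ y₁) - x₁)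
        * (W.addX x₂ x₁ (W.slope x₂ x₁ y₂ (W.negY x₁ y₁)) - x₁))
      = -(2 * y₁ + W.a₁ * x₁ + W.a₃) ^ 2 * (x₂ - x₁) - W.Ψ₃.eval x₁ ∧
    (x₂ - x₁) ^ 2 * ((W.addX x₂ x₁ (W.slope x₂ x₁ y₂ y₁) - x₁)
        + (W.addX x₂ x₁ (W.slope x₂ x₁ y₂ (W.negY x₁ y₁)) - x₁))
      = (2 * y₁ + W.a₁ * x₁ + W.a₃) ^ 2
        + (6 * x₁ ^ 2 + W.b₂ * x₁ + W.b₄) * (x₂ - x₁) := by
  rw [slope_of_X_ne hx, slope_of_X_ne hx, eval_Ψ₃_eq W h₁]
  set b := 2 * y₁ + W.a₁ * x₁ + W.a₃ with hb
  set N := 3 * x₁ ^ 2 + 2 * W.a₂ * x₁ + W.a₄ - W.a₁ * y₁ with hN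
  have hu : x₂ - x₁ ≠ 0 := sub_ne_zero.2 hx
  have e1 := (equation_iff_zero W x₁ y₁).1 h₁
  have e2 := (equation_iff_zero W x₂ y₂).1 h₂
  obtain ⟨u, rfl⟩ : ∃ u, x₂ = x₁ + u := ⟨x₂ - x₁, by ring⟩
  obtain ⟨D, rfl⟩ : ∃ D, y₂ = y₁ + D := ⟨y₂ - y₁, by ring⟩
  simp only [add_sub_cancel_left] at hu ⊢
  have e : D ^ 2 + W.a₁ * u * D + b * D - u ^ 3 - (3 * x₁ + W.a₂) * u ^ 2 - N * u = 0 := by
    rw [hb, hN]; linear_combination e2 - e1
  have hU : u ^ 2 * (W.addX (x₁ + u) x₁ (D / u) - x₁) = N * u - b * D := by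
    rw [addX]; field_simp; linear_combination e
  have hG : y₁ + D - W.negY x₁ y₁ = D + b := by rw [hb, negY]; ring
  rw [hG]
  have hV : u ^ 2 * (W.addX (x₁ + u) x₁ ((D + b) / u) - x₁)
      = N * u + b * D + b ^ 2 + W.a₁ * u * b := by
    rw [addX]; field_simp; linear_combination e
  generalize W.addX (x₁ + u) x₁ (D / u) - x₁ = U at hU ⊢
  generalize W.addX (x₁ + u) x₁ ((D + b) / u) - x₁ = V at hV ⊢
  refine ⟨?_, ?_⟩
  · apply mul_left_cancel₀ (pow_ne_zero 2 hu)
    linear_combination (u ^ 2 * V) * hU + (N * u - b * D) * hV - b ^ 2 * e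
  · rw [hb, hN] at hU hV
    rw [hb]
    simp only [WeierstrassCurve.b₂, WeierstrassCurve.b₄]
    linear_combination hU + hV

lemma addX_self {x₁ y₁ : K} (h₁ : W.Equation x₁ y₁) (hb : 2 * y₁ + W.a₁ * x₁ + W.a₃ ≠ 0) :
    (2 * y₁ + W.a₁ * x₁ + W.a₃) ^ 2 * (W.addX x₁ x₁ (W.slope x₁ x₁ y₁ y₁) - x₁)
      = -W.Ψ₃.eval x₁ := by
  have hy : y₁ ≠ W.negY x₁ y₁ := fun h => hb (by rw [negY] at h; linear_combination h)
  have hd : y₁ - W.negY x₁ y₁ = 2 * y₁ + W.a₁ * x₁ + W.a₃ := by rw [negY]; ring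
  rw [slope_of_Y_ne rfl hy, hd, eval_Ψ₃_eq W h₁, addX]
  generalize 2 * y₁ + W.a₁ * x₁ + W.a₃ = b at hb ⊢
  field_simp
  ring

/-- The statement of the multiplication formula at `n`. -/
def MulFormula (x y : K) (h : W.Nonsingular x y) (n : ℕ) : Prop :=
  (psiVal W x y n = 0 → n • (Point.some x y h) = 0) ∧
  (psiVal W x y n ≠ 0 → ∃ (y' : K) (h' : W.Nonsingular
      (x - psiVal W x y ((n : ℤ) + 1) * psiVal W x y ((n : ℤ) - 1) / psiVal W x y n ^ 2) y'),
    n • (Point.some x y h) = Point.some _ y' h')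

variable {W}

section

omit [DecidableEq K]

lemma some_cast {x₁ x₂ y₁ : K} {h₁ : W.Nonsingular x₁ y₁} (hx : x₁ = x₂) :
    ∃ h₂ : W.Nonsingular x₂ y₁, Point.some x₁ y₁ h₁ = Point.some x₂ y₁ h₂ := by
  subst hx; exact ⟨h₁, rfl⟩

lemma psiVal_zero : psiVal W x y 0 = 0 := normEDS_zero _ _ _
lemma psiVal_one : psiVal W x y 1 = 1 := normEDS_one _ _ _
lemma psiVal_neg (n : ℤ) : psiVal W x y (-n) = -psiVal W x y n := normEDS_neg _ _ _ n

lemma psiVal_rel (n : ℤ) :
    psiVal W x y (n + 2) * psiVal W x y (n - 2) =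
      (2 * y + W.a₁ * x + W.a₃) ^ 2 * psiVal W x y (n + 1) * psiVal W x y (n - 1)
        - W.Ψ₃.eval x * psiVal W x y n ^ 2 := normEDS_rel_two _ _ _ n

lemma psiVal_invariant (n : ℤ) :
    psiVal W x y (n + 2) * psiVal W x y (n - 1) ^ 2
      + psiVal W x y (n - 2) * psiVal W x y (n + 1) ^ 2 =
      -(2 * y + W.a₁ * x + W.a₃) ^ 2 * psiVal W x y n ^ 3 +
      (6 * x ^ 2 + W.b₂ * x + W.b₄) * psiVal W x y (n + 1) * psiVal W x y n
        * psiVal W x y (n - 1) := normEDS_invariant _ _ _ n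

/-- `ψ₂` and `ψ₃` have no common zero at a nonsingular point. -/
lemma psi_two_three_ne (h : W.Nonsingular x y) (hb : 2 * y + W.a₁ * x + W.a₃ = 0) :
    W.Ψ₃.eval x ≠ 0 := by
  have h' := (nonsingular_iff' x y).1 h
  have hN : W.a₁ * y - (3 * x ^ 2 + 2 * W.a₂ * x + W.a₄) ≠ 0 := h'.2.resolve_right (not_not.2 hb)
  rw [eval_Ψ₃_eq W h.1, hb]
  simp only [mul_zero, ne_eq, zero_pow, OfNat.ofNat_ne_zero, not_false_eq_true, sub_zero, add_zero,
    neg_eq_zero, pow_eq_zero_iff]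
  exact fun e => hN (by linear_combination -e)

end

theorem mulFormula (h : W.Nonsingular x y) (n : ℕ) : MulFormula W x y h n := by
  induction n using Nat.strong_induction_on with
  | _ n ih =>
    rcases lt_or_ge n 2 with hn | hn
    · interval_cases n
      · refine ⟨fun _ => zero_nsmul _, fun h0 => absurd ?_ h0⟩
        simpa using psiVal_zero
      · refine ⟨fun h1 => absurd h1 (by simp [psiVal_one]), fun _ => ?_⟩
        obtain ⟨h', e⟩ := some_cast (h₁ := h) (x₂ := x - psiVal W x y (((1 : ℕ) : ℤ) + 1)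
          * psiVal W x y (((1 : ℕ) : ℤ) - 1) / psiVal W x y ((1 : ℕ) : ℤ) ^ 2)
          (by simp [psiVal_zero, psiVal_one])
        exact ⟨y, h', by rw [one_nsmul, e]⟩
    obtain ⟨k, rfl⟩ : ∃ k, n = k + 2 := ⟨n - 2, by omega⟩
    obtain ⟨h1z, h1a⟩ := ih (k + 1) (by omega)
    obtain ⟨h0z, h0a⟩ := ih k (by omega)
    have hR := psiVal_rel (W := W) (x := x) (y := y) ((k : ℤ) + 1)
    have hR' := psiVal_rel (W := W) (x := x) (y := y) (k : ℤ)
    have hS := psiVal_invariant (W := W) (x := x) (y := y) ((k : ℤ) + 1)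
    have hS' := psiVal_invariant (W := W) (x := x) (y := y) (k : ℤ)
    unfold MulFormula
    push_cast at h1z h1a h0z h0a ⊢
    simp only [show (k : ℤ) + 1 + 2 = k + 3 by ring, show (k : ℤ) + 1 - 2 = k - 1 by ring,
      show (k : ℤ) + 1 + 1 = k + 2 by ring, show (k : ℤ) + 1 - 1 = k by ring,
      show (k : ℤ) + 2 + 1 = k + 3 by ring, show (k : ℤ) + 2 - 1 = k + 1 by ring]
      at hR hS h1z h1a ⊢
    -- the value one step further back
    have hback : psiVal W x y ((k : ℤ) - 1) = 0 → psiVal W x y (k : ℤ) ≠ 0 := by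
      rcases Nat.eq_zero_or_pos k with rfl | hk
      · simp [psiVal_neg, psiVal_one]
      · intro he h0
        have := h0z h0
        have h' := (ih (k - 1) (by omega)).1 (by rwa [Nat.cast_sub hk, Nat.cast_one])
        have e : (k - 1) • Point.some x y h + Point.some x y h = k • Point.some x y h := by
          rw [← succ_nsmul, Nat.sub_add_cancel hk]
        rw [h', this, zero_add] at e
        exact Point.some_ne_zero h e
    have hstep : (k + 2) • Point.some x y h = (k + 1) • Point.some x y h + Point.some x y h :=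
      succ_nsmul _ _
    have hprev : k • Point.some x y h = (k + 1) • Point.some x y h + -Point.some x y h := by
      rw [succ_nsmul, add_neg_cancel_right]
    -- case (a)
    by_cases f1 : psiVal W x y ((k : ℤ) + 1) = 0
    · have hP := h1z f1
      rw [hstep, hP, zero_add]
      have f0 : psiVal W x y (k : ℤ) ≠ 0 := by
        intro h0
        rw [hP, h0z h0] at hprev
        exact Point.some_ne_zero h (by simpa using hprev.symm)
      rw [f1] at hS hR'
      have f2 : psiVal W x y ((k : ℤ) + 2) ≠ 0 := by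
        intro h2
        rw [f1, h2] at hS'
        have hb : 2 * y + W.a₁ * x + W.a₃ = 0 := by
          have : (2 * y + W.a₁ * x + W.a₃) ^ 2 * psiVal W x y (k : ℤ) ^ 3 = 0 := by
            linear_combination hS'
          simpa [f0] using this
        rw [h2, hb] at hR'
        have : W.Ψ₃.eval x * psiVal W x y (k : ℤ) ^ 2 = 0 := by linear_combination hR'
        exact psi_two_three_ne h hb (by simpa [f0] using this)
      refine ⟨fun h2 => absurd h2 f2, fun _ => ?_⟩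
      obtain ⟨h', e⟩ := some_cast (h₁ := h) (x₂ := x - psiVal W x y ((k : ℤ) + 3)
          * psiVal W x y ((k : ℤ) + 1) / psiVal W x y ((k : ℤ) + 2) ^ 2) (by simp [f1])
      exact ⟨y, h', e⟩
    obtain ⟨y₂, h₂, hP⟩ := h1a f1
    rw [hP] at hstep hprev
    by_cases f2 : psiVal W x y ((k : ℤ) + 2) = 0
    · -- case (b2)
      obtain ⟨h₂', e⟩ := some_cast (h₁ := h₂) (x₂ := x) (by simp [f2])
      rw [e] at hstep hprev
      have hy : y₂ = W.negY x y := by
        rcases Y_eq_of_X_eq h₂'.1 h.1 rfl with hy | hy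
        · subst hy
          rw [add_neg_cancel] at hprev
          have f0 : psiVal W x y₂ (k : ℤ) = 0 := by
            by_contra h0
            obtain ⟨_, _, h3⟩ := h0a h0
            rw [hprev] at h3
            exact Point.some_ne_zero _ h3.symm
          rw [f2, f0] at hS
          have : (2 * y₂ + W.a₁ * x + W.a₃) ^ 2 * psiVal W x y₂ ((k : ℤ) + 1) ^ 3 = 0 := by
            linear_combination hS
          have hb : 2 * y₂ + W.a₁ * x + W.a₃ = 0 := by simpa [f1] using this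
          rw [negY]; linear_combination hb
        · exact hy
      refine ⟨fun _ => ?_, fun h2 => absurd f2 h2⟩
      rw [hstep]
      exact Point.add_of_Y_eq rfl hy
    refine ⟨fun h2 => absurd h2 f2, fun _ => ?_⟩
    by_cases f0 : psiVal W x y (k : ℤ) = 0
    · -- case (b3)
      have hm1 : psiVal W x y ((k : ℤ) - 1) ≠ 0 := fun he => hback he f0
      obtain ⟨h₂', e⟩ := some_cast (h₁ := h₂) (x₂ := x) (by simp [f0])
      rw [e] at hstep hprev
      rw [h0z f0] at hprev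
      have hy : y₂ = y := by
        have h' : Point.some x y₂ h₂' = Point.some x y h := by
          rw [← sub_eq_zero, sub_eq_add_neg, ← hprev]
        simpa using h'
      subst hy
      rw [f0] at hS hR
      have hb : 2 * y₂ + W.a₁ * x + W.a₃ ≠ 0 := by
        intro hb
        rw [hb] at hS
        have : psiVal W x y₂ ((k : ℤ) - 1) * psiVal W x y₂ ((k : ℤ) + 2) ^ 2 = 0 := by
          linear_combination hS
        simp [hm1, f2] at this
      have hne : y₂ ≠ W.negY x y₂ := fun he => hb (by rw [negY] at he; linear_combination he)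
      rw [Point.add_self_of_Y_ne hne] at hstep
      obtain ⟨h', e'⟩ := some_cast (h₁ := (nonsingular_add h h fun hxy => hne hxy.2))
        (x₂ := x - psiVal W x y₂ ((k : ℤ) + 3)
          * psiVal W x y₂ ((k : ℤ) + 1) / psiVal W x y₂ ((k : ℤ) + 2) ^ 2) (by
          have h2x := addX_self W h.1 hb
          have hb2 := pow_ne_zero 2 hb
          generalize W.addX x x _ = X₃ at h2x ⊢
          have key : W.Ψ₃.eval x * psiVal W x y₂ ((k : ℤ) + 2) ^ 2 =
              (2 * y₂ + W.a₁ * x + W.a₃) ^ 2 *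
                (psiVal W x y₂ ((k : ℤ) + 3) * psiVal W x y₂ ((k : ℤ) + 1)) := by
            apply mul_left_cancel₀ (pow_ne_zero 2 f1)
            linear_combination psiVal W x y₂ ((k : ℤ) + 2) ^ 2 * hR
              - psiVal W x y₂ ((k : ℤ) + 3) * hS
          have : (X₃ - x) * psiVal W x y₂ ((k : ℤ) + 2) ^ 2
              + psiVal W x y₂ ((k : ℤ) + 3) * psiVal W x y₂ ((k : ℤ) + 1) = 0 := by
            apply mul_left_cancel₀ hb2
            rw [mul_zero]
            linear_combination (psiVal W x y₂ ((k : ℤ) + 2) ^ 2) * h2x - key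
          field_simp
          linear_combination this)
      exact ⟨_, h', hstep.trans e'⟩
    -- case (b1)
    obtain ⟨y₀, h₀, hQ⟩ := h0a f0
    rw [hQ, Point.neg_some] at hprev
    obtain ⟨X₂, hX⟩ : ∃ X₂, X₂ = x - psiVal W x y ((k : ℤ) + 2) * psiVal W x y (k : ℤ)
      / psiVal W x y ((k : ℤ) + 1) ^ 2 := ⟨_, rfl⟩
    obtain ⟨h₂', e⟩ := some_cast (h₁ := h₂) hX.symm
    rw [e] at hstep hprev
    have hxne : X₂ ≠ x := by
      rw [hX, ne_eq, sub_eq_self]
      exact div_ne_zero (mul_ne_zero f2 f0) (pow_ne_zero 2 f1)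
    rw [Point.add_of_X_ne hxne] at hstep hprev
    simp only [Point.some.injEq] at hprev
    obtain ⟨-, hsum⟩ := addX_add_sub W h.1 h₂'.1 hxne
    obtain ⟨h', e'⟩ := some_cast
      (h₁ := nonsingular_add h₂' h fun hxy => hxne hxy.1)
      (x₂ := x - psiVal W x y ((k : ℤ) + 3)
          * psiVal W x y ((k : ℤ) + 1) / psiVal W x y ((k : ℤ) + 2) ^ 2) (by
        rw [← hprev.1] at hsum
        generalize W.addX X₂ x _ = X₃ at hsum ⊢
        rw [hX] at hsum
        field_simp at hsum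
        have key : (X₃ - x) * psiVal W x y ((k : ℤ) + 2) ^ 2
            + psiVal W x y ((k : ℤ) + 3) * psiVal W x y ((k : ℤ) + 1) = 0 := by
          apply mul_left_cancel₀ (pow_ne_zero 4 f0)
          rw [mul_zero]
          linear_combination hsum + psiVal W x y (k : ℤ) ^ 2 * psiVal W x y ((k : ℤ) + 1) * hS
        field_simp
        linear_combination key)
    exact ⟨_, h', hstep.trans e'⟩

omit [DecidableEq K] in
lemma psiVal_eq_zero_iff (h : W.Equation x y) (n : ℤ) :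
    psiVal W x y n = 0 ↔ (W.ΨSq n).eval x = 0 := by
  rw [← psiVal_sq W h, pow_eq_zero_iff two_ne_zero]

/-- `n • P = 0` iff `ΨSq n` vanishes at `x(P)`. -/
theorem nsmul_eq_zero_iff (h : W.Nonsingular x y) (n : ℕ) :
    n • Point.some x y h = 0 ↔ (W.ΨSq n).eval x = 0 := by
  rw [← psiVal_eq_zero_iff h.1]
  refine ⟨fun h0 => ?_, (mulFormula h n).1⟩
  by_contra hne
  obtain ⟨_, _, e⟩ := (mulFormula h n).2 hne
  exact Point.some_ne_zero _ (e.symm.trans h0)

/-- `x(n • P) = Φ n / ΨSq n`. -/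
theorem nsmul_eq_some (h : W.Nonsingular x y) (n : ℕ) (hn : (W.ΨSq n).eval x ≠ 0) :
    ∃ (x' y' : K) (h' : W.Nonsingular x' y'), n • Point.some x y h = Point.some x' y' h' ∧
      x' * (W.ΨSq n).eval x = (W.Φ n).eval x := by
  have hne : psiVal W x y n ≠ 0 := fun h0 => hn ((psiVal_eq_zero_iff h.1 n).1 h0)
  obtain ⟨y', h', e⟩ := (mulFormula h n).2 hne
  refine ⟨_, y', h', e, ?_⟩
  rw [← psiVal_sq W h.1, ← psiVal_mul_eq W h.1]
  field_simp

end FermatAgent.Local
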