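import Fermat.Agent.Local.Multiplicative
import Fermat.Prelude.Def_FLTPrelim_Ramification
import Fermat.Prelude.Def_FLTPrelim_Modularity

/-!
# The integral Frey model and the local behaviour of its `p`-torsion away from `2p`
-/

set_option autoImplicit false

namespace FermatAgent.Local

open WeierstrassCurve

variable (P : FreyPackage)

lemma frey_even_pow : (32 : ℤ) ∣ P.b ^ P.p := by
  have h2 : (2 : ℤ) ∣ P.b := (ZMod.intCast_zmod_eq_zero_iff_dvd P.b 2).1 P.hb2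
  exact (by norm_num : (32 : ℤ) ∣ (2 : ℤ) ^ 5).trans
    ((pow_dvd_pow_of_dvd h2 5).trans (pow_dvd_pow P.b P.hp5))

lemma frey_four_dvd : (4 : ℤ) ∣ P.b ^ P.p - 1 - P.a ^ P.p := by
  obtain ⟨k, hk⟩ := P.hp_odd
  have hb : ((P.b : ZMod 4)) ^ P.p = 0 := by
    rw [← Int.cast_pow]
    exact (ZMod.intCast_zmod_eq_zero_iff_dvd _ 4).2 ((by norm_num : (4 : ℤ) ∣ 32).trans (frey_even_pow P))
  refine (ZMod.intCast_zmod_eq_zero_iff_dvd _ 4).1 ?_
  push_cast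
  rw [hb, P.ha4, hk, pow_add, pow_mul, show (3 : ZMod 4) ^ 2 = 1 by decide, one_pow]
  decide

lemma frey_a₂ : 4 * P.freyCurveInt.a₂ = P.b ^ P.p - 1 - P.a ^ P.p :=
  Int.mul_ediv_cancel' (frey_four_dvd P)

lemma frey_a₄ : 16 * P.freyCurveInt.a₄ = -(P.a ^ P.p) * P.b ^ P.p :=
  Int.mul_ediv_cancel' (dvd_mul_of_dvd_right
    ((by norm_num : (16 : ℤ) ∣ 32).trans (frey_even_pow P)) _)

theorem freyCurveInt_map : P.freyCurveInt.map (Int.castRingHom ℚ) = P.freyCurve := by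
  have h2 := congrArg (Int.cast : ℤ → ℚ) (frey_a₂ P)
  have h4 := congrArg (Int.cast : ℤ → ℚ) (frey_a₄ P)
  push_cast at h2 h4
  ext
  · simp [FreyPackage.freyCurveInt, FreyPackage.freyCurve]
  · show (P.freyCurveInt.a₂ : ℚ) = ((P.b : ℚ) ^ P.p - 1 - (P.a : ℚ) ^ P.p) / 4
    linarith
  · simp [FreyPackage.freyCurveInt, FreyPackage.freyCurve]
  · show (P.freyCurveInt.a₄ : ℚ) = -((P.a : ℚ) ^ P.p) * ((P.b : ℚ) ^ P.p) / 16
    linarith
  · simp [FreyPackage.freyCurveInt, FreyPackage.freyCurve]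

theorem frey_Δ : 256 * P.freyCurveInt.Δ = (P.a * P.b * P.c) ^ (2 * P.p) := by
  have e1 : P.freyCurveInt.a₁ = 1 := rfl
  have e3 : P.freyCurveInt.a₃ = 0 := rfl
  have e6 : P.freyCurveInt.a₆ = 0 := rfl
  have h2 := frey_a₂ P
  have h4 := frey_a₄ P
  rw [pow_mul', mul_pow, mul_pow, mul_pow, mul_pow, ← P.hFLT]
  simp only [WeierstrassCurve.Δ, WeierstrassCurve.b₂, WeierstrassCurve.b₄, WeierstrassCurve.b₆,
    WeierstrassCurve.b₈, e1, e3, e6]
  generalize P.freyCurveInt.a₂ = α at h2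
  generalize P.freyCurveInt.a₄ = β at h4
  generalize P.a ^ P.p = X at *
  generalize P.b ^ P.p = Y at *
  have hY : Y = 4 * α + 1 + X := by linarith
  have h : 256 * β ^ 2 = (X * Y) ^ 2 := by
    rw [show 256 * β ^ 2 = (16 * β) ^ 2 by ring, h4]; ring
  subst hY
  linear_combination ((4 * α + 1) ^ 2 - 64 * β) * h - 4 * (X * (4 * α + 1 + X)) ^ 2 * h4

theorem frey_c₄ : P.freyCurveInt.c₄ =
    (P.a ^ P.p) ^ 2 + P.a ^ P.p * P.b ^ P.p + (P.b ^ P.p) ^ 2 := by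
  have e1 : P.freyCurveInt.a₁ = 1 := rfl
  have e3 : P.freyCurveInt.a₃ = 0 := rfl
  have h2 := frey_a₂ P
  have h4 := frey_a₄ P
  simp only [WeierstrassCurve.c₄, WeierstrassCurve.b₂, WeierstrassCurve.b₄, e1, e3]
  generalize P.a ^ P.p = X at *
  generalize P.b ^ P.p = Y at *
  linear_combination (1 + 4 * P.freyCurveInt.a₂ + Y - X) * h2 - 3 * h4

theorem frey_Δ_ne_zero : P.freyCurveInt.Δ ≠ 0 := fun h => by
  have := frey_Δ P
  rw [h, mul_zero] at this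
  exact pow_ne_zero _ P.habc0 this.symm

theorem dvd_abc_of_dvd_frey_Δ {q : ℕ} (hq : q.Prime) (h : (q : ℤ) ∣ P.freyCurveInt.Δ) :
    (q : ℤ) ∣ P.a * P.b * P.c :=
  (Nat.prime_iff_prime_int.1 hq).dvd_of_dvd_pow (frey_Δ P ▸ dvd_mul_of_dvd_right h 256)

theorem frey_c₄_not_dvd {q : ℕ} (hq : q.Prime) (h : (q : ℤ) ∣ P.freyCurveInt.Δ) :
    ¬ (q : ℤ) ∣ P.freyCurveInt.c₄ := by
  have hq' := Nat.prime_iff_prime_int.1 hq
  intro hc
  rw [frey_c₄] at hc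
  set X := P.a ^ P.p with hX
  set Y := P.b ^ P.p with hY
  have both : (q : ℤ) ∣ X → (q : ℤ) ∣ Y → False := fun h1 h2 => by
    have h12 := dvd_gcd (hq'.dvd_of_dvd_pow h1) (hq'.dvd_of_dvd_pow h2)
    rw [P.hgcdab] at h12
    exact hq'.not_dvd_one h12
  have hXY : (q : ℤ) ∣ X * Y → False := fun hd => by
    rcases hq'.dvd_mul.1 hd with h1 | h1
    · refine both h1 (hq'.dvd_of_dvd_pow (n := 2) ?_)
      have h2 := dvd_sub hc (dvd_mul_of_dvd_left h1 (X + Y))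
      rwa [show X ^ 2 + X * Y + Y ^ 2 - X * (X + Y) = Y ^ 2 by ring] at h2
    · refine both (hq'.dvd_of_dvd_pow (n := 2) ?_) h1
      have h2 := dvd_sub hc (dvd_mul_of_dvd_left h1 (X + Y))
      rwa [show X ^ 2 + X * Y + Y ^ 2 - Y * (X + Y) = X ^ 2 by ring] at h2
  rcases hq'.dvd_mul.1 (dvd_abc_of_dvd_frey_Δ P hq h) with hab | hc'
  · exact hXY (by rw [hX, hY, ← mul_pow]; exact dvd_pow hab P.hp0)
  · have hsum : (q : ℤ) ∣ X + Y := by rw [hX, hY, P.hFLT]; exact dvd_pow hc' P.hp0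
    refine hXY ?_
    have h2 := dvd_sub (dvd_mul_of_dvd_left hsum (X + Y)) hc
    rwa [show (X + Y) * (X + Y) - (X ^ 2 + X * Y + Y ^ 2) = X * Y by ring] at h2

theorem frey_isSemistableModel : P.freyCurveInt.IsSemistableModel :=
  fun _ hq h => frey_c₄_not_dvd P hq h

theorem frey_Δ_eq_pow {q : ℕ} (hq : q.Prime) (hq2 : q ≠ 2) :
    ∃ (m : ℕ) (k : ℤ), P.freyCurveInt.Δ = (q : ℤ) ^ (P.p * m) * k ∧ ¬ (q : ℤ) ∣ k := by
  have hq' := Nat.prime_iff_prime_int.1 hq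
  have h256 : ¬ (q : ℤ) ∣ 256 := fun h => by
    have := hq'.dvd_of_dvd_pow (show (q : ℤ) ∣ 2 ^ 8 by norm_num; exact h)
    exact hq2 ((Nat.prime_dvd_prime_iff_eq hq Nat.prime_two).1 (by exact_mod_cast this))
  obtain ⟨i, j, hj, hij⟩ := Nat.exists_eq_pow_mul_and_not_dvd
    (Int.natAbs_ne_zero.2 P.habc0) q hq.ne_one
  have hpow : (P.a * P.b * P.c) ^ (2 * P.p) = (q : ℤ) ^ (P.p * (2 * i)) * (j : ℤ) ^ (2 * P.p) := by
    rw [← (even_two_mul P.p).pow_abs, Int.abs_eq_natAbs, hij]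
    push_cast
    rw [mul_pow, ← pow_mul]
    ring_nf
  have hdvd : (q : ℤ) ^ (P.p * (2 * i)) ∣ P.freyCurveInt.Δ := by
    refine hq'.pow_dvd_of_dvd_mul_left _ h256 ?_
    rw [frey_Δ, hpow]; exact dvd_mul_right _ _
  obtain ⟨k, hk⟩ := hdvd
  refine ⟨2 * i, k, hk, fun hd => ?_⟩
  have h1 := frey_Δ P
  rw [hk, hpow, mul_left_comm] at h1
  have h2 := mul_left_cancel₀ (pow_ne_zero _ (by exact_mod_cast hq.ne_zero)) h1
  exact hj (Int.natCast_dvd_natCast.1 (hq'.dvd_of_dvd_pow (h2 ▸ dvd_mul_of_dvd_right hd 256)))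

/-- The mod `p` representation of the Frey curve is unramified away from `2p`. -/
theorem frey_unramifiedAt {q : ℕ} (hq : q.Prime) (hq2 : q ≠ 2) (hqp : q ≠ P.p) :
    P.GaloisRepUnramifiedAt q := by
  unfold FreyPackage.GaloisRepUnramifiedAt
  rw [← freyCurveInt_map]
  have hn : ¬ q ∣ P.p := fun h => hqp ((Nat.prime_dvd_prime_iff_eq hq P.pp).1 h)
  by_cases hbad : (q : ℤ) ∣ P.freyCurveInt.Δ
  · obtain ⟨m, k, hm, hk⟩ := frey_Δ_eq_pow P hq hq2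
    exact galoisRepUnramifiedAt_of_mult _ hq hbad (frey_c₄_not_dvd P hq hbad) P.hp_odd hn hm hk
  · exact galoisRepUnramifiedAt_of_good _ hq hbad hn

end FermatAgent.Local
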