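import Fermat.Agent.Local.TateGalois

/-!
# Multiplicative reduction: change of variables to a Tate normal form, fixed by inertia
-/

set_option autoImplicit false

namespace FermatAgent.Local

open WeierstrassCurve WeierstrassCurve.Affine

local notation "Qb" => AlgebraicClosure ℚ

variable {A : ValuationSubring Qb} {W : WeierstrassCurve.Affine Qb}

lemma mem_of_monic_quadratic {b e r : Qb} (hb : b ∈ A) (he : e ∈ A) (h : r ^ 2 + b * r + e = 0) :
    r ∈ A := by
  by_contra hr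
  have hr := one_lt_val_of_not_mem hr
  have h1 : A.valuation (r ^ 2) = A.valuation (b * r + e) := by
    rw [show r ^ 2 = -(b * r + e) by linear_combination h, Valuation.map_neg]
  have h2 : A.valuation (b * r + e) ≤ A.valuation r :=
    A.valuation.map_add_le (by rw [map_mul]; exact mul_le_of_le_one_left' (val_le_one_of_mem hb))
      ((val_le_one_of_mem he).trans hr.le)
  rw [← h1, map_pow, sq] at h2
  exact absurd h2 (not_le.2 (lt_mul_of_one_lt_left (zero_lt_one.trans hr) hr))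

lemma IntCoeffs.b₂_mem (hW : IntCoeffs A W) : W.b₂ ∈ A :=
  add_mem (pow_mem hW.a₁ 2) (mul_mem (natCast_mem A 4) hW.a₂)

lemma IntCoeffs.b₄_mem (hW : IntCoeffs A W) : W.b₄ ∈ A :=
  add_mem (mul_mem (natCast_mem A 2) hW.a₄) (mul_mem hW.a₁ hW.a₃)

/-- the abscissa of the critical point: a simple root in `A` of `6 X² + b₂ X + b₄` -/
lemma exists_critical_abscissa (hW : IntCoeffs A W) (hΔ : A.valuation W.Δ < 1)
    (hc₄ : A.valuation W.c₄ = 1) :
    ∃ r : Qb, r ∈ A ∧ 6 * r ^ 2 + W.b₂ * r + W.b₄ = 0 ∧ A.valuation (W.b₂ + 12 * r) = 1 ∧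
      (A.valuation (6 : Qb) = 1 → A.valuation ((W.b₂ + 12 * r) ^ 3 + W.c₆) < 1) := by
  have hb₂ := hW.b₂_mem
  have hb₄ := hW.b₄_mem
  rcases eq_or_ne (A.valuation (6 : Qb)) 1 with h6 | h6
  · obtain ⟨w₀, hw₀⟩ := IsAlgClosed.exists_pow_nat_eq W.c₄ two_pos
    obtain ⟨w, hw, hwc⟩ : ∃ w : Qb, w ^ 2 = W.c₄ ∧ A.valuation (w ^ 3 + W.c₆) < 1 := by
      have hprod : A.valuation (w₀ ^ 3 + W.c₆) * A.valuation (w₀ ^ 3 - W.c₆) < 1 := by
        rw [← map_mul, show (w₀ ^ 3 + W.c₆) * (w₀ ^ 3 - W.c₆) = 1728 * W.Δ by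
          linear_combination (w₀ ^ 4 + w₀ ^ 2 * W.c₄ + W.c₄ ^ 2) * hw₀ - W.c_relation, map_mul]
        exact val_mul_lt_one_of_le_of_lt (val_le_one_of_mem (natCast_mem A 1728)) hΔ
      by_cases h : A.valuation (w₀ ^ 3 + W.c₆) < 1
      · exact ⟨w₀, hw₀, h⟩
      · refine ⟨-w₀, by rw [neg_sq, hw₀], ?_⟩
        rw [show (-w₀) ^ 3 + W.c₆ = -(w₀ ^ 3 - W.c₆) by ring, Valuation.map_neg]
        by_contra h'
        exact absurd hprod (not_lt.2 (one_le_mul (not_lt.1 h) (not_lt.1 h')))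
    have hwA : w ∈ A := mem_of_monic_quadratic (zero_mem A)
      (neg_mem (mem_of_val_le_one hc₄.le)) (by rw [zero_mul, add_zero, hw, add_neg_cancel])
    have hwv : A.valuation w = 1 := (pow_eq_one_iff.1 (by rw [← map_pow, hw, hc₄])).resolve_right two_ne_zero
    have h12 : A.valuation (12 : Qb) = 1 := by
      refine le_antisymm (val_le_one_of_mem (natCast_mem A 12)) ?_
      have h3 : A.valuation (6 : Qb) * A.valuation (6 : Qb) ≤ A.valuation (12 : Qb) := by
        rw [← map_mul, show (6 : Qb) * 6 = 3 * 12 by norm_num, map_mul]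
        exact mul_le_of_le_one_left' (val_le_one_of_mem (natCast_mem A 3))
      rwa [h6, one_mul] at h3
    refine ⟨(w - W.b₂) / 12, mem_of_val_le_one ?_, ?_, ?_, fun _ => ?_⟩
    · rw [map_div₀, h12, div_one]; exact A.valuation.map_sub_le (val_le_one_of_mem hwA)
        (val_le_one_of_mem hb₂)
    · rw [WeierstrassCurve.c₄] at hw
      linear_combination (1 / 24 : Qb) * hw
    all_goals rw [show W.b₂ + 12 * ((w - W.b₂) / 12) = w by ring]
    exacts [hwv, hwc]
  · have h6' : A.valuation (6 : Qb) < 1 :=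
      lt_of_le_of_ne (val_le_one_of_mem (natCast_mem A 6)) h6
    have hb₂1 : A.valuation W.b₂ = 1 := by
      refine le_antisymm (val_le_one_of_mem hb₂) (not_lt.1 fun hlt => hc₄.not_lt ?_)
      rw [WeierstrassCurve.c₄, show W.b₂ ^ 2 - 24 * W.b₄ = W.b₂ * W.b₂ + 6 * (-4 * W.b₄) by ring]
      refine A.valuation.map_add_lt ?_ ?_ <;> rw [map_mul]
      · exact val_mul_lt_one_of_le_of_lt (val_le_one_of_mem hb₂) hlt
      · exact val_mul_lt_one_of_lt_of_le h6'
          (val_le_one_of_mem (mul_mem (neg_mem (natCast_mem A 4)) hb₄))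
    obtain ⟨r₁, hr₁⟩ := IsAlgClosed.exists_root
      (Polynomial.C 6 * Polynomial.X ^ 2 + Polynomial.C W.b₂ * Polynomial.X + Polynomial.C W.b₄) (by
        have e : (Polynomial.C (6 : Qb) * Polynomial.X ^ 2 + Polynomial.C W.b₂ * Polynomial.X
          + Polynomial.C W.b₄).degree = 2 := by compute_degree!
        rw [e]; exact two_ne_zero)
    simp only [Polynomial.IsRoot, Polynomial.eval_add, Polynomial.eval_mul, Polynomial.eval_C,
      Polynomial.eval_pow, Polynomial.eval_X] at hr₁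
    obtain ⟨r, hrA, hr⟩ : ∃ r : Qb, r ∈ A ∧ 6 * r ^ 2 + W.b₂ * r + W.b₄ = 0 := by
      by_cases h : r₁ ∈ A
      · exact ⟨r₁, h, hr₁⟩
      refine ⟨-W.b₂ / 6 - r₁, ?_, by linear_combination hr₁⟩
      by_contra h'
      have g1 := one_lt_val_of_not_mem h
      have g2 := one_lt_val_of_not_mem h'
      have key : ∀ {a : Qb}, 6 * a ^ 2 + W.b₂ * a + W.b₄ = 0 → 1 < A.valuation a →
          1 ≤ A.valuation (6 * a) := by
        intro a ha hva
        by_contra hlt
        rw [not_le] at hlt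
        have : A.valuation (6 * a + W.b₂) = 1 := by
          rw [A.valuation.map_add_eq_of_lt_right (hb₂1.symm ▸ hlt), hb₂1]
        have hv : A.valuation (a * (6 * a + W.b₂)) ≤ 1 := by
          rw [show a * (6 * a + W.b₂) = -W.b₄ by linear_combination ha]
          exact val_le_one_of_mem (neg_mem hb₄)
        rw [map_mul, this, mul_one] at hv
        exact absurd hv (not_le.2 hva)
      have h1 := one_le_mul (key hr₁ g1) (key (a := -W.b₂ / 6 - r₁) (by linear_combination hr₁) g2)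
      rw [← map_mul, show 6 * r₁ * (6 * (-W.b₂ / 6 - r₁)) = 6 * W.b₄ by
        linear_combination (-6 : Qb) * hr₁, map_mul] at h1
      exact absurd h1 (not_le.2 (val_mul_lt_one_of_lt_of_le h6' (val_le_one_of_mem hb₄)))
    refine ⟨r, hrA, hr, ?_, fun h => absurd h h6⟩
    rw [A.valuation.map_add_eq_of_lt_left, hb₂1]
    rw [hb₂1, show (12 : Qb) * r = 6 * (2 * r) by ring, map_mul]
    exact val_mul_lt_one_of_lt_of_le h6' (val_le_one_of_mem (mul_mem (natCast_mem A 2) hrA))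

/-- the ordinate of the critical point -/
lemma exists_critical_ordinate (hW : IntCoeffs A W) {r : Qb} (hr : r ∈ A)
    (hr0 : 6 * r ^ 2 + W.b₂ * r + W.b₄ = 0) (hu : A.valuation (W.b₂ + 12 * r) = 1) :
    ∃ t : Qb, t ∈ A ∧ dY W r t = 0 ∧ dX W r t = 0 := by
  rw [WeierstrassCurve.b₂, WeierstrassCurve.b₄] at hr0
  rw [WeierstrassCurve.b₂] at hu
  rcases eq_or_ne (A.valuation (2 : Qb)) 1 with h2 | h2
  · refine ⟨-(W.a₁ * r + W.a₃) / 2, mem_of_val_le_one ?_, ?_, ?_⟩
    · rw [map_div₀, h2, div_one, Valuation.map_neg]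
      exact val_le_one_of_mem (add_mem (mul_mem hW.a₁ hr) hW.a₃)
    · simp only [dY]; ring
    · simp only [dX]; linear_combination (1 / 2 : Qb) * hr0
  · have h2' : A.valuation (2 : Qb) < 1 := lt_of_le_of_ne (by simp) h2
    have ha1 : A.valuation W.a₁ = 1 := by
      refine le_antisymm (val_le_one_of_mem hW.a₁) (not_lt.1 fun hlt => hu.not_lt ?_)
      rw [show W.a₁ ^ 2 + 4 * W.a₂ + 12 * r = W.a₁ * W.a₁ + 2 * (2 * W.a₂ + 6 * r) by ring]
      refine A.valuation.map_add_lt ?_ ?_ <;> rw [map_mul]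
      · exact val_mul_lt_one_of_le_of_lt (val_le_one_of_mem hW.a₁) hlt
      · exact val_mul_lt_one_of_lt_of_le h2' (val_le_one_of_mem (add_mem
          (mul_mem (natCast_mem A 2) hW.a₂) (mul_mem (natCast_mem A 6) hr)))
    have ha0 : W.a₁ ≠ 0 := fun h => by rw [h, map_zero] at ha1; exact zero_ne_one ha1
    refine ⟨(3 * r ^ 2 + 2 * W.a₂ * r + W.a₄) / W.a₁, mem_of_val_le_one ?_, ?_, ?_⟩
    · rw [map_div₀, ha1, div_one]
      exact val_le_one_of_mem (add_mem (add_mem (mul_mem (natCast_mem A 3) (pow_mem hr 2))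
        (mul_mem (mul_mem (natCast_mem A 2) hW.a₂) hr)) hW.a₄)
    · simp only [dY]; field_simp; linear_combination hr0
    · simp only [dX]; field_simp; ring

lemma conj_b₂ {σ : Qb ≃ₐ[ℚ] Qb} (hfix : W.map (σ : Qb →+* Qb) = W) : σ W.b₂ = W.b₂ := by
  obtain ⟨h1, h2, -, -, -⟩ := conj_coeffs hfix
  simp only [WeierstrassCurve.b₂, map_add, map_mul, map_pow, map_ofNat, h1, h2]

lemma conj_b₄ {σ : Qb ≃ₐ[ℚ] Qb} (hfix : W.map (σ : Qb →+* Qb) = W) : σ W.b₄ = W.b₄ := by
  obtain ⟨h1, -, h3, h4, -⟩ := conj_coeffs hfix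
  simp only [WeierstrassCurve.b₄, map_add, map_mul, map_ofNat, h1, h3, h4]

/-- Multiplicative reduction: there is an integral change of variables, fixed by inertia, to a
Tate normal form `y² + xy = x³ + c` with `v c = v Δ`. -/
theorem exists_tate_form (hW : IntCoeffs A W) (hΔ : A.valuation W.Δ < 1) (hΔ0 : W.Δ ≠ 0)
    (hc₄ : A.valuation W.c₄ = 1) :
    ∃ C : VariableChange Qb, IsTate A (C • W).toAffine ∧
      A.valuation (C • W).a₆ = A.valuation W.Δ ∧
      A.valuation (C.u : Qb) = 1 ∧ C.r ∈ A ∧ C.s ∈ A ∧ C.t ∈ A ∧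
      ∀ σ : Qb ≃ₐ[ℚ] Qb, σ ∈ A.inertiaSubgroupIn ℚ → W.map (σ : Qb →+* Qb) = W →
        C.map (σ : Qb →+* Qb) = C := by
  obtain ⟨r, hr, hr0, hB, hB6⟩ := exists_critical_abscissa hW hΔ hc₄
  obtain ⟨t, ht, htY, htX⟩ := exists_critical_ordinate hW hr hr0 hB
  obtain ⟨s, hs⟩ := IsAlgClosed.exists_root
    (Polynomial.X ^ 2 + Polynomial.C W.a₁ * Polynomial.X + Polynomial.C (-(W.a₂ + 3 * r))) (by
      have e : (Polynomial.X ^ 2 + Polynomial.C W.a₁ * Polynomial.X
        + Polynomial.C (-(W.a₂ + 3 * r))).degree = 2 := by compute_degree!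
      rw [e]; exact two_ne_zero)
  simp only [Polynomial.IsRoot, Polynomial.eval_add, Polynomial.eval_mul, Polynomial.eval_C,
    Polynomial.eval_pow, Polynomial.eval_X] at hs
  have hsA : s ∈ A := mem_of_monic_quadratic hW.a₁
    (neg_mem (add_mem hW.a₂ (mul_mem (natCast_mem A 3) hr))) hs
  set u : Qb := 2 * s + W.a₁ with hu
  have hu2 : u ^ 2 = W.b₂ + 12 * r := by
    rw [hu, WeierstrassCurve.b₂]; linear_combination (4 : Qb) * hs
  have huv : A.valuation u = 1 := (pow_eq_one_iff.1 (by rw [← map_pow, hu2, hB])).resolve_right two_ne_zero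
  have hu0 : u ≠ 0 := fun h => by rw [h, map_zero] at huv; exact zero_ne_one huv
  set C : VariableChange Qb := ⟨Units.mk0 u hu0, r, s, t⟩ with hC
  have hCu : ((C.u⁻¹ : Qbˣ) : Qb) = u⁻¹ := rfl
  have ea₁ : (C • W).a₁ = 1 := by
    show ((C.u⁻¹ : Qbˣ) : Qb) * (W.a₁ + 2 * s) = 1
    rw [hCu, add_comm, ← hu, inv_mul_cancel₀ hu0]
  have ea₂ : (C • W).a₂ = 0 := by
    show ((C.u⁻¹ : Qbˣ) : Qb) ^ 2 * (W.a₂ - s * W.a₁ + 3 * r - s ^ 2) = 0
    rw [show W.a₂ - s * W.a₁ + 3 * r - s ^ 2 = 0 by linear_combination -hs, mul_zero]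
  have ea₃ : (C • W).a₃ = 0 := by
    show ((C.u⁻¹ : Qbˣ) : Qb) ^ 3 * (W.a₃ + r * W.a₁ + 2 * t) = 0
    simp only [dY] at htY
    rw [show W.a₃ + r * W.a₁ + 2 * t = 0 by linear_combination htY, mul_zero]
  have ea₄ : (C • W).a₄ = 0 := by
    simp only [dY] at htY
    simp only [dX] at htX
    show ((C.u⁻¹ : Qbˣ) : Qb) ^ 4 *
      (W.a₄ - s * W.a₃ + 2 * r * W.a₂ - (t + r * s) * W.a₁ + 3 * r ^ 2 - 2 * s * t) = 0
    rw [show W.a₄ - s * W.a₃ + 2 * r * W.a₂ - (t + r * s) * W.a₁ + 3 * r ^ 2 - 2 * s * t = 0 by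
      linear_combination htX - s * htY, mul_zero]
  set c := (C • W).a₆ with hc
  have hcA : A.valuation c ≤ 1 := by
    show A.valuation (((C.u⁻¹ : Qbˣ) : Qb) ^ 6 * (W.a₆ + r * W.a₄ + r ^ 2 * W.a₂ + r ^ 3
      - t * W.a₃ - t ^ 2 - r * t * W.a₁)) ≤ 1
    rw [hCu, map_mul, map_pow, map_inv₀, huv, inv_one, one_pow, one_mul]
    exact val_le_one_of_mem (sub_mem (sub_mem (sub_mem (add_mem (add_mem (add_mem hW.a₆
      (mul_mem hr hW.a₄)) (mul_mem (pow_mem hr 2) hW.a₂)) (pow_mem hr 3))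
      (mul_mem ht hW.a₃)) (pow_mem ht 2)) (mul_mem (mul_mem hr ht) hW.a₁))
  have eΔ : (C • W).Δ = -c * (1 + 432 * c) := by
    simp only [WeierstrassCurve.Δ, WeierstrassCurve.b₂, WeierstrassCurve.b₄, WeierstrassCurve.b₆,
      WeierstrassCurve.b₈, ea₁, ea₂, ea₃, ea₄, ← hc]
    ring
  have ec₆ : (C • W).c₆ = -1 - 864 * c := by
    simp only [WeierstrassCurve.c₆, WeierstrassCurve.b₂, WeierstrassCurve.b₄, WeierstrassCurve.b₆,
      ea₁, ea₂, ea₃, ea₄, ← hc]
    ring
  have hvΔ : A.valuation (C • W).Δ = A.valuation W.Δ := by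
    rw [WeierstrassCurve.variableChange_Δ, hCu, map_mul, map_pow, map_inv₀, huv, inv_one, one_pow,
      one_mul]
  have h432 : A.valuation (1 + 432 * c) = 1 := by
    rcases eq_or_ne (A.valuation (6 : Qb)) 1 with h6 | h6
    · have h864 : A.valuation (864 * c) < 1 := by
        rw [show 864 * c = -(u⁻¹ ^ 6 * ((W.b₂ + 12 * r) ^ 3 + W.c₆)) by
          rw [← hu2, mul_add, ← hCu, ← WeierstrassCurve.variableChange_c₆, ec₆, hCu]
          field_simp; ring, Valuation.map_neg, map_mul, map_pow, map_inv₀, huv, inv_one, one_pow,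
          one_mul]
        exact hB6 h6
      have h2 : A.valuation (2 : Qb) = 1 := le_antisymm (val_le_one_of_mem (natCast_mem A 2)) (by
        rw [← h6, show (6 : Qb) = 2 * 3 by norm_num, map_mul]
        exact mul_le_of_le_one_right' (val_le_one_of_mem (natCast_mem A 3)))
      rw [show (864 : Qb) * c = 2 * (432 * c) by ring, map_mul, h2, one_mul] at h864
      rw [A.valuation.map_add_eq_of_lt_left (by rwa [map_one]), map_one]
    · rw [A.valuation.map_add_eq_of_lt_left, map_one]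
      rw [map_one, show (432 : Qb) * c = 6 * (72 * c) by ring, map_mul]
      refine val_mul_lt_one_of_lt_of_le (lt_of_le_of_ne (val_le_one_of_mem (natCast_mem A 6)) h6) ?_
      rw [map_mul]; exact mul_le_one' (val_le_one_of_mem (natCast_mem A 72)) hcA
  have hcv : A.valuation c = A.valuation W.Δ := by
    rw [← hvΔ, eΔ, map_mul, Valuation.map_neg, h432, mul_one]
  refine ⟨C, ⟨ea₁, ea₂, ea₃, ea₄, fun h => ?_, hcv ▸ hΔ⟩, hcv, huv, hr, hsA, ht, ?_⟩
  · have h' : A.valuation W.Δ = 0 := by rw [← hcv]; exact (congrArg A.valuation h).trans (map_zero _)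
    exact (map_ne_zero _).2 hΔ0 h'
  intro σ hσ hfix
  obtain ⟨h1, h2, h3, h4, -⟩ := conj_coeffs hfix
  have hσr : σ r = r := inertia_fix_quadratic hσ (map_ofNat σ 6) (conj_b₂ hfix) (conj_b₄ hfix)
    (natCast_mem A 6) hr hr0 (by rw [show 2 * 6 * r + W.b₂ = W.b₂ + 12 * r by ring, hB])
  have hσs : σ s = s := inertia_fix_quadratic (a := 1) hσ (map_one σ) h1
    (e := -(W.a₂ + 3 * r)) (by simp only [map_neg, map_add, map_mul, map_ofNat, h2, hσr])
    (one_mem A) hsA (by rw [one_mul]; exact hs) (by rw [mul_one, ← hu, huv])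
  have hσt : σ t = t := by
    simp only [dY] at htY
    have := congrArg σ htY
    simp only [map_add, map_mul, map_ofNat, map_zero, h1, hσr, h3] at this
    apply mul_left_cancel₀ (two_ne_zero (α := Qb))
    linear_combination this - htY
  ext
  · show σ u = u
    simp only [hu, map_add, map_mul, map_ofNat, hσs, h1]
  all_goals assumption

end FermatAgent.Local
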