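import Fermat.Agent.Local.GoodReduction

/-!
# The component group of `y² + xy = x³ + c` with `v(c) < 1`

Points off `E₀` are `Low` of level `v x`, negatives of such, or `Mid`.  Adding low points multiplies
the levels as long as one stays low; the rest follows by halving.
-/

set_option autoImplicit false

namespace FermatAgent.Local

open WeierstrassCurve WeierstrassCurve.Affine

variable {K : Type*} [Field K] (A : ValuationSubring K) (W : WeierstrassCurve.Affine K)

/-- `W` is `y² + xy = x³ + c` with `0 ≠ v c < 1` -/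
structure IsTate : Prop where
  a₁ : W.a₁ = 1
  a₂ : W.a₂ = 0
  a₃ : W.a₃ = 0
  a₄ : W.a₄ = 0
  c_ne : W.a₆ ≠ 0
  c_lt : A.valuation W.a₆ < 1

/-- low point of level `g` -/
def Low (P : W.Point) (g : A.ValueGroup) : Prop :=
  match P with
  | .zero => False
  | .some x y _ =>
      A.valuation x = g ∧ A.valuation W.a₆ < g ^ 2 ∧ g < 1 ∧ A.valuation y < g

/-- middle point -/
def Mid (P : W.Point) : Prop :=
  match P with
  | .zero => False
  | .some x _ _ => A.valuation x < 1 ∧ A.valuation x ^ 2 ≤ A.valuation W.a₆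

variable {A W}

namespace IsTate

variable (hT : IsTate A W)
include hT

lemma intCoeffs : IntCoeffs A W where
  a₁ := hT.a₁ ▸ one_mem A
  a₂ := hT.a₂ ▸ zero_mem A
  a₃ := hT.a₃ ▸ zero_mem A
  a₄ := hT.a₄ ▸ zero_mem A
  a₆ := mem_of_val_le_one hT.c_lt.le

lemma equation' {x y : K} (h : W.Equation x y) : y * (y + x) = x ^ 3 + W.a₆ := by
  have := (equation_iff_zero W x y).1 h
  rw [hT.a₁, hT.a₂, hT.a₃, hT.a₄] at this
  linear_combination this

lemma negY' (x y : K) : W.negY x y = -y - x := by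
  rw [negY, hT.a₁, hT.a₃]; ring

lemma val_c_pos : 0 < A.valuation W.a₆ := zero_lt_iff.2 ((map_ne_zero _).2 hT.c_ne)

lemma not_inE0_iff {x y : K} (h : W.Nonsingular x y) :
    ¬ InE0 A W (.some x y h) ↔ A.valuation x < 1 := by
  have hW := hT.intCoeffs
  show ¬ (x ∉ A ∨ SmoothRed A W x y) ↔ _
  constructor
  · intro hn
    rw [not_or, not_not] at hn
    obtain ⟨hx, hs⟩ := hn
    have hy := y_mem_of_x_mem hW h.1 hx
    simp only [SmoothRed, hx, true_and, not_or] at hs
    have hb := val_lt_one_of_mem_of_ne (dY_mem hW hx hy) hs.1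
    have hN := val_lt_one_of_mem_of_ne (dX_mem hW hx hy) hs.2
    by_contra hge
    rw [not_lt] at hge
    have hx1 : A.valuation x = 1 := le_antisymm (val_le_one_of_mem hx) hge
    simp only [dY, dX, hT.a₁, hT.a₂, hT.a₃, hT.a₄] at hb hN
    have h6 : A.valuation (x * (6 * x + 1)) < 1 := by
      rw [show x * (6 * x + 1) = (2 * y + 1 * x + 0) + 2 * (3 * x ^ 2 + 2 * 0 * x + 0 - 1 * y) by ring]
      refine A.valuation.map_add_lt hb ?_
      rw [map_mul]; exact val_mul_lt_one_of_le_of_lt (val_le_one_of_mem (natCast_mem A 2)) hN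
    have h9 : A.valuation (x ^ 3 * (9 * x + 2)) < 1 := by
      rw [show x ^ 3 * (9 * x + 2) = (3 * x ^ 2 + 2 * 0 * x + 0 - 1 * y) * (y + x + 3 * x ^ 2)
          + W.a₆ by linear_combination hT.equation' h.1]
      refine A.valuation.map_add_lt ?_ hT.c_lt
      rw [map_mul]; exact val_mul_lt_one_of_lt_of_le hN (val_le_one_of_mem
        (add_mem (add_mem hy hx) (mul_mem (natCast_mem A 3) (pow_mem hx 2))))
    rw [map_mul, hx1, one_mul] at h6
    rw [map_mul, map_pow, hx1, one_pow, one_mul] at h9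
    have : A.valuation (1 : K) < 1 := by
      rw [show (1 : K) = 2 * (9 * x + 2) - 3 * (6 * x + 1) by ring]
      refine (A.valuation.map_sub _ _).trans_lt (max_lt ?_ ?_) <;> rw [map_mul]
      · exact val_mul_lt_one_of_le_of_lt (val_le_one_of_mem (natCast_mem A 2)) h9
      · exact val_mul_lt_one_of_le_of_lt (val_le_one_of_mem (natCast_mem A 3)) h6
    rw [map_one] at this
    exact lt_irrefl _ this
  · intro hx
    have hxA := mem_of_val_le_one hx.le
    have hy := y_mem_of_x_mem hW h.1 hxA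
    have hy1 : A.valuation y < 1 := by
      by_contra hge
      rw [not_lt] at hge
      have h1 : A.valuation (y * (y + x)) < 1 := by
        rw [hT.equation' h.1]
        refine A.valuation.map_add_lt ?_ hT.c_lt
        rw [map_pow]; exact pow_lt_one₀ zero_le hx three_ne_zero
      rw [map_mul, A.valuation.map_add_eq_of_lt_left (hx.trans_le hge)] at h1
      exact absurd h1 (not_lt.2 (one_le_mul hge hge))
    rintro (h' | ⟨-, h' | h'⟩)
    · exact h' hxA
    · refine h'.not_lt ?_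
      simp only [dY, hT.a₁, hT.a₃, one_mul, add_zero]
      refine A.valuation.map_add_lt ?_ hx
      rw [map_mul]; exact val_mul_lt_one_of_le_of_lt (val_le_one_of_mem (natCast_mem A 2)) hy1
    · refine h'.not_lt ?_
      simp only [dX, hT.a₁, hT.a₂, hT.a₄, one_mul, mul_zero, zero_mul, add_zero]
      refine (A.valuation.map_sub _ _).trans_lt (max_lt ?_ hy1)
      rw [map_mul]
      refine val_mul_lt_one_of_le_of_lt (val_le_one_of_mem (natCast_mem A 3)) ?_
      rw [map_pow]; exact pow_lt_one₀ zero_le hx two_ne_zero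

/-- for `v c < v(x)²`, `v x < 1`: one of `v y`, `v (y + x)` is `< v x` and the other equal -/
lemma low_or_high {x y : K} (h : W.Equation x y) (hc : A.valuation W.a₆ < A.valuation x ^ 2)
    (hx : A.valuation x < 1) :
    (A.valuation y < A.valuation x ∧ A.valuation (y + x) = A.valuation x) ∨
      (A.valuation (y + x) < A.valuation x ∧ A.valuation y = A.valuation x) := by
  have hpos : 0 < A.valuation x := zero_lt_iff.2 fun h0 => by
    rw [h0, zero_pow two_ne_zero] at hc; exact absurd hc (not_lt.2 zero_le)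
  have hprod : A.valuation y * A.valuation (y + x) < A.valuation x ^ 2 := by
    rw [← map_mul, hT.equation' h]
    refine A.valuation.map_add_lt ?_ hc
    rw [map_pow]; exact pow_lt_pow_right_of_lt_one₀ hpos hx (by norm_num)
  rcases lt_trichotomy (A.valuation y) (A.valuation x) with hlt | he | hgt
  · exact Or.inl ⟨hlt, A.valuation.map_add_eq_of_lt_right hlt⟩
  · refine Or.inr ⟨?_, he⟩
    rw [he, sq] at hprod
    exact lt_of_mul_lt_mul_left' hprod
  · rw [A.valuation.map_add_eq_of_lt_left hgt, ← sq] at hprod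
    exact absurd hprod (not_lt.2 (pow_le_pow_left' hgt.le 2))

lemma mid_vals {x y : K} (h : W.Equation x y) (hx : A.valuation x < 1)
    (hc : A.valuation x ^ 2 ≤ A.valuation W.a₆) :
    A.valuation y ^ 2 = A.valuation W.a₆ ∧ A.valuation (y + x) = A.valuation y := by
  have hprod : A.valuation y * A.valuation (y + x) = A.valuation W.a₆ := by
    rw [← map_mul, hT.equation' h]
    refine A.valuation.map_add_eq_of_lt_right ?_
    rw [map_pow, pow_succ]
    rcases eq_or_ne (A.valuation x) 0 with h0 | h0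
    · rw [h0, mul_zero]; exact hT.val_c_pos
    · exact (mul_lt_of_lt_one_right (pow_pos (zero_lt_iff.2 h0) 2) hx).trans_le hc
  rcases lt_or_ge (A.valuation x) (A.valuation y) with hlt | hge
  · rw [A.valuation.map_add_eq_of_lt_left hlt] at hprod ⊢
    exact ⟨(sq _).trans hprod, rfl⟩
  · have hle : A.valuation (y + x) ≤ A.valuation x := A.valuation.map_add_le hge le_rfl
    have h1 : A.valuation W.a₆ = A.valuation x ^ 2 := le_antisymm
      (by rw [← hprod, sq]; exact mul_le_mul' hge hle) hc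
    have hxpos : 0 < A.valuation x := zero_lt_iff.2 fun h0 => by
      rw [h0, zero_pow two_ne_zero] at h1; exact hT.val_c_pos.ne' h1
    have hye : A.valuation y = A.valuation x := le_antisymm hge (by
      by_contra hlt
      rw [not_le] at hlt
      exact (lt_of_le_of_lt (mul_le_mul' le_rfl hle) (mul_lt_mul_of_pos_right hlt hxpos)).ne
        (by rw [hprod, h1, sq]))
    rw [hye] at hprod ⊢
    rw [h1, sq] at hprod
    exact ⟨h1.symm, mul_left_cancel₀ hxpos.ne' hprod⟩

variable [DecidableEq K]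

omit [DecidableEq K] in
lemma low_not_inE0 {P : W.Point} {g} (h : Low A W P g) : ¬ InE0 A W P := by
  rcases P with _ | ⟨x, y, hP⟩
  · exact h.elim
  · rw [hT.not_inE0_iff]; exact h.1 ▸ h.2.2.1

omit [DecidableEq K] in
lemma classify {P : W.Point} (h : ¬ InE0 A W P) :
    (∃ g, Low A W P g) ∨ (∃ g, Low A W (-P) g) ∨ Mid A W P := by
  rcases P with _ | ⟨x, y, hP⟩
  · exact absurd trivial h
  rw [hT.not_inE0_iff] at h
  rcases lt_or_ge (A.valuation W.a₆) (A.valuation x ^ 2) with hc | hc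
  · rcases hT.low_or_high hP.1 hc h with ⟨h1, -⟩ | ⟨h1, -⟩
    · exact Or.inl ⟨_, rfl, hc, h, h1⟩
    · refine Or.inr (Or.inl ⟨A.valuation x, ?_⟩)
      rw [Point.neg_some]
      refine ⟨rfl, hc, h, ?_⟩
      rw [hT.negY', show -y - x = -(y + x) by ring, Valuation.map_neg]; exact h1
  · exact Or.inr (Or.inr ⟨h, hc⟩)

omit [DecidableEq K] in
set_option linter.unusedSectionVars false in -- used as `hT.not_low_and_mid`
lemma not_low_and_mid {P : W.Point} {g} (h : Low A W P g) : ¬ Mid A W P := by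
  rcases P with _ | ⟨x, y, hP⟩
  · exact h.elim
  · exact fun hm => absurd (h.1 ▸ hm.2) (not_le.2 h.2.1)

omit [DecidableEq K] in
set_option linter.unusedSectionVars false in -- used as `hT.mid_neg`
lemma mid_neg {P : W.Point} (h : Mid A W P) : Mid A W (-P) := by
  rcases P with _ | ⟨x, y, hP⟩
  · exact h.elim
  · exact h

lemma same_low {P Q : W.Point} {g} (hP : Low A W P g) (hQ : Low A W Q g) :
    InE0 A W (P - Q) := by
  rcases P with _ | ⟨x₁, y₁, h₁⟩
  · exact hP.elim
  rcases Q with _ | ⟨x₂, y₂, h₂⟩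
  · exact hQ.elim
  obtain ⟨e₁, hc, hg, hy₁⟩ := hP
  obtain ⟨e₂, -, -, hy₂⟩ := hQ
  rw [sub_eq_add_neg, Point.neg_some]
  rcases add_line h₁ ((nonsingular_neg x₂ y₂).2 h₂) with
    ⟨h, -⟩ | ⟨l, ν, x₃, h₃, h₃', h, hl₁, hl₂, e1, -, -, hxe, -⟩
  · rw [h]; trivial
  rw [h]
  by_contra hx
  rw [hT.not_inE0_iff] at hx
  simp only [hT.negY'] at hl₂ hxe
  have hD : A.valuation (y₁ + y₂ + x₂) = g := by
    rw [← e₂]; exact A.valuation.map_add_eq_of_lt_right (e₂ ▸ A.valuation.map_add_lt hy₁ hy₂)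
  have hD' : A.valuation (y₁ + y₂ + x₁) = g := by
    rw [← e₁]; exact A.valuation.map_add_eq_of_lt_right (e₁ ▸ A.valuation.map_add_lt hy₁ hy₂)
  have hu : A.valuation (x₁ - x₂) ≤ g := A.valuation.map_sub_le e₁.le e₂.le
  have hg0 : g ≠ 0 := fun h0 => by
    rw [h0, zero_pow two_ne_zero] at hc; exact absurd hc (not_lt.2 zero_le)
  have hl : 1 ≤ A.valuation l := by
    by_contra hlt
    rw [not_le] at hlt
    refine lt_irrefl g ?_
    calc g = A.valuation l * A.valuation (x₁ - x₂) := by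
          rw [← map_mul, ← hD]; congr 1; linear_combination hl₁ - hl₂
      _ ≤ A.valuation l * g := mul_le_mul' le_rfl hu
      _ < g := mul_lt_of_lt_one_left (zero_lt_iff.2 hg0) hlt
  have hl' : 1 ≤ A.valuation (l + 1) := by
    by_contra hlt
    rw [not_le] at hlt
    refine lt_irrefl g ?_
    calc g = A.valuation (l + 1) * A.valuation (x₁ - x₂) := by
          rw [← map_mul, ← hD']; congr 1; linear_combination hl₁ - hl₂
      _ ≤ A.valuation (l + 1) * g := mul_le_mul' le_rfl hu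
      _ < g := mul_lt_of_lt_one_left (zero_lt_iff.2 hg0) hlt
  have : A.valuation (l * (l + 1)) < 1 := by
    rw [show l * (l + 1) = x₁ + x₂ + x₃ by rw [e1, hT.a₁, hT.a₂]; ring]
    exact A.valuation.map_add_lt (A.valuation.map_add_lt (e₁ ▸ hg) (e₂ ▸ hg)) hx
  rw [map_mul] at this
  exact absurd this (not_lt.2 (one_le_mul hl hl'))

lemma same_mid {P Q : W.Point} (hP : Mid A W P) (hQ : Mid A W Q) :
    InE0 A W (P - Q) := by
  rcases P with _ | ⟨x₁, y₁, h₁⟩
  · exact hP.elim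
  rcases Q with _ | ⟨x₂, y₂, h₂⟩
  · exact hQ.elim
  obtain ⟨hx₁, hc₁⟩ := hP
  obtain ⟨hx₂, hc₂⟩ := hQ
  rw [sub_eq_add_neg, Point.neg_some]
  have hns := (nonsingular_neg x₂ y₂).2 h₂
  rcases add_line h₁ hns with ⟨h, -⟩ | ⟨l, ν, x₃, h₃, h₃', h, -, -, e1, -, -, -, e4⟩
  · rw [h]; trivial
  rw [h]
  by_contra hx
  rw [hT.not_inE0_iff] at hx
  obtain ⟨m₁, -⟩ := hT.mid_vals h₁.1 hx₁ hc₁
  obtain ⟨m₂, m₂'⟩ := hT.mid_vals hns.1 hx₂ hc₂
  set r := A.valuation y₁
  set yS := W.negY x₂ y₂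
  rw [hT.a₁, hT.a₂, hT.a₃, hT.a₄] at e4
  have hr : A.valuation yS = r := (pow_left_inj₀ zero_le zero_le two_ne_zero).1 (m₂.trans m₁.symm)
  have hxr : ∀ {x : K}, A.valuation x ^ 2 ≤ A.valuation W.a₆ → A.valuation x ≤ r := fun h =>
    (pow_le_pow_iff_left₀ zero_le zero_le two_ne_zero).1 (h.trans m₁.ge)
  have hr0 : 0 < r := zero_lt_iff.2 fun h0 => by
    rw [h0, zero_pow two_ne_zero] at m₁; exact hT.val_c_pos.ne m₁
  have hr1 : r < 1 := lt_of_not_ge fun hge => absurd (m₁ ▸ hT.c_lt)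
    (not_lt.2 (one_le_pow₀ hge))
  have hsmall : A.valuation (x₁ ^ 2 + x₁ * x₂ + x₂ ^ 2) < r := by
    have hrr : r * r < r := mul_lt_of_lt_one_left hr0 hr1
    refine lt_of_le_of_lt (A.valuation.map_add_le (A.valuation.map_add_le ?_ ?_) ?_) hrr <;>
      simp only [sq, map_mul] <;>
      exact mul_le_mul' (by first | exact hxr hc₁ | exact hxr hc₂)
        (by first | exact hxr hc₁ | exact hxr hc₂)
  have hden : A.valuation (y₁ + yS + 1 * x₂ + 0) ≤ r :=
    A.valuation.map_add_le (A.valuation.map_add_le (A.valuation.map_add_le le_rfl hr.le)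
      (by rw [one_mul]; exact hxr hc₂)) (by rw [map_zero]; exact zero_le)
  have hl : 1 ≤ A.valuation l := by
    by_contra hlt
    rw [not_le] at hlt
    refine lt_irrefl r ?_
    calc r = A.valuation (l * (y₁ + yS + 1 * x₂ + 0)) := by
          rw [e4, show x₁ ^ 2 + x₁ * x₂ + x₂ ^ 2 + 0 * (x₁ + x₂) + 0 - 1 * y₁
            = (x₁ ^ 2 + x₁ * x₂ + x₂ ^ 2) + -y₁ by ring,
            A.valuation.map_add_eq_of_lt_right (by rwa [Valuation.map_neg]), Valuation.map_neg]
      _ ≤ A.valuation l * r := by rw [map_mul]; exact mul_le_mul' le_rfl hden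
      _ < r := mul_lt_of_lt_one_left hr0 hlt
  have hl' : 1 ≤ A.valuation (l + 1) := by
    by_contra hlt
    rw [not_le] at hlt
    refine lt_irrefl r ?_
    calc r = A.valuation ((l + 1) * (y₁ + yS + 1 * x₂ + 0)) := by
          rw [show (l + 1) * (y₁ + yS + 1 * x₂ + 0)
            = (x₁ ^ 2 + x₁ * x₂ + x₂ ^ 2) + (yS + x₂) by linear_combination e4,
            A.valuation.map_add_eq_of_lt_right (by rwa [m₂', hr]), m₂', hr]
      _ ≤ A.valuation (l + 1) * r := by rw [map_mul]; exact mul_le_mul' le_rfl hden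
      _ < r := mul_lt_of_lt_one_left hr0 hlt
  have : A.valuation (l * (l + 1)) < 1 := by
    rw [show l * (l + 1) = x₁ + x₂ + x₃ by rw [e1, hT.a₁, hT.a₂]; ring]
    exact A.valuation.map_add_lt (A.valuation.map_add_lt hx₁ hx₂) hx
  rw [map_mul] at this
  exact absurd this (not_lt.2 (one_le_mul hl hl'))

/-- the basic addition rule -/
lemma low_add_aux {P Q : W.Point} {s t} (hP : Low A W P s) (hQ : Low A W Q t) (hst : s ≤ t) :
    ¬ InE0 A W (P + Q) ∧ (A.valuation W.a₆ < (s * t) ^ 2 → Low A W (P + Q) (s * t)) ∧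
      (A.valuation W.a₆ = (s * t) ^ 2 → Mid A W (P + Q)) := by
  rcases P with _ | ⟨x₁, y₁, h₁⟩
  · exact hP.elim
  rcases Q with _ | ⟨x₂, y₂, h₂⟩
  · exact hQ.elim
  obtain ⟨e₁, hc₁, hs, hy₁⟩ := hP
  obtain ⟨e₂, hc₂, ht, hy₂⟩ := hQ
  have hs0 : 0 < s := lt_of_le_of_lt zero_le hy₁
  have ht0 : 0 < t := lt_of_le_of_lt zero_le hy₂
  rcases add_line h₁ h₂ with ⟨-, hx, hy⟩ | ⟨l, ν, x₃, h₃, h₃', h, hl₁, -, e1, e2, e3, -, e4⟩
  · exfalso
    rw [hT.negY'] at hy
    subst hx
    have hst' : s = t := e₁.symm.trans e₂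
    refine lt_irrefl s ?_
    calc s = A.valuation (-(y₁ + y₂)) := by rw [← e₁]; congr 1; linear_combination hy
      _ < s := by rw [Valuation.map_neg]; exact A.valuation.map_add_lt hy₁ (hst' ▸ hy₂)
  rw [h]
  rw [hT.a₁, hT.a₂, hT.a₃, hT.a₄] at e4
  rw [hT.a₁, hT.a₂] at e1
  rw [hT.a₁, hT.a₃, hT.a₄] at e2
  rw [hT.a₃] at e3
  have hy₁t : A.valuation y₁ < t := hy₁.trans_le hst
  have hden : A.valuation (y₁ + y₂ + 1 * x₂ + 0) = t := by
    rw [add_zero, one_mul, ← e₂]
    exact A.valuation.map_add_eq_of_lt_right (e₂ ▸ A.valuation.map_add_lt hy₁t hy₂)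
  have hl : A.valuation l < 1 := by
    have hnum : A.valuation (l * (y₁ + y₂ + 1 * x₂ + 0)) < t := by
      rw [e4, show x₁ ^ 2 + x₁ * x₂ + x₂ ^ 2 + 0 * (x₁ + x₂) + 0 - 1 * y₁
        = (x₁ ^ 2 + x₁ * x₂ + x₂ ^ 2) + -y₁ by ring]
      refine A.valuation.map_add_lt (lt_of_le_of_lt (A.valuation.map_add_le
        (A.valuation.map_add_le ?_ ?_) ?_) (mul_lt_of_lt_one_left ht0 ht)) (by rwa [Valuation.map_neg])
      all_goals simp only [sq, map_mul, e₁, e₂]
      exacts [mul_le_mul' hst hst, mul_le_mul' hst le_rfl, le_rfl]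
    rw [map_mul, hden] at hnum
    by_contra hge
    exact absurd hnum (not_lt.2 (le_mul_of_one_le_left' (not_lt.1 hge)))
  have hll : A.valuation (l + 1) = 1 := by
    rw [A.valuation.map_add_eq_of_lt_right (by rwa [map_one]), map_one]
  have hx₃ : A.valuation x₃ < 1 := by
    rw [show x₃ = l * (l + 1) + (-x₁ + -x₂) by linear_combination e1]
    refine A.valuation.map_add_lt (by rw [map_mul, hll, mul_one]; exact hl)
      (A.valuation.map_add_lt ?_ ?_) <;> rw [Valuation.map_neg]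
    exacts [e₁ ▸ hs, e₂ ▸ ht]
  refine ⟨(hT.not_inE0_iff h₃').2 hx₃, ?_⟩
  -- it is enough to know `v ν` and `v x₃`
  have hν : A.valuation ν < s := by
    rw [show ν = y₁ + -(l * x₁) by linear_combination -hl₁]
    refine A.valuation.map_add_lt hy₁ ?_
    rw [Valuation.map_neg, map_mul, e₁]; exact mul_lt_of_lt_one_left hs0 hl
  have h21 : A.valuation (2 * l + 1) = 1 := by
    rw [A.valuation.map_add_eq_of_lt_right, map_one]
    rw [map_one, map_mul]
    exact val_mul_lt_one_of_le_of_lt (val_le_one_of_mem (natCast_mem A 2)) hl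
  set e := A.valuation x₃ with he
  have hsum : A.valuation (x₁ + x₂) ≤ t := A.valuation.map_add_le (e₁.trans_le hst) e₂.le
  have key : A.valuation W.a₆ ≤ (s * t) ^ 2 →
      A.valuation ν = s * t ∧ e ≤ s * t ∧
        (A.valuation W.a₆ < (s * t) ^ 2 → e = s * t) := by
    intro hc
    have he3 : A.valuation (ν ^ 2 + -W.a₆) = s * t * e := by
      rw [show ν ^ 2 + -W.a₆ = x₁ * x₂ * x₃ by linear_combination -e3, map_mul, map_mul, e₁, e₂]
    have he2 : A.valuation (x₁ * x₂ + x₃ * (x₁ + x₂)) = A.valuation ν := by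
      rw [show x₁ * x₂ + x₃ * (x₁ + x₂) = -(ν * (2 * l + 1)) by linear_combination e2,
        Valuation.map_neg, map_mul, h21, mul_one]
    have hle : A.valuation ν ≤ s * t := by
      by_contra hgt
      rw [not_le] at hgt
      have hsq : A.valuation (ν ^ 2 + -W.a₆) = A.valuation ν ^ 2 := by
        rw [← map_pow]
        refine A.valuation.map_add_eq_of_lt_left ?_
        rw [Valuation.map_neg, map_pow]
        exact hc.trans_lt (pow_lt_pow_left₀ hgt zero_le two_ne_zero)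
      have hνle : A.valuation ν ≤ e * t := by
        by_contra hlt
        rw [not_le] at hlt
        refine lt_irrefl (A.valuation ν) ?_
        nth_rw 1 [← he2]
        refine A.valuation.map_add_lt (by rwa [map_mul, e₁, e₂]) ?_
        rw [map_mul]; exact (mul_le_mul' le_rfl hsum).trans_lt hlt
      have hν0 : 0 < A.valuation ν := lt_of_le_of_lt zero_le hgt
      have h1 : s * t * e ≤ A.valuation ν * (e * t) := by
        rw [← he3, hsq, sq]; exact mul_le_mul' le_rfl hνle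
      have het : 0 < e * t := hν0.trans_le hνle
      rw [show s * t * e = s * (e * t) by ac_rfl] at h1
      exact absurd (le_of_mul_le_mul_right h1 het) (not_le.2 hν)
    have hst0 : 0 < s * t := mul_pos hs0 ht0
    have hele : e ≤ s * t := by
      refine le_of_mul_le_mul_left (a := s * t) ?_ hst0
      rw [← he3, ← sq]
      refine A.valuation.map_add_le ?_ (by rwa [Valuation.map_neg])
      rw [map_pow]; exact pow_le_pow_left' hle 2
    have hνe : A.valuation ν = s * t := by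
      rw [← he2, ← e₁, ← e₂, ← map_mul]
      refine A.valuation.map_add_eq_of_lt_left ?_
      rw [map_mul, map_mul, e₁, e₂]
      calc A.valuation x₃ * A.valuation (x₁ + x₂) ≤ (s * t) * t := mul_le_mul' hele hsum
        _ < s * t := mul_lt_of_lt_one_right hst0 ht
    refine ⟨hνe, hele, fun hlt => ?_⟩
    refine mul_left_cancel₀ hst0.ne' ?_
    rw [← he3, A.valuation.map_add_eq_of_lt_left, map_pow, hνe, sq]
    rw [Valuation.map_neg, map_pow, hνe]; exact hlt
  refine ⟨fun hc => ?_, fun hc => ?_⟩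
  · obtain ⟨hνe, -, heq⟩ := key hc.le
    have heq := heq hc
    refine ⟨heq, hc, heq ▸ hx₃, ?_⟩
    have hy3 : A.valuation (l * x₃ + ν) = s * t := by
      rw [← hνe]
      refine A.valuation.map_add_eq_of_lt_right ?_
      rw [map_mul, ← he, heq, hνe]
      exact mul_lt_of_lt_one_left (mul_pos hs0 ht0) hl
    rcases hT.low_or_high h₃'.1 (by rw [← he, heq]; exact hc) hx₃ with ⟨h', -⟩ | ⟨h', -⟩
    · rw [← he, heq] at h'; exact h'
    · exfalso
      rw [hT.negY', show -(l * x₃ + ν) - x₃ + x₃ = -(l * x₃ + ν) by ring, Valuation.map_neg,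
        hy3, ← he, heq] at h'
      exact lt_irrefl _ h'
  · obtain ⟨-, hele, -⟩ := key hc.le
    exact ⟨hx₃, hc ▸ pow_le_pow_left' hele 2⟩

lemma low_add {P Q : W.Point} {s t} (hP : Low A W P s) (hQ : Low A W Q t) :
    ¬ InE0 A W (P + Q) ∧ (A.valuation W.a₆ < (s * t) ^ 2 → Low A W (P + Q) (s * t)) ∧
      (A.valuation W.a₆ = (s * t) ^ 2 → Mid A W (P + Q)) := by
  rcases le_total s t with h | h
  · exact hT.low_add_aux hP hQ h
  · rw [add_comm, mul_comm s t]; exact hT.low_add_aux hQ hP h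

lemma inE0_of_sub {P Q : W.Point} (h : InE0 A W (P - Q)) (hQ : InE0 A W Q) : InE0 A W P := by
  simpa using InE0.add hT.intCoeffs h hQ

variable [IsAlgClosed K]

omit [DecidableEq K] in
/-- low points with a given abscissa exist -/
lemma exists_low_at (hΔ : W.Δ ≠ 0) {x : K} (hc : A.valuation W.a₆ < A.valuation x ^ 2)
    (hx : A.valuation x < 1) :
    ∃ (y : K) (h : W.Nonsingular x y), Low A W (.some x y h) (A.valuation x) := by
  obtain ⟨y, h⟩ := exists_point_over W hΔ x
  rcases hT.low_or_high h.1 hc hx with ⟨h1, -⟩ | ⟨h1, -⟩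
  · exact ⟨y, h, rfl, hc, hx, h1⟩
  · refine ⟨_, (nonsingular_neg x y).2 h, rfl, hc, hx, ?_⟩
    rw [hT.negY', show -y - x = -(y + x) by ring, Valuation.map_neg]; exact h1

omit [DecidableEq K] in
lemma exists_low (hΔ : W.Δ ≠ 0) {x : K} (hc : A.valuation W.a₆ < A.valuation x ^ 2)
    (hx : A.valuation x < 1) : ∃ P, Low A W P (A.valuation x) :=
  let ⟨_, _, h⟩ := hT.exists_low_at hΔ hc hx
  ⟨_, h⟩

omit hT [DecidableEq K] [IsAlgClosed K] in
lemma exists_val_eq (g : A.ValueGroup) : ∃ z : K, A.valuation z = g := A.valuation_surjective g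

omit hT [DecidableEq K] in
lemma exists_sqrt (g : A.ValueGroup) : ∃ b : A.ValueGroup, b ^ 2 = g := by
  obtain ⟨z, rfl⟩ := A.valuation_surjective g
  obtain ⟨w, hw⟩ := IsAlgClosed.exists_pow_nat_eq z two_pos
  exact ⟨A.valuation w, by rw [← map_pow, hw]⟩

lemma low_eq_of_inE0_sub (hΔ : W.Δ ≠ 0) {P Q : W.Point} {s t} (hP : Low A W P s)
    (hQ : Low A W Q t) (h : InE0 A W (P - Q)) : s = t := by
  have aux : ∀ {P Q : W.Point} {s t}, Low A W P s → Low A W Q t → InE0 A W (P - Q) → ¬ s < t := by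
    intro P Q s t hP hQ h hlt
    rcases P with _ | ⟨x₁, y₁, h₁⟩
    · exact hP.elim
    rcases Q with _ | ⟨x₂, y₂, h₂⟩
    · exact hQ.elim
    obtain ⟨e₁, hc₁, hs, hy₁⟩ := hP
    obtain ⟨e₂, hc₂, ht, hy₂⟩ := hQ
    have ht0 : 0 < t := lt_of_le_of_lt zero_le hy₂
    have hr : A.valuation (x₁ / x₂) = s / t := by rw [map_div₀, e₁, e₂]
    obtain ⟨B, hB⟩ := hT.exists_low hΔ (x := x₁ / x₂) (by
        rw [hr, div_pow]
        refine hc₁.trans_le ((le_div_iff₀ (pow_pos ht0 2)).2 ?_)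
        exact mul_le_of_le_one_right' (pow_le_one₀ zero_le ht.le))
      (by rw [hr]; exact (div_lt_one₀ ht0).2 hlt)
    rw [hr] at hB
    have hmul : t * (s / t) = s := mul_div_cancel₀ _ ht0.ne'
    have hQB := (hT.low_add (P := .some x₂ y₂ h₂) ⟨e₂, hc₂, ht, hy₂⟩ hB).2.1 (by rwa [hmul])
    rw [hmul] at hQB
    refine hT.low_not_inE0 hB ?_
    have := InE0.add hT.intCoeffs h
      (hT.same_low (P := _) (Q := .some x₁ y₁ h₁) hQB ⟨e₁, hc₁, hs, hy₁⟩)
    simpa [sub_add_sub_comm, add_sub_cancel_left] using this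
  refine le_antisymm (not_lt.1 fun hlt => ?_) (not_lt.1 (aux hP hQ h))
  exact aux hQ hP (by simpa using h.neg' hT.intCoeffs) hlt

lemma low_add_mid (hΔ : W.Δ ≠ 0) {P Q : W.Point} {s t} (hP : Low A W P s) (hQ : Low A W Q t)
    (h : Mid A W (P + Q)) : (s * t) ^ 2 = A.valuation W.a₆ := by
  rcases lt_trichotomy ((s * t) ^ 2) (A.valuation W.a₆) with hlt | he | hgt
  · exfalso
    obtain ⟨r, hr⟩ := exists_sqrt (A := A) (A.valuation W.a₆)
    obtain ⟨xs, ys, hPs, rfl⟩ : ∃ xs ys hh, P = Point.some xs ys hh := by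
      rcases P with _ | ⟨a, b, hh⟩
      exacts [hP.elim, ⟨a, b, hh, rfl⟩]
    obtain ⟨e₁, hc₁, hs, hy₁⟩ := hP
    have hs0 : 0 < s := lt_of_le_of_lt zero_le hy₁
    obtain ⟨z, hz⟩ := exists_val_eq (A := A) (r / s)
    have hr0 : 0 < r := zero_lt_iff.2 fun h0 => by
      rw [h0, zero_pow two_ne_zero] at hr; exact hT.val_c_pos.ne hr
    have hrs : r < s := (pow_lt_pow_iff_left₀ zero_le zero_le two_ne_zero).1 (hr ▸ hc₁)
    obtain ⟨B, hB⟩ := hT.exists_low hΔ (x := z) (by
        rw [hz, div_pow, hr]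
        refine (lt_div_iff₀ (pow_pos hs0 2)).2 ?_
        exact mul_lt_of_lt_one_right hT.val_c_pos (pow_lt_one₀ zero_le hs two_ne_zero))
      (by rw [hz]; exact (div_lt_one₀ hs0).2 hrs)
    rw [hz] at hB
    have hmul : s * (r / s) = r := mul_div_cancel₀ _ hs0.ne'
    have hm := (hT.low_add (P := .some xs ys hPs) ⟨e₁, hc₁, hs, hy₁⟩ hB).2.2 (by rw [hmul, hr])
    have := hT.low_eq_of_inE0_sub hΔ hQ hB (by simpa using hT.same_mid h hm)
    rw [this, hmul, hr] at hlt
    exact lt_irrefl _ hlt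
  · exact he
  · exact absurd h (hT.not_low_and_mid ((hT.low_add hP hQ).2.1 hgt))

omit [IsAlgClosed K] in
lemma low_two_nsmul_not_inE0 {P : W.Point} {a} (hP : Low A W P a) :
    ¬ InE0 A W (P + P) := (hT.low_add hP hP).1

/-- doubling a low point -/
lemma low_double (hΔ : W.Δ ≠ 0) {P : W.Point} {a} (hP : Low A W P a) :
    Low A W (P + P) (a ^ 2) ∨ (Mid A W (P + P) ∧ a ^ 4 = A.valuation W.a₆) ∨
      ∃ u, Low A W (-(P + P)) u ∧ a ^ 2 * u = A.valuation W.a₆ := by
  have h4 : a ^ 4 = (a * a) ^ 2 := by rw [← sq, ← pow_mul]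
  have hne := hT.low_two_nsmul_not_inE0 hP
  rcases hT.classify hne with ⟨u, hu⟩ | ⟨u, hu⟩ | hm
  · refine Or.inl ?_
    rcases lt_or_ge (A.valuation W.a₆) ((a * a) ^ 2) with hc | hc
    · rw [sq]; exact (hT.low_add hP hP).2.1 hc
    exfalso
    rcases P with _ | ⟨x₁, y₁, h₁⟩
    · exact hP.elim
    obtain ⟨e₁, hc₁, ha, hy₁⟩ := hP
    have hP : Low A W (.some x₁ y₁ h₁) a := ⟨e₁, hc₁, ha, hy₁⟩
    have ha0 : 0 < a := lt_of_le_of_lt zero_le hy₁
    rcases hPP : Point.some x₁ y₁ h₁ + Point.some x₁ y₁ h₁ with _ | ⟨x₂, y₂, h₂⟩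
    · rw [hPP] at hu; exact hu.elim
    rw [hPP] at hu
    obtain ⟨e₂, hc₂, hu1, hy₂⟩ := hu
    have hu : Low A W (.some x₂ y₂ h₂) u := ⟨e₂, hc₂, hu1, hy₂⟩
    have hu0 : 0 < u := lt_of_le_of_lt zero_le hy₂
    rcases lt_trichotomy a u with hau | rfl | hua
    · obtain ⟨B, hB⟩ := hT.exists_low hΔ (x := x₁ / x₂) (by
          rw [map_div₀, e₁, e₂, div_pow]
          refine hc₁.trans_le ((le_div_iff₀ (pow_pos hu0 2)).2 ?_)
          exact mul_le_of_le_one_right' (pow_le_one₀ zero_le hu1.le))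
        (by rw [map_div₀, e₁, e₂]; exact (div_lt_one₀ hu0).2 hau)
      rw [map_div₀, e₁, e₂] at hB
      have hmul : u * (a / u) = a := mul_div_cancel₀ _ hu0.ne'
      have hR := (hT.low_add hu hB).2.1 (by rwa [hmul])
      rw [hmul] at hR
      refine (hT.low_add hP hB).1 ?_
      have := hT.same_low hR hP
      rwa [← hPP, add_assoc, add_sub_cancel_left] at this
    · refine hT.low_not_inE0 hP ?_
      simpa [← hPP] using hT.same_low hu hP
    · obtain ⟨B, hB⟩ := hT.exists_low hΔ (x := x₂ / x₁) (by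
          rw [map_div₀, e₁, e₂, div_pow]
          refine hc₂.trans_le ((le_div_iff₀ (pow_pos ha0 2)).2 ?_)
          exact mul_le_of_le_one_right' (pow_le_one₀ zero_le ha.le))
        (by rw [map_div₀, e₁, e₂]; exact (div_lt_one₀ ha0).2 hua)
      rw [map_div₀, e₁, e₂] at hB
      have hmul : a * (u / a) = u := mul_div_cancel₀ _ ha0.ne'
      have hR := (hT.low_add hP hB).2.1 (by rwa [hmul])
      rw [hmul] at hR
      have := hT.low_eq_of_inE0_sub hΔ hP hB (by simpa [← hPP] using hT.same_low hu hR)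
      have hu' : u = a * a := by
        calc u = a * (u / a) := hmul.symm
          _ = a * a := by rw [← this]
      rw [hu'] at hc₂
      exact absurd hc₂ (not_lt.2 hc)
  · refine Or.inr (Or.inr ⟨u, hu, ?_⟩)
    obtain ⟨b, hb⟩ := exists_sqrt (A := A) u
    obtain ⟨z, hz⟩ := exists_val_eq (A := A) b
    rcases hR : -(P + P) with _ | ⟨x₂, y₂, h₂⟩
    · rw [hR] at hu; exact hu.elim
    rw [hR] at hu
    obtain ⟨e₂, hc₂, hu1, hy₂⟩ := hu
    have hu : Low A W (.some x₂ y₂ h₂) u := ⟨e₂, hc₂, hu1, hy₂⟩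
    have hb1 : b < 1 := (pow_lt_one_iff_of_nonneg zero_le two_ne_zero).1 (hb ▸ hu1)
    obtain ⟨H, hH⟩ := hT.exists_low hΔ (x := z) (by
        rw [hz, hb]
        refine hc₂.trans ?_
        rw [sq]; exact mul_lt_of_lt_one_left (lt_of_le_of_lt zero_le hy₂) hu1)
      (by rwa [hz])
    rw [hz] at hH
    have hHH := (hT.low_add hH hH).2.1 (by rw [← sq, hb]; exact hc₂)
    rw [← sq, hb] at hHH
    have h2 : InE0 A W ((P + H) + (P + H)) := by
      have := hT.same_low hHH hu
      rw [← hR, sub_neg_eq_add] at this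
      rwa [add_add_add_comm, add_comm (P + P)]
    rcases hT.classify (hT.low_add hP hH).1 with ⟨g, hg⟩ | ⟨g, hg⟩ | hm
    · exact absurd h2 (hT.low_two_nsmul_not_inE0 hg)
    · refine absurd ?_ (hT.low_two_nsmul_not_inE0 hg)
      simpa [neg_add_rev, add_comm] using h2.neg' hT.intCoeffs
    · rw [← hT.low_add_mid hΔ hP hH hm, mul_pow, hb]
  · refine Or.inr (Or.inl ⟨hm, ?_⟩)
    rw [h4]; exact hT.low_add_mid hΔ hP hP hm

lemma low_iterate (hΔ : W.Δ ≠ 0) (j : ℕ) : ∀ {P : W.Point} {a : A.ValueGroup},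
    Low A W P a → InE0 A W ((2 ^ j : ℕ) • P) → ∃ k : ℤ, a ^ (2 ^ j) = A.valuation W.a₆ ^ k := by
  induction j with
  | zero => intro P a hP h; rw [pow_zero, one_nsmul] at h; exact absurd h (hT.low_not_inE0 hP)
  | succ j ih =>
    intro P a hP h
    rw [pow_succ, mul_nsmul', two_nsmul] at h
    rw [pow_succ', pow_mul]
    rcases hT.low_double hΔ hP with hl | ⟨-, hm⟩ | ⟨u, hu, hau⟩
    · exact ih hl h
    · rcases j with _ | j
      · rw [pow_zero, one_nsmul] at h; exact absurd h (hT.low_two_nsmul_not_inE0 hP)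
      · refine ⟨(2 ^ j : ℕ), ?_⟩
        rw [zpow_natCast, ← hm, ← pow_mul, ← pow_mul, pow_succ' 2 j]
        congr 1; ring
    · obtain ⟨k, hk⟩ := ih hu (by rw [neg_nsmul]; exact h.neg' hT.intCoeffs)
      refine ⟨(2 ^ j : ℕ) - k, ?_⟩
      have hu0 : u ≠ 0 := fun h0 => hT.val_c_pos.ne' (by rw [← hau, h0, mul_zero])
      rw [zpow_sub₀ hT.val_c_pos.ne', ← hk, zpow_natCast, ← div_pow, ← hau,
        mul_div_assoc, div_self hu0, mul_one]

omit [IsAlgClosed K] in
lemma low_pow_nsmul {P : W.Point} {a : A.ValueGroup} (hP : Low A W P a) (n : ℕ)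
    (hn : 1 ≤ n) (hc : A.valuation W.a₆ < (a ^ n) ^ 2) : Low A W (n • P) (a ^ n) := by
  induction n, hn using Nat.le_induction with
  | base => simpa using hP
  | succ n hn ih =>
    have ha1 : a ≤ 1 := by
      rcases P with _ | ⟨x, y, h⟩
      exacts [hP.elim, hP.2.2.1.le]
    have hle : (a ^ (n + 1)) ^ 2 ≤ (a ^ n) ^ 2 :=
      pow_le_pow_left' (pow_le_pow_right_of_le_one' ha1 (Nat.le_succ n)) 2
    rw [succ_nsmul, pow_succ]
    exact (hT.low_add (ih (hc.trans_le hle)) hP).2.1 (by rwa [← pow_succ])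

omit [IsAlgClosed K] in
lemma double_iter_rel {B P : W.Point} {b : A.ValueGroup} (hB : Low A W B b) (m : ℕ) (hm : 1 ≤ m)
    {g : A.ValueGroup} (hP : Low A W P g) (hg : b ^ m = g) : InE0 A W (m • B - P) := by
  refine hT.same_low ?_ hP
  rw [← hg]
  refine hT.low_pow_nsmul hB m hm ?_
  rcases P with _ | ⟨x, y, h⟩
  exacts [hP.elim, hg ▸ hP.2.1]

/-- If `n • P ∈ E₀` for a low point of level `g` then `g ^ n` is a power of `v c`. -/
theorem low_level (hΔ : W.Δ ≠ 0) {P : W.Point} {g : A.ValueGroup} (hP : Low A W P g) {n : ℕ}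
    (hn : 1 ≤ n) (h : InE0 A W (n • P)) : ∃ k : ℤ, g ^ n = A.valuation W.a₆ ^ k := by
  rcases P with _ | ⟨x, y, hxy⟩
  · exact hP.elim
  obtain ⟨e, hc, hg, hy⟩ := hP
  have hP : Low A W (.some x y hxy) g := ⟨e, hc, hg, hy⟩
  obtain ⟨w, hw⟩ := IsAlgClosed.exists_pow_nat_eq x (show 0 < 2 ^ n by positivity)
  have hwv : A.valuation w ^ (2 ^ n) = g := by rw [← map_pow, hw, e]
  have hw1 : A.valuation w < 1 :=
    (pow_lt_one_iff_of_nonneg zero_le (by positivity)).1 (hwv ▸ hg)
  have hle : ∀ i, i ≤ 2 ^ n → g ≤ A.valuation w ^ i := fun i hi =>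
    hwv ▸ pow_le_pow_right_of_le_one' hw1.le hi
  obtain ⟨B, hB⟩ := hT.exists_low hΔ (x := w)
    (hc.trans_le (pow_le_pow_left' (by simpa using hle 1 Nat.one_le_two_pow) 2)) hw1
  have hrel := hT.double_iter_rel hB (2 ^ n) Nat.one_le_two_pow hP hwv
  have hnB := hT.low_pow_nsmul hB n hn
    (hc.trans_le (pow_le_pow_left' (hle n Nat.lt_two_pow_self.le) 2))
  have hE : InE0 A W ((2 ^ n : ℕ) • (n • B)) := by
    have h1 : InE0 A W (n • ((2 ^ n : ℕ) • B - Point.some x y hxy)) :=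
      (e0Subgroup A W hT.intCoeffs).nsmul_mem hrel n
    rw [nsmul_sub] at h1
    rw [← mul_nsmul', mul_comm, mul_nsmul']
    exact hT.inE0_of_sub h1 h
  obtain ⟨k, hk⟩ := hT.low_iterate hΔ n hnB hE
  refine ⟨k, ?_⟩
  rw [← hwv, ← pow_mul, mul_comm, pow_mul, hk]

end IsTate

end FermatAgent.Local
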