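import Fermat.Agent.Local.Tate

/-!
# Inertia on a Tate normal form `y² + xy = x³ + c` over `ℚ̄`
-/

set_option autoImplicit false

namespace FermatAgent.Local

open WeierstrassCurve WeierstrassCurve.Affine

local notation "Qb" => AlgebraicClosure ℚ

variable {A : ValuationSubring Qb} {W : WeierstrassCurve.Affine Qb}
  {σ : Qb ≃ₐ[ℚ] Qb} (hfix : W.map (σ : Qb →+* Qb) = W)

include hfix in
lemma conj_coeffs : σ W.a₁ = W.a₁ ∧ σ W.a₂ = W.a₂ ∧ σ W.a₃ = W.a₃ ∧ σ W.a₄ = W.a₄ ∧
    σ W.a₆ = W.a₆ :=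
  ⟨congrArg WeierstrassCurve.a₁ hfix, congrArg WeierstrassCurve.a₂ hfix,
    congrArg WeierstrassCurve.a₃ hfix, congrArg WeierstrassCurve.a₄ hfix,
    congrArg WeierstrassCurve.a₆ hfix⟩

include hfix in
lemma smoothRed_conj (hσ : σ ∈ A.decompositionSubgroup ℚ) {x y : Qb} (h : SmoothRed A W x y) :
    SmoothRed A W (σ x) (σ y) := by
  obtain ⟨h1, h2, h3, h4, -⟩ := conj_coeffs hfix
  refine ⟨(decomposition_mem_iff hσ x).2 h.1, ?_⟩
  have eY : dY W (σ x) (σ y) = σ (dY W x y) := by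
    simp only [dY, map_add, map_mul, map_ofNat, h1, h3]
  have eX : dX W (σ x) (σ y) = σ (dX W x y) := by
    simp only [dX, map_add, map_sub, map_mul, map_pow, map_ofNat, h1, h2, h4]
  rw [eY, eX, val_galois_eq hσ, val_galois_eq hσ]
  exact h.2

lemma inE0_conj (hσ : σ ∈ A.decompositionSubgroup ℚ) {P : W.Point} (h : InE0 A W P) :
    InE0 A W (conjPoint W (σ : Qb →+* Qb) hfix P) := by
  rcases P with _ | ⟨x, y, hP⟩
  · exact h
  · exact h.imp (fun hx h' => hx ((decomposition_mem_iff hσ x).1 h')) (smoothRed_conj hfix hσ)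

lemma low_conj (hσ : σ ∈ A.decompositionSubgroup ℚ) {P : W.Point} {g} (h : Low A W P g) :
    Low A W (conjPoint W (σ : Qb →+* Qb) hfix P) g := by
  rcases P with _ | ⟨x, y, hP⟩
  · exact h.elim
  · obtain ⟨h1, h2, h3, h4⟩ := h
    exact ⟨by rw [← h1]; exact val_galois_eq hσ x, h2, h3,
      lt_of_eq_of_lt (val_galois_eq hσ y) h4⟩

lemma mid_conj (hσ : σ ∈ A.decompositionSubgroup ℚ) {P : W.Point} (h : Mid A W P) :
    Mid A W (conjPoint W (σ : Qb →+* Qb) hfix P) := by
  rcases P with _ | ⟨x, y, hP⟩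
  · exact h.elim
  · exact ⟨lt_of_eq_of_lt (val_galois_eq hσ x) h.1,
      le_of_eq_of_le (congrArg (· ^ 2) (val_galois_eq hσ x)) h.2⟩

namespace IsTate

variable (hT : IsTate A W)
include hT

/-- decomposition moves every point within its component -/
theorem conj_sub_inE0 (hσ : σ ∈ A.decompositionSubgroup ℚ) (P : W.Point) :
    InE0 A W (conjPoint W (σ : Qb →+* Qb) hfix P - P) := by
  set f := conjPoint W (σ : Qb →+* Qb) hfix
  by_cases hP : InE0 A W P
  · exact (e0Subgroup A W hT.intCoeffs).sub_mem (inE0_conj hfix hσ hP) hP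
  rcases hT.classify hP with ⟨g, hg⟩ | ⟨g, hg⟩ | hm
  · exact hT.same_low (low_conj hfix hσ hg) hg
  · have h1 := hT.same_low (low_conj hfix hσ hg) hg
    rw [map_neg, neg_sub_neg] at h1
    simpa using h1.neg' hT.intCoeffs
  · exact hT.same_mid (mid_conj hfix hσ hm) hm

omit hT in
/-- inertia moves a point of `E₀` by an element of `E₁` -/
lemma conj_sub_inE1 (hW : IntCoeffs A W) (hσ : σ ∈ A.inertiaSubgroupIn ℚ) {R : W.Point}
    (hR : InE0 A W R) : InE1 A W (conjPoint W (σ : Qb →+* Qb) hfix R - R) := by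
  rcases R with _ | ⟨x, y, h⟩
  · rw [show (Point.zero : W.Point) = 0 from rfl, map_zero, sub_zero]; trivial
  have hd := mem_decomposition_of_inertia hσ
  rcases hR with hx | hs
  · refine (e1Subgroup A W hW).sub_mem ?_ (show InE1 A W (Point.some x y h) from hx)
    exact fun h' => hx ((decomposition_mem_iff hd x).1 h')
  · have hy := y_mem_of_x_mem hW h.1 hs.1
    exact inE1_sub_of_congr hW _ h (smoothRed_conj hfix hd hs)
      (inertia_val_sub_lt_one hσ hs.1) (inertia_val_sub_lt_one hσ hy)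

/-- for an inertia-fixed `x` there is an inertia-fixed low point of level `v x` -/
lemma exists_fixed_low (hσ : σ ∈ A.inertiaSubgroupIn ℚ) (hΔ : W.Δ ≠ 0) {x : Qb} (hx : σ x = x)
    (hc : A.valuation W.a₆ < A.valuation x ^ 2) (hx1 : A.valuation x < 1) :
    ∃ Q, Low A W Q (A.valuation x) ∧ conjPoint W (σ : Qb →+* Qb) hfix Q = Q := by
  have hx0 : x ≠ 0 := fun h0 => by
    rw [h0, map_zero, zero_pow two_ne_zero] at hc; exact absurd hc (not_lt.2 zero_le)
  obtain ⟨y, h, hQ⟩ := hT.exists_low_at hΔ hc hx1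
  refine ⟨_, hQ, ?_⟩
  obtain ⟨-, -, -, hy⟩ := hQ
  obtain ⟨-, -, -, -, h6⟩ := conj_coeffs hfix
  have hY : A.valuation (y / x) < 1 := by
    rw [map_div₀]; exact (div_lt_one₀ (zero_lt_iff.2 ((map_ne_zero _).2 hx0))).2 hy
  have hroot : (1 : Qb) * (y / x) ^ 2 + 1 * (y / x) + -(x + W.a₆ / x ^ 2) = 0 := by
    field_simp
    linear_combination hT.equation' h.1
  have hfY : σ (y / x) = y / x := inertia_fix_quadratic hσ (map_one σ) (map_one σ)
    (by simp only [map_neg, map_add, map_div₀, map_pow, hx, h6]) (one_mem A)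
    (mem_of_val_le_one hY.le) hroot (by
      rw [A.valuation.map_add_eq_of_lt_right, map_one]
      rw [map_one, mul_one, map_mul]
      exact val_mul_lt_one_of_le_of_lt (val_le_one_of_mem (natCast_mem A 2)) hY)
  rw [map_div₀, hx, div_left_inj' hx0] at hfY
  simp only [conjPoint_some, RingHom.coe_coe, hx, hfY]

/-- If `v c` is the `n`-th power of the valuation of an inertia-fixed element, then inertia fixes
the `n`-torsion (`n` odd, prime to the residue characteristic). -/
theorem torsion_fixed (hσ : σ ∈ A.inertiaSubgroupIn ℚ) (hΔ : W.Δ ≠ 0) {n : ℕ} (hodd : Odd n)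
    (hn : A.valuation (n : Qb) = 1) {d : Qb} (hd : σ d = d)
    (hdv : A.valuation d ^ n = A.valuation W.a₆) {P : W.Point} (hP : n • P = 0) :
    conjPoint W (σ : Qb →+* Qb) hfix P = P := by
  set f := conjPoint W (σ : Qb →+* Qb) hfix with hf
  by_cases hE : InE0 A W P
  · exact inertia_fix_smooth hT.intCoeffs hσ hfix hn hP hE
  have hnE : InE0 A W (n • P) := by rw [hP]; trivial
  have low_case : ∀ {P : W.Point} {g}, Low A W P g → n • P = 0 → f P = P := by
    intro P g hg hP
    obtain ⟨k, hk⟩ := hT.low_level hΔ hg hodd.pos (by rw [hP]; trivial)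
    rw [← hdv, ← zpow_natCast (A.valuation d), ← zpow_mul, mul_comm, zpow_mul,
      zpow_natCast] at hk
    have hgd : g = A.valuation (d ^ k) := by
      rw [map_zpow₀]
      exact (pow_left_inj₀ zero_le zero_le hodd.pos.ne').1 hk
    have hx : σ (d ^ k) = d ^ k := by rw [map_zpow₀, hd]
    obtain ⟨Q, hQ, hQf⟩ : ∃ Q, Low A W Q (A.valuation (d ^ k)) ∧ f Q = Q := by
      rcases P with _ | ⟨a, b, h⟩
      · exact hg.elim
      · exact hT.exists_fixed_low hfix hσ hΔ hx (hgd ▸ hg.2.1) (hgd ▸ hg.2.2.1)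
    have hR := conj_sub_inE1 hfix hT.intCoeffs hσ (hT.same_low (hgd ▸ hg) hQ)
    rw [map_sub, hQf, sub_sub_sub_cancel_right] at hR
    rw [← sub_eq_zero]
    have h0 : n • (f P - P) = 0 := by rw [nsmul_sub, ← map_nsmul, hP, map_zero, sub_zero]
    rcases hc : f P - P with _ | ⟨a, b, h⟩
    · rfl
    · rw [hc] at hR h0
      exact absurd (x_mem_of_nsmul_eq_zero hT.intCoeffs hn h h0) hR
  rcases hT.classify hE with ⟨g, hg⟩ | ⟨g, hg⟩ | hm
  · exact low_case hg hP
  · have := low_case hg (by rw [neg_nsmul, hP, neg_zero])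
    rwa [map_neg, neg_inj] at this
  · exfalso
    obtain ⟨m, rfl⟩ := hodd
    have h2 : InE0 A W (P + P) := by simpa using hT.same_mid hm (hT.mid_neg hm)
    have h3 := (e0Subgroup A W hT.intCoeffs).nsmul_mem h2 m
    rw [succ_nsmul, mul_comm, mul_nsmul', two_nsmul] at hnE
    refine hE ?_
    simpa [nsmul_add, mem_e0Subgroup] using (e0Subgroup A W hT.intCoeffs).sub_mem hnE h3

end IsTate

end FermatAgent.Local
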